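import Mathlib
import Fermat.Prelude.Def_AlgebraicCurve_Repartitions
import Fermat.Agent.X0.Alg.PlaceBasic

/-!
# FF (function fields, characteristic free): repartitions, basic dictionary

`K` a field, `F / K` a field extension with the Prelude's places `Place K F`, divisors,
repartitions `repartitions K F`, `repartitionsOf D` (`= A(D)`), `riemannRochSpace D` (`= L(D)`),
`principalRepartitions K F` (`= F`, diagonally) and `H1 D = A / (A(D) + F)`.

* `mem_repartitions_iff` : a family `α : Place K F → F` is a repartition iff it has finitely many
  poles (under `HasPrincipalDivisors K F`, which makes the constant families repartitions with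
  finitely many poles);
* `diag : F →ₗ[K] ↥(repartitions K F)` the diagonal embedding, `range_diag`,
  `comap_diag_repartitionsOf` (`L(D) = A(D) ∩ F`);
* `poleDivisor α`, `mem_repartitionsOf_poleDivisor` : every repartition lies in some `A(D)`.
-/

set_option autoImplicit false

open AlgebraicCurve Fermat.Agent.X0

namespace Fermat.Agent.FF

variable {K F : Type*} [Field K] [Field F] [Algebra K F]

/-- Shortcut instance: the additive group structure on the repartitions (nested instance search
does not find it through `Subalgebra.toRing`). Activate with `attribute [local instance]`. -/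
@[reducible] noncomputable def addCommGroupRepartitions (K F : Type*) [Field K] [Field F]
    [Algebra K F] : AddCommGroup ↥(repartitions K F) :=
  (repartitions K F).toRing.toAddCommGroup

attribute [local instance] addCommGroupRepartitions

/-- The set of poles of a nonzero function is finite (from `HasPrincipalDivisors`). -/
theorem finite_poles [HasPrincipalDivisors K F] (f : F) : {v : Place K F | v.ord f < 0}.Finite := by
  rcases eq_or_ne f 0 with rfl | hf
  · simp
  obtain ⟨D, hD, -⟩ := HasPrincipalDivisors.exists_divisor (K := K) f hf
  refine D.support.finite_toSet.subset fun v hv => ?_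
  rw [Finset.mem_coe, Finsupp.mem_support_iff, hD v]
  exact ne_of_lt hv

/-- The set of zeros and poles of a nonzero function is finite. -/
theorem finite_support_ord [HasPrincipalDivisors K F] {f : F} (hf : f ≠ 0) :
    {v : Place K F | v.ord f ≠ 0}.Finite := by
  obtain ⟨D, hD, -⟩ := HasPrincipalDivisors.exists_divisor (K := K) f hf
  refine D.support.finite_toSet.subset fun v hv => ?_
  rw [Finset.mem_coe, Finsupp.mem_support_iff, hD v]
  exact hv

theorem not_adicValuation_le_one_iff (v : Place K F) (f : F) :
    ¬ v.adicValuation f ≤ 1 ↔ v.ord f < 0 := v.not_adicValuation_le_one_iff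

/-- Families with finitely many poles form the repartitions. -/
theorem mem_repartitions_iff [HasPrincipalDivisors K F] {α : Place K F → F} :
    α ∈ repartitions K F ↔ {v : Place K F | v.ord (α v) < 0}.Finite := by
  constructor
  · intro h
    unfold repartitions at h
    induction h using Algebra.adjoin_induction with
    | mem x hx =>
      have hx' : {v : Place K F | ¬ v.adicValuation (x v) ≤ 1}.Finite := hx
      refine hx'.subset fun v hv => ?_
      exact (not_adicValuation_le_one_iff v _).mpr hv
    | algebraMap r => exact finite_poles r
    | add x y _ _ hx hy =>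
      refine (hx.union hy).subset fun v hv => ?_
      by_contra hcon
      rw [Set.mem_union, not_or] at hcon
      have h1 : 0 ≤ v.ord (x v) := not_lt.mp hcon.1
      have h2 : 0 ≤ v.ord (y v) := not_lt.mp hcon.2
      have h3 : x v + y v ∈ v.toValuationSubring :=
        add_mem (Place.mem_of_ord_nonneg v h1) (Place.mem_of_ord_nonneg v h2)
      have h4 := Place.ord_nonneg_of_mem v h3
      have hv' : v.ord ((x + y) v) < 0 := hv
      rw [Pi.add_apply] at hv'
      omega
    | mul x y _ _ hx hy =>
      refine (hx.union hy).subset fun v hv => ?_
      by_contra hcon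
      rw [Set.mem_union, not_or] at hcon
      have h1 : 0 ≤ v.ord (x v) := not_lt.mp hcon.1
      have h2 : 0 ≤ v.ord (y v) := not_lt.mp hcon.2
      have h3 : x v * y v ∈ v.toValuationSubring :=
        mul_mem (Place.mem_of_ord_nonneg v h1) (Place.mem_of_ord_nonneg v h2)
      have h4 := Place.ord_nonneg_of_mem v h3
      have hv' : v.ord ((x * y) v) < 0 := hv
      rw [Pi.mul_apply] at hv'
      omega
  · intro h
    exact mem_repartitions_of_finite_ord h

/-- The diagonal embedding of `F` into the repartitions, as a `K`-linear map. -/
noncomputable def diag (K F : Type*) [Field K] [Field F] [Algebra K F] :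
    F →ₗ[K] ↥(repartitions K F) :=
  (Algebra.linearMap F ↥(repartitions K F)).restrictScalars K

@[simp] theorem diag_apply (f : F) (v : Place K F) :
    ((diag K F f : ↥(repartitions K F)) : Place K F → F) v = f := rfl

theorem diag_injective [Nonempty (Place K F)] : Function.Injective (diag K F) := by
  intro f g h
  obtain ⟨v⟩ := ‹Nonempty (Place K F)›
  have := congrArg (fun a : ↥(repartitions K F) => (a : Place K F → F) v) h
  simpa using this

theorem range_diag : LinearMap.range (diag K F) = principalRepartitions K F := by
  ext α
  rw [mem_principalRepartitions_iff, LinearMap.mem_range]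
  constructor
  · rintro ⟨f, rfl⟩
    exact ⟨f, rfl⟩
  · rintro ⟨f, hf⟩
    exact ⟨f, Subtype.ext hf.symm⟩

/-- `L(D) = A(D) ∩ F`. -/
theorem comap_diag_repartitionsOf (D : Divisor K F) :
    (repartitionsOf D).comap (diag K F) = riemannRochSpace D := by
  ext f
  rfl

theorem map_diag_riemannRochSpace (D : Divisor K F) :
    (riemannRochSpace D).map (diag K F) = repartitionsOf D ⊓ principalRepartitions K F := by
  rw [← comap_diag_repartitionsOf, Submodule.map_comap_eq, range_diag, inf_comm]

theorem repartitionsOf_le_iff_apply {D : Divisor K F} {α : ↥(repartitions K F)} :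
    α ∈ repartitionsOf D ↔
      ∀ v : Place K F, (α : Place K F → F) v = 0 ∨ -D v ≤ v.ord ((α : Place K F → F) v) :=
  mem_repartitionsOf_iff

/-- A divisor bounding the poles of a repartition. -/
noncomputable def poleDivisor [HasPrincipalDivisors K F] (α : ↥(repartitions K F)) :
    Divisor K F :=
  Finsupp.onFinset (mem_repartitions_iff.mp α.2).toFinset
    (fun v => max 0 (-v.ord ((α : Place K F → F) v))) (by
      intro v hv
      rw [Set.Finite.mem_toFinset]
      show v.ord ((α : Place K F → F) v) < 0
      by_contra hcon
      apply hv
      rw [max_eq_left]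
      omega)

theorem poleDivisor_apply [HasPrincipalDivisors K F] (α : ↥(repartitions K F)) (v : Place K F) :
    poleDivisor α v = max 0 (-v.ord ((α : Place K F → F) v)) := rfl

theorem poleDivisor_nonneg [HasPrincipalDivisors K F] (α : ↥(repartitions K F)) :
    0 ≤ poleDivisor α := by
  intro v
  rw [poleDivisor_apply]
  exact le_max_left _ _

theorem mem_repartitionsOf_poleDivisor [HasPrincipalDivisors K F] (α : ↥(repartitions K F)) :
    α ∈ repartitionsOf (poleDivisor α) := by
  rw [mem_repartitionsOf_iff]
  intro v
  right
  rw [poleDivisor_apply]
  have := le_max_right (0 : ℤ) (-v.ord ((α : Place K F → F) v))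
  omega

end Fermat.Agent.FF
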