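import Mathlib
import Fermat.Agent.FF.Repartition
import Fermat.Agent.X0.RR.Additivity

/-!
# FF: the local step `A(D) / A(D - v) ≃ k(v)` and `dim A(D') / A(D) = deg D' - deg D`

* `unif v` : a uniformiser of the place `v`;
* `stepMap D v : A(D) →ₗ[K] k(v)`, `α ↦ (π_v ^ D(v) * α_v mod 𝔪_v)`, with kernel `A(D - v)` and
  surjective: `stepEquiv`;
* `relRank_repartitionsOf_single` : `relRank A(D - v) A(D) = rank_K k(v)`;
* `relRank_repartitionsOf` : for `D ≤ D'` (all residue fields finite over `K`)
  `relRank A(D) A(D') = deg D' - deg D`.
-/

set_option autoImplicit false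

open AlgebraicCurve Fermat.Agent.X0 Fermat.Agent.X0.RR

namespace Fermat.Agent.FF

variable {K F : Type*} [Field K] [Field F] [Algebra K F]

attribute [local instance] addCommGroupRepartitions

/-- A uniformiser at the place `v`, as an element of `F`. -/
noncomputable def unif (v : Place K F) : F :=
  ((Classical.choose (IsDiscreteValuationRing.exists_irreducible v.toValuationSubring) :
    v.toValuationSubring) : F)

theorem ord_unif (v : Place K F) : v.ord (unif v) = 1 :=
  v.ord_coe_irreducible
    (Classical.choose_spec (IsDiscreteValuationRing.exists_irreducible v.toValuationSubring))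

theorem unif_ne_zero (v : Place K F) : unif v ≠ 0 := by
  intro h
  have := ord_unif v
  rw [h, v.ord_zero] at this
  omega

theorem ord_unif_zpow (v : Place K F) (n : ℤ) : v.ord (unif v ^ n) = n := by
  rw [v.ord_zpow, ord_unif, mul_one]

theorem ord_unif_zpow_mul (v : Place K F) (n : ℤ) {f : F} (hf : f ≠ 0) :
    v.ord (unif v ^ n * f) = n + v.ord f := by
  rw [v.ord_mul (zpow_ne_zero n (unif_ne_zero v)) hf, ord_unif_zpow]

/-- For `x` in the valuation ring: `x` lies in the maximal ideal iff `x = 0` or `0 < ord x`. -/
theorem mem_maximalIdeal_iff (v : Place K F) (x : v.toValuationSubring) :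
    x ∈ IsLocalRing.maximalIdeal v.toValuationSubring ↔ (x : F) = 0 ∨ 0 < v.ord (x : F) := by
  rw [IsLocalRing.mem_maximalIdeal, mem_nonunits_iff, ← v.adicValuation_coe_eq_one_iff]
  rcases eq_or_ne (x : F) 0 with h0 | h0
  · simp [h0]
  · rw [AlgebraicCurve.Place.adicValuation_eq_exp_neg_ord v h0]
    have hnn : 0 ≤ v.ord (x : F) := Place.ord_nonneg_of_mem v x.2
    constructor
    · intro h
      right
      rcases lt_or_eq_of_le hnn with h1 | h1
      · exact h1
      · exfalso
        apply h
        rw [← h1]
        simp
    · rintro (h | h)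
      · exact absurd h h0
      · intro h1
        rw [← WithZero.exp_zero, WithZero.exp_inj] at h1
        omega

theorem unif_zpow_mul_mem (D : Divisor K F) (v : Place K F) {α : ↥(repartitions K F)}
    (hα : α ∈ repartitionsOf D) :
    unif v ^ (D v) * (α : Place K F → F) v ∈ v.toValuationSubring := by
  rcases mem_repartitionsOf_iff.mp hα v with h0 | h
  · rw [h0, mul_zero]
    exact zero_mem _
  · rcases eq_or_ne ((α : Place K F → F) v) 0 with h0 | h0
    · rw [h0, mul_zero]
      exact zero_mem _
    apply Place.mem_of_ord_nonneg
    rw [ord_unif_zpow_mul v _ h0]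
    omega

/-- The local step map `A(D) → k(v)`, `α ↦ π_v ^ D(v) * α_v mod 𝔪_v`. -/
noncomputable def stepMap (D : Divisor K F) (v : Place K F) :
    ↥(repartitionsOf D) →ₗ[K] v.ResidueField where
  toFun α := IsLocalRing.residue v.toValuationSubring
    ⟨unif v ^ (D v) * ((α : ↥(repartitions K F)) : Place K F → F) v, unif_zpow_mul_mem D v α.2⟩
  map_add' α β := by
    rw [← map_add]
    congr 1
    apply Subtype.ext
    show unif v ^ (D v) * (((α + β : ↥(repartitionsOf D)) : ↥(repartitions K F)) :
      Place K F → F) v = unif v ^ (D v) * ((α : ↥(repartitions K F)) : Place K F → F) v +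
        unif v ^ (D v) * ((β : ↥(repartitions K F)) : Place K F → F) v
    rw [← mul_add]
    rfl
  map_smul' c α := by
    rw [RingHom.id_apply, Algebra.smul_def, IsScalarTower.algebraMap_apply K v.toValuationSubring
      v.ResidueField, IsLocalRing.ResidueField.algebraMap_eq, ← map_mul]
    congr 1
    apply Subtype.ext
    show unif v ^ (D v) * (((c • α : ↥(repartitionsOf D)) : ↥(repartitions K F)) :
      Place K F → F) v = algebraMap K F c *
        (unif v ^ (D v) * ((α : ↥(repartitions K F)) : Place K F → F) v)
    have h1 : (((c • α : ↥(repartitionsOf D)) : ↥(repartitions K F)) : Place K F → F) v =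
        algebraMap K F c * ((α : ↥(repartitions K F)) : Place K F → F) v := by
      show c • ((α : ↥(repartitions K F)) : Place K F → F) v = _
      rw [Algebra.smul_def]
    rw [h1]
    ring

theorem stepMap_apply (D : Divisor K F) (v : Place K F) (α : ↥(repartitionsOf D)) :
    stepMap D v α = IsLocalRing.residue v.toValuationSubring
      ⟨unif v ^ (D v) * ((α : ↥(repartitions K F)) : Place K F → F) v,
        unif_zpow_mul_mem D v α.2⟩ := rfl

theorem ker_stepMap (D : Divisor K F) (v : Place K F) :
    LinearMap.ker (stepMap D v) =
      (repartitionsOf (D - Finsupp.single v 1)).comap (repartitionsOf D).subtype := by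
  classical
  ext α
  rw [LinearMap.mem_ker, stepMap_apply, IsLocalRing.residue_eq_zero_iff, mem_maximalIdeal_iff,
    Submodule.mem_comap, Submodule.subtype_apply, mem_repartitionsOf_iff]
  have hα := mem_repartitionsOf_iff.mp α.2
  constructor
  · intro h w
    by_cases hwv : w = v
    · subst hwv
      rcases eq_or_ne (((α : ↥(repartitions K F)) : Place K F → F) w) 0 with h0 | h0
      · exact Or.inl h0
      right
      rcases h with h | h
      · exfalso
        rcases mul_eq_zero.mp h with h1 | h1
        · exact zpow_ne_zero _ (unif_ne_zero w) h1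
        · exact h0 h1
      · have h2 : w.ord (unif w ^ (D w) * ((α : ↥(repartitions K F)) : Place K F → F) w) =
            D w + w.ord (((α : ↥(repartitions K F)) : Place K F → F) w) :=
          ord_unif_zpow_mul w _ h0
        have h3 : 0 < D w + w.ord (((α : ↥(repartitions K F)) : Place K F → F) w) := by
          rw [← h2]; exact h
        rw [Finsupp.sub_apply, Finsupp.single_eq_same]
        show -(D w - 1) ≤ w.ord (((α : ↥(repartitions K F)) : Place K F → F) w)
        omega
    · rcases hα w with h0 | h1
      · exact Or.inl h0
      · right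
        rw [Finsupp.sub_apply, Finsupp.single_apply, if_neg (fun h => hwv h.symm), sub_zero]
        exact h1
  · intro h
    rcases eq_or_ne (((α : ↥(repartitions K F)) : Place K F → F) v) 0 with h0 | h0
    · left
      show unif v ^ (D v) * ((α : ↥(repartitions K F)) : Place K F → F) v = 0
      rw [h0, mul_zero]
    · right
      show 0 < v.ord (unif v ^ (D v) * ((α : ↥(repartitions K F)) : Place K F → F) v)
      rw [ord_unif_zpow_mul v _ h0]
      have h1 := (h v).resolve_left h0
      rw [Finsupp.sub_apply, Finsupp.single_eq_same] at h1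
      omega

theorem stepMap_surjective (D : Divisor K F) (v : Place K F) :
    Function.Surjective (stepMap D v) := by
  classical
  intro c
  obtain ⟨u, rfl⟩ := IsLocalRing.residue_surjective c
  let β : Place K F → F := Function.update (fun _ => 0) v (unif v ^ (-(D v)) * (u : F))
  have hβv : β v = unif v ^ (-(D v)) * (u : F) := Function.update_self _ _ _
  have hβw : ∀ w, w ≠ v → β w = 0 := fun w hw => Function.update_of_ne hw _ _
  have hβmem : β ∈ repartitions K F := by
    refine mem_repartitions_of_finite_ord ((Set.finite_singleton v).subset fun w hw => ?_)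
    by_contra hwv
    have hw' : w.ord (β w) < 0 := hw
    rw [hβw w hwv, w.ord_zero] at hw'
    exact lt_irrefl _ hw'
  have hβD : (⟨β, hβmem⟩ : ↥(repartitions K F)) ∈ repartitionsOf D := by
    rw [mem_repartitionsOf_iff]
    intro w
    by_cases hwv : w = v
    · subst hwv
      show β w = 0 ∨ -D w ≤ w.ord (β w)
      rw [hβv]
      rcases eq_or_ne (u : F) 0 with h0 | h0
      · left
        rw [h0, mul_zero]
      · right
        rw [ord_unif_zpow_mul w _ h0]
        have := Place.ord_nonneg_of_mem w u.2
        omega
    · exact Or.inl (hβw w hwv)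
  refine ⟨⟨⟨β, hβmem⟩, hβD⟩, ?_⟩
  rw [stepMap_apply]
  congr 1
  apply Subtype.ext
  show unif v ^ (D v) * β v = (u : F)
  rw [hβv, ← mul_assoc, ← zpow_add₀ (unif_ne_zero v), add_neg_cancel, zpow_zero, one_mul]

/-- `A(D) / A(D - v) ≃ k(v)`. -/
noncomputable def stepEquiv (D : Divisor K F) (v : Place K F) :
    (↥(repartitionsOf D) ⧸
      ((repartitionsOf (D - Finsupp.single v 1)).comap (repartitionsOf D).subtype)) ≃ₗ[K]
      v.ResidueField :=
  (Submodule.quotEquivOfEq _ _ (ker_stepMap D v).symm).trans
    ((stepMap D v).quotKerEquivOfSurjective (stepMap_surjective D v))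

theorem relRank_repartitionsOf_single (D : Divisor K F) (v : Place K F) :
    relRank (repartitionsOf (D - Finsupp.single v 1)) (repartitionsOf D) =
      Module.rank K v.ResidueField := by
  rw [relRank_eq_rank_quotient]
  exact (stepEquiv D v).rank_eq

theorem relRank_repartitionsOf_single_of_finite (D : Divisor K F) (v : Place K F)
    [Module.Finite K v.ResidueField] :
    relRank (repartitionsOf (D - Finsupp.single v 1)) (repartitionsOf D) =
      ((v.deg : ℕ) : Cardinal) := by
  rw [relRank_repartitionsOf_single, ← Module.finrank_eq_rank]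
  rfl

end Fermat.Agent.FF
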