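import Mathlib
import Fermat.Agent.FF.LocalStep

/-!
# FF: `dim A(D') / A(D) = deg D' - deg D`

* `tot` : the sum of the coefficients of a divisor (induction measure);
* `degree_nonneg` : an effective divisor has nonnegative degree;
* `relRank_repartitionsOf_add`, `relRank_repartitionsOf` : for `D ≤ D'` and finite residue fields,
  `relRank A(D) A(D') = deg D' - deg D` (as a cardinal).
-/

set_option autoImplicit false

open AlgebraicCurve Fermat.Agent.X0 Fermat.Agent.X0.RR

namespace Fermat.Agent.FF

variable {K F : Type*} [Field K] [Field F] [Algebra K F]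

attribute [local instance] addCommGroupRepartitions

/-- The sum of the coefficients of a divisor. -/
noncomputable def tot : Divisor K F →+ ℤ := Finsupp.liftAddHom fun _ => AddMonoidHom.id ℤ

theorem tot_apply (E : Divisor K F) : tot E = E.sum fun _ m => m := by
  simp only [tot, Finsupp.liftAddHom_apply]
  rfl

@[simp] theorem tot_single (v : Place K F) (n : ℤ) : tot (Finsupp.single v n) = n := by
  simp [tot]

theorem tot_nonneg {E : Divisor K F} (hE : 0 ≤ E) : 0 ≤ tot E := by
  rw [tot_apply]
  exact Finset.sum_nonneg fun v _ => hE v

theorem eq_zero_of_tot_eq_zero {E : Divisor K F} (hE : 0 ≤ E) (h : tot E = 0) : E = 0 := by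
  rw [tot_apply, Finsupp.sum, Finset.sum_eq_zero_iff_of_nonneg fun v _ => hE v] at h
  ext v
  by_cases hv : v ∈ E.support
  · exact h v hv
  · simpa using hv

theorem degree_apply (E : Divisor K F) :
    Divisor.degree E = E.sum fun v m => m * (v.deg : ℤ) := by
  simp [Divisor.degree, Finsupp.liftAddHom_apply]

theorem degree_nonneg {E : Divisor K F} (hE : 0 ≤ E) : 0 ≤ Divisor.degree E := by
  rw [degree_apply]
  exact Finset.sum_nonneg fun v _ => mul_nonneg (hE v) (Int.natCast_nonneg _)

theorem degree_mono {D D' : Divisor K F} (h : D ≤ D') : Divisor.degree D ≤ Divisor.degree D' := by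
  have h1 : 0 ≤ D' - D := sub_nonneg.mpr h
  have h2 := degree_nonneg h1
  rw [map_sub] at h2
  omega

theorem exists_pos_of_tot_pos {E : Divisor K F} (hE : 0 ≤ E) (h : 0 < tot E) :
    ∃ v : Place K F, 0 < E v := by
  by_contra hcon
  simp only [not_exists, not_lt] at hcon
  have : E = 0 := by
    ext v
    exact le_antisymm (hcon v) (hE v)
  rw [this, map_zero] at h
  exact lt_irrefl _ h

theorem relRank_repartitionsOf_add_aux (hfin : ∀ v : Place K F, Module.Finite K v.ResidueField) :
    ∀ (n : ℕ) (D E : Divisor K F), 0 ≤ E → tot E = n →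
      relRank (repartitionsOf D) (repartitionsOf (D + E)) =
        (((Divisor.degree E).toNat : ℕ) : Cardinal)
  | 0, D, E, hE, hn => by
    have h0 : E = 0 := eq_zero_of_tot_eq_zero hE (by simpa using hn)
    subst h0
    rw [add_zero, relRank_self, map_zero]
    simp
  | (n + 1), D, E, hE, hn => by
    classical
    obtain ⟨v, hv⟩ := exists_pos_of_tot_pos hE (by rw [hn]; positivity)
    set E' : Divisor K F := E - Finsupp.single v 1 with hE'def
    have hE' : 0 ≤ E' := by
      intro w
      rw [hE'def, Finsupp.sub_apply, Finsupp.single_apply]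
      split_ifs with hw
      · subst hw
        have : (0 : Divisor K F) v = 0 := rfl
        rw [this]
        omega
      · rw [sub_zero]
        exact hE w
    have htot : tot E' = n := by
      rw [hE'def, map_sub, tot_single, hn]
      push_cast
      ring
    have ih := relRank_repartitionsOf_add_aux hfin n D E' hE' htot
    have := hfin v
    have hstep := relRank_repartitionsOf_single_of_finite (D + E) v
    have hDE : D + E - Finsupp.single v 1 = D + E' := by
      rw [hE'def]; abel
    rw [hDE] at hstep
    have hle1 : repartitionsOf D ≤ repartitionsOf (D + E') :=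
      repartitionsOf_mono (le_add_of_nonneg_right hE')
    have hle2 : repartitionsOf (D + E') ≤ repartitionsOf (D + E) := by
      apply repartitionsOf_mono
      rw [← hDE]
      intro w
      rw [Finsupp.sub_apply, Finsupp.single_apply]
      split_ifs <;> omega
    rw [← relRank_add hle1 hle2, ih, hstep]
    have hdeg : Divisor.degree E = Divisor.degree E' + (v.deg : ℤ) := by
      rw [hE'def, map_sub, Divisor.degree_single]
      ring
    have hnn := degree_nonneg hE'
    rw [hdeg, Int.toNat_add hnn (Int.natCast_nonneg _), Int.toNat_natCast]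
    push_cast
    rfl

/-- `dim A(D + E) / A(D) = deg E` for `E ≥ 0`. -/
theorem relRank_repartitionsOf_add (hfin : ∀ v : Place K F, Module.Finite K v.ResidueField)
    (D E : Divisor K F) (hE : 0 ≤ E) :
    relRank (repartitionsOf D) (repartitionsOf (D + E)) =
      (((Divisor.degree E).toNat : ℕ) : Cardinal) := by
  have h := tot_nonneg hE
  obtain ⟨n, hn⟩ := Int.eq_ofNat_of_zero_le h
  exact relRank_repartitionsOf_add_aux hfin n D E hE hn

/-- `dim A(D') / A(D) = deg D' - deg D` for `D ≤ D'`. -/
theorem relRank_repartitionsOf (hfin : ∀ v : Place K F, Module.Finite K v.ResidueField)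
    {D D' : Divisor K F} (h : D ≤ D') :
    relRank (repartitionsOf D) (repartitionsOf D') =
      (((Divisor.degree D' - Divisor.degree D).toNat : ℕ) : Cardinal) := by
  have h1 := relRank_repartitionsOf_add hfin D (D' - D) (sub_nonneg.mpr h)
  rw [add_sub_cancel, map_sub] at h1
  exact h1

end Fermat.Agent.FF
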