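import Mathlib
import Fermat.Agent.FF.RepDim

/-!
# FF: Riemann's theorem from a bound on `deg D - l(D)` (characteristic free)

`K` a field, `F / K` with `HasPrincipalDivisors K F`, finite residue fields and at least one place.
`rr D := deg D - l(D)`.

* `riemannRochSpace_eq_bot_of_degree_neg` : `L(D) = 0` if `deg D < 0`;
* `finite_riemannRochSpace` : `L(D)` is finite dimensional;
* `relRank_sup_principal` : for `D ≤ D'`, `dim (A(D') + F) / (A(D) + F) = rr D' - rr D ≥ 0`;
* `riemann_abstract` : if `rr` is bounded above then every `H1 D` is finite dimensional and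
  `l(D) - dim H1(D) = deg D + l(0) - genusFF`.
-/

set_option autoImplicit false

open AlgebraicCurve Fermat.Agent.X0 Fermat.Agent.X0.RR Module

namespace Fermat.Agent.FF

universe u v

section LinAlg

variable {K : Type v} [Field K] {V : Type u} [AddCommGroup V] [Module K V]

theorem exists_nat_of_add_eq_nat {x y : Cardinal.{u}} {n : ℕ} (h : x + y = (n : Cardinal.{u})) :
    ∃ a b : ℕ, x = (a : Cardinal.{u}) ∧ y = (b : Cardinal.{u}) ∧ a + b = n := by
  have hx : x < Cardinal.aleph0 :=
    lt_of_le_of_lt (self_le_add_right x y) (h ▸ Cardinal.natCast_lt_aleph0)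
  have hy : y < Cardinal.aleph0 :=
    lt_of_le_of_lt (self_le_add_left y x) (h ▸ Cardinal.natCast_lt_aleph0)
  obtain ⟨a, rfl⟩ := Cardinal.lt_aleph0.mp hx
  obtain ⟨b, rfl⟩ := Cardinal.lt_aleph0.mp hy
  exact ⟨a, b, rfl, rfl, by exact_mod_cast h⟩

theorem le_of_relRank_eq_zero {L L' : Submodule K V} (h : relRank L L' = 0) : L' ≤ L := by
  unfold relRank at h
  rw [rank_zero_iff] at h
  intro x hx
  have h1 : (⟨L.mkQ x, x, hx, rfl⟩ : ↥(Submodule.map L.mkQ L')) = 0 := Subsingleton.elim _ _
  have h2 : L.mkQ x = 0 := congrArg Subtype.val h1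
  simpa using h2

theorem relRank_bot (L : Submodule K V) : relRank (⊥ : Submodule K V) L = Module.rank K ↥L := by
  rw [relRank_eq_rank_quotient]
  have h : Submodule.comap L.subtype ⊥ = ⊥ := by
    rw [← LinearMap.ker, Submodule.ker_subtype]
  exact (Submodule.quotEquivOfEqBot _ h).rank_eq

theorem relRank_top (L : Submodule K V) : relRank L ⊤ = Module.rank K (V ⧸ L) := by
  unfold relRank
  rw [Submodule.map_top, Submodule.range_mkQ]
  exact rank_top K (V ⧸ L)

theorem relRank_mono_right (L : Submodule K V) {M N : Submodule K V} (h : M ≤ N) :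
    relRank L M ≤ relRank L N := by
  unfold relRank
  exact Submodule.rank_mono (Submodule.map_mono h)

end LinAlg

variable {K F : Type*} [Field K] [Field F] [Algebra K F]

attribute [local instance] addCommGroupRepartitions

/-- `L(D) = 0` when `deg D < 0`. -/
theorem riemannRochSpace_eq_bot_of_degree_neg [HasPrincipalDivisors K F] {D : Divisor K F}
    (h : Divisor.degree D < 0) : riemannRochSpace D = ⊥ := by
  rw [eq_bot_iff]
  intro f hf
  rw [Submodule.mem_bot]
  by_contra hf0
  obtain ⟨G, hG, hGdeg⟩ := HasPrincipalDivisors.exists_divisor (K := K) f hf0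
  have hnn : 0 ≤ G + D := by
    intro v
    have := (mem_riemannRochSpace_iff.mp hf v).resolve_left hf0
    rw [Finsupp.add_apply, hG v]
    show (0 : ℤ) ≤ _
    omega
  have := degree_nonneg hnn
  rw [map_add, hGdeg] at this
  omega

/-- `L(D) ≃ A(D) ∩ F`. -/
noncomputable def riemannRochSpaceEquiv [Nonempty (Place K F)] (D : Divisor K F) :
    ↥(riemannRochSpace D) ≃ₗ[K] ↥(repartitionsOf D ⊓ principalRepartitions K F) :=
  (Submodule.equivMapOfInjective (diag K F) diag_injective (riemannRochSpace D)).trans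
    (LinearEquiv.ofEq _ _ (map_diag_riemannRochSpace D))

theorem rank_inf_principal [Nonempty (Place K F)] (D : Divisor K F) :
    Module.rank K ↥(repartitionsOf D ⊓ principalRepartitions K F) =
      Module.rank K ↥(riemannRochSpace D) :=
  (riemannRochSpaceEquiv D).rank_eq.symm

theorem deg_pos (v : Place K F) [Module.Finite K v.ResidueField] : 0 < v.deg :=
  Module.finrank_pos

/-- `L(D)` is finite dimensional. -/
theorem finite_riemannRochSpace [HasPrincipalDivisors K F] [Nonempty (Place K F)]
    (hfin : ∀ v : Place K F, Module.Finite K v.ResidueField) (D : Divisor K F) :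
    Module.Finite K ↥(riemannRochSpace D) := by
  obtain ⟨v₀⟩ := ‹Nonempty (Place K F)›
  have := hfin v₀
  have hdeg : 0 < v₀.deg := deg_pos v₀
  set m : ℤ := Divisor.degree D + 1 with hm
  set D₀ : Divisor K F := D - Finsupp.single v₀ (max m 0) with hD₀
  have hD₀deg : Divisor.degree D₀ < 0 := by
    rw [hD₀, map_sub, Divisor.degree_single]
    have h1 : (1 : ℤ) ≤ (v₀.deg : ℤ) := by exact_mod_cast hdeg
    have h2 : max m 0 ≤ max m 0 * (v₀.deg : ℤ) := le_mul_of_one_le_right (le_max_right _ _) h1
    have h3 : m ≤ max m 0 := le_max_left _ _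
    omega
  have hle : D₀ ≤ D := by
    rw [hD₀]
    intro w
    rw [Finsupp.sub_apply]
    have : 0 ≤ (Finsupp.single v₀ (max m 0) : Divisor K F) w := by
      classical
      rw [Finsupp.single_apply]
      split_ifs
      · exact le_max_right _ _
      · exact le_refl _
    omega
  have hbot : repartitionsOf D₀ ⊓ principalRepartitions K F = ⊥ := by
    rw [← map_diag_riemannRochSpace, riemannRochSpace_eq_bot_of_degree_neg hD₀deg,
      Submodule.map_bot]
  have hstep := relRank_step (repartitionsOf_mono hle) (principalRepartitions K F)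
  rw [relRank_repartitionsOf hfin hle, hbot, relRank_bot, rank_inf_principal] at hstep
  obtain ⟨a, b, ha, -, -⟩ := exists_nat_of_add_eq_nat hstep
  rw [← Module.rank_lt_aleph0_iff, ha]
  exact Cardinal.natCast_lt_aleph0

/-- `rr D = deg D - l(D)`. -/
noncomputable def rr (D : Divisor K F) : ℤ :=
  Divisor.degree D - (Module.finrank K ↥(riemannRochSpace D) : ℤ)

/-- For `D ≤ D'`: `dim (A(D') + F)/(A(D) + F) = rr D' - rr D`, and `rr D ≤ rr D'`. -/
theorem relRank_sup_principal [HasPrincipalDivisors K F] [Nonempty (Place K F)]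
    (hfin : ∀ v : Place K F, Module.Finite K v.ResidueField) {D D' : Divisor K F} (h : D ≤ D') :
    rr D ≤ rr D' ∧
      relRank (repartitionsOf D ⊔ principalRepartitions K F)
        (repartitionsOf D' ⊔ principalRepartitions K F) =
        ((((rr D' - rr D).toNat : ℕ)) : Cardinal) := by
  have hstep := relRank_step (repartitionsOf_mono h) (principalRepartitions K F)
  rw [relRank_repartitionsOf hfin h] at hstep
  obtain ⟨a, b, ha, hb, hab⟩ := exists_nat_of_add_eq_nat hstep
  -- `a = l(D') - l(D)`
  have := finite_riemannRochSpace hfin D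
  have := finite_riemannRochSpace hfin D'
  have hadd := relRank_add (bot_le : (⊥ : Submodule K ↥(repartitions K F)) ≤
      repartitionsOf D ⊓ principalRepartitions K F)
    (inf_le_inf_right (principalRepartitions K F) (repartitionsOf_mono h))
  rw [relRank_bot, relRank_bot, rank_inf_principal, rank_inf_principal, ha,
    ← Module.finrank_eq_rank, ← Module.finrank_eq_rank] at hadd
  have hadd' : Module.finrank K ↥(riemannRochSpace D) + a =
      Module.finrank K ↥(riemannRochSpace D') := by exact_mod_cast hadd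
  have hdeg := degree_mono h
  have hb' : (b : ℤ) = rr D' - rr D := by
    unfold rr
    have h1 : ((Divisor.degree D' - Divisor.degree D).toNat : ℤ) =
        Divisor.degree D' - Divisor.degree D := Int.toNat_of_nonneg (by omega)
    have h2 : ((a + b : ℕ) : ℤ) = Divisor.degree D' - Divisor.degree D := by
      rw [hab]; exact h1
    push_cast at h2
    have h3 : (Module.finrank K ↥(riemannRochSpace D) : ℤ) + a =
        Module.finrank K ↥(riemannRochSpace D') := by exact_mod_cast hadd'
    omega
  refine ⟨by omega, ?_⟩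
  rw [hb, ← hb']
  simp

/-- From a bound on `rr`: a divisor `D₀` beyond which `rr` is constant, equal to its maximum, and
`A(D) + F` is everything. -/
theorem exists_stable [HasPrincipalDivisors K F] [Nonempty (Place K F)]
    (hfin : ∀ v : Place K F, Module.Finite K v.ResidueField)
    (hb : ∃ γ : ℤ, ∀ D : Divisor K F, rr D ≤ γ) :
    ∃ (D₀ : Divisor K F) (rmax : ℤ), (∀ D : Divisor K F, rr D ≤ rmax) ∧
      (∀ D₁ : Divisor K F, D₀ ≤ D₁ → rr D₁ = rmax) ∧
      (∀ D₁ : Divisor K F, D₀ ≤ D₁ →
        repartitionsOf D₁ ⊔ principalRepartitions K F = ⊤) := by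
  classical
  obtain ⟨γ, hγ⟩ := hb
  -- a maximiser of `rr`
  obtain ⟨rmax, ⟨D₀, hD₀⟩, hmax⟩ := Int.exists_greatest_of_bdd
    (P := fun z => ∃ D : Divisor K F, rr D = z) ⟨γ, fun z ⟨D, hD⟩ => hD ▸ hγ D⟩
    ⟨rr (0 : Divisor K F), 0, rfl⟩
  have hrmax : ∀ D : Divisor K F, rr D ≤ rmax := fun D => hmax _ ⟨D, rfl⟩
  have hstab : ∀ D₁ : Divisor K F, D₀ ≤ D₁ → rr D₁ = rmax := by
    intro D₁ h
    have := (relRank_sup_principal hfin h).1
    have := hrmax D₁
    omega
  refine ⟨D₀, rmax, hrmax, hstab, ?_⟩
  -- `A(D₁) + F` is everything for `D₁ ≥ D₀`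
  intro D₁ h
  rw [eq_top_iff]
  intro α _
  set E : Divisor K F := (D₁ ⊔ 0) + poleDivisor α with hE
  have hE1 : D₁ ≤ E := by
    rw [hE]
    exact le_trans le_sup_left (le_add_of_nonneg_right (poleDivisor_nonneg α))
  have hE2 : poleDivisor α ≤ E := by
    rw [hE]
    exact le_add_of_nonneg_left le_sup_right
  have h1 := (relRank_sup_principal hfin hE1).2
  rw [hstab D₁ h, hstab E (le_trans h hE1), sub_self] at h1
  have h2 := le_of_relRank_eq_zero (by simpa using h1)
  exact h2 (Submodule.mem_sup_left (repartitionsOf_mono hE2 (mem_repartitionsOf_poleDivisor α)))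

/-- `H1 D` vanishes beyond a suitable divisor. -/
theorem exists_forall_H1_subsingleton [HasPrincipalDivisors K F] [Nonempty (Place K F)]
    (hfin : ∀ v : Place K F, Module.Finite K v.ResidueField)
    (hb : ∃ γ : ℤ, ∀ D : Divisor K F, rr D ≤ γ) :
    ∃ D₀ : Divisor K F, ∀ D₁ : Divisor K F, D₀ ≤ D₁ → Subsingleton (H1 D₁) := by
  obtain ⟨D₀, rmax, -, -, htop⟩ := exists_stable hfin hb
  refine ⟨D₀, fun D₁ h => ?_⟩
  show Subsingleton (↥(repartitions K F) ⧸ (repartitionsOf D₁ ⊔ principalRepartitions K F))
  rw [Submodule.Quotient.subsingleton_iff]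
  exact htop D₁ h

/-- **Riemann's theorem, abstract form.** -/
theorem riemann_abstract [HasPrincipalDivisors K F] [Nonempty (Place K F)]
    (hfin : ∀ v : Place K F, Module.Finite K v.ResidueField)
    (hb : ∃ γ : ℤ, ∀ D : Divisor K F, rr D ≤ γ) (D : Divisor K F) :
    Module.Finite K (H1 D) ∧
      (Module.finrank K ↥(riemannRochSpace D) : ℤ) - (Module.finrank K (H1 D) : ℤ) =
        Divisor.degree D + (Module.finrank K ↥(riemannRochSpace (0 : Divisor K F)) : ℤ) -
          (genusFF K F : ℤ) := by
  classical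
  obtain ⟨D₀, rmax, hrmax, hstab, htop⟩ := exists_stable hfin hb
  -- dimension of `H1 D`
  have key : ∀ D : Divisor K F, Module.Finite K (H1 D) ∧
      (Module.finrank K (H1 D) : ℤ) = rmax - rr D := by
    intro D
    have hle : D ≤ D ⊔ D₀ := le_sup_left
    have h1 := (relRank_sup_principal hfin hle).2
    rw [htop (D ⊔ D₀) le_sup_right, relRank_top, hstab (D ⊔ D₀) le_sup_right] at h1
    have hfinH : Module.Finite K (H1 D) := by
      rw [← Module.rank_lt_aleph0_iff]
      show Module.rank K (↥(repartitions K F) ⧸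
        (repartitionsOf D ⊔ principalRepartitions K F)) < _
      rw [h1]
      exact Cardinal.natCast_lt_aleph0
    refine ⟨hfinH, ?_⟩
    have h2 : (Module.finrank K (H1 D) : Cardinal) = (((rmax - rr D).toNat : ℕ) : Cardinal) := by
      rw [Module.finrank_eq_rank]
      exact h1
    have h3 : Module.finrank K (H1 D) = (rmax - rr D).toNat := by exact_mod_cast h2
    rw [h3]
    exact Int.toNat_of_nonneg (by have := hrmax D; omega)
  obtain ⟨hfinD, hD⟩ := key D
  obtain ⟨-, h0⟩ := key 0
  refine ⟨hfinD, ?_⟩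
  have hg : (genusFF K F : ℤ) = rmax - rr (0 : Divisor K F) := h0
  rw [hg, hD]
  unfold rr
  rw [map_zero]
  ring

end Fermat.Agent.FF
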