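import Mathlib
import Fermat.Agent.FF.RiemannAbstract

/-!
# FF: Riemann's inequality from the growth of `l(m B)` (characteristic free)

* `rr_add_principal` : `rr (D + (z)) = rr D` (linear equivalence);
* `rr_bounded_of_growth` : if `B ≥ 0` has degree `n > 0` and `l((m + c) B) ≥ n (m + 1)` for all `m`,
  then `rr D ≤ n (c - 1)` for all `D`.
-/

set_option autoImplicit false

open AlgebraicCurve Fermat.Agent.X0 Fermat.Agent.X0.RR Module

namespace Fermat.Agent.FF

variable {K F : Type*} [Field K] [Field F] [Algebra K F]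

attribute [local instance] addCommGroupRepartitions

/-- Multiplication by `z` maps `L(D + (z))` to `L(D)`. -/
theorem mul_mem_riemannRochSpace {D G : Divisor K F} {z : F} (hz : z ≠ 0)
    (hG : ∀ v : Place K F, G v = v.ord z) {f : F} (hf : f ∈ riemannRochSpace (D + G)) :
    f * z ∈ riemannRochSpace D := by
  rw [mem_riemannRochSpace_iff] at hf ⊢
  intro v
  rcases hf v with h0 | h
  · left
    rw [h0, zero_mul]
  · rcases eq_or_ne f 0 with h0 | h0
    · left
      rw [h0, zero_mul]
    right
    rw [v.ord_mul h0 hz]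
    rw [Finsupp.add_apply, hG v] at h
    omega

/-- `L(D + (z)) ≃ L(D)`, `f ↦ f z`. -/
noncomputable def mulEquiv {D G : Divisor K F} {z : F} (hz : z ≠ 0)
    (hG : ∀ v : Place K F, G v = v.ord z) :
    ↥(riemannRochSpace (D + G)) ≃ₗ[K] ↥(riemannRochSpace D) where
  toFun f := ⟨(f : F) * z, mul_mem_riemannRochSpace hz hG f.2⟩
  map_add' f g := by
    apply Subtype.ext
    show ((f : F) + (g : F)) * z = (f : F) * z + (g : F) * z
    ring
  map_smul' c f := by
    apply Subtype.ext
    show (c • (f : F)) * z = c • ((f : F) * z)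
    rw [smul_mul_assoc]
  invFun f := ⟨(f : F) * z⁻¹, by
    have hG' : ∀ v : Place K F, (-G) v = v.ord z⁻¹ := fun v => by
      rw [Finsupp.neg_apply, hG v, v.ord_inv]
    have hf : (f : F) ∈ riemannRochSpace ((D + G) + -G) := by
      rw [add_neg_cancel_right]
      exact f.2
    exact mul_mem_riemannRochSpace (inv_ne_zero hz) hG' hf⟩
  left_inv f := by
    apply Subtype.ext
    show (f : F) * z * z⁻¹ = f
    rw [mul_assoc, mul_inv_cancel₀ hz, mul_one]
  right_inv f := by
    apply Subtype.ext
    show (f : F) * z⁻¹ * z = f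
    rw [mul_assoc, inv_mul_cancel₀ hz, mul_one]

/-- `rr` is invariant under linear equivalence. -/
theorem rr_add_principal {D G : Divisor K F} {z : F} (hz : z ≠ 0)
    (hG : ∀ v : Place K F, G v = v.ord z) (hGdeg : Divisor.degree G = 0) :
    rr (D + G) = rr D := by
  unfold rr
  rw [map_add, hGdeg, add_zero, (mulEquiv (D := D) hz hG).finrank_eq]

/-- **Riemann's inequality from growth.** -/
theorem rr_bounded_of_growth [HasPrincipalDivisors K F] [Nonempty (Place K F)]
    (hfin : ∀ v : Place K F, Module.Finite K v.ResidueField)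
    (B : Divisor K F) (n : ℕ) (hn : 0 < n) (hdeg : Divisor.degree B = n) (c : ℕ)
    (hl : ∀ m : ℕ, (n : ℤ) * (m + 1) ≤
      (Module.finrank K ↥(riemannRochSpace (((m + c : ℕ) : ℤ) • B)) : ℤ))
    (D : Divisor K F) : rr D ≤ (n : ℤ) * ((c : ℤ) - 1) := by
  -- bound for the multiples of `B`
  have hmult : ∀ m : ℕ, rr (((m + c : ℕ) : ℤ) • B) ≤ (n : ℤ) * ((c : ℤ) - 1) := by
    intro m
    unfold rr
    rw [map_zsmul, hdeg, smul_eq_mul]
    have := hl m
    push_cast
    push_cast at this
    nlinarith
  -- reduce to effective divisors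
  set E : Divisor K F := D ⊔ 0 with hE
  have hDE : D ≤ E := le_sup_left
  have hE0 : 0 ≤ E := le_sup_right
  have h1 := (relRank_sup_principal hfin hDE).1
  refine le_trans h1 ?_
  -- choose `m` with `n (m + 1) > deg E`
  have hdegE := degree_nonneg hE0
  obtain ⟨m, hm⟩ : ∃ m : ℕ, Divisor.degree E < (n : ℤ) * (m + 1) := by
    refine ⟨(Divisor.degree E).toNat, ?_⟩
    have h2 : ((Divisor.degree E).toNat : ℤ) = Divisor.degree E := Int.toNat_of_nonneg hdegE
    rw [h2]
    have h3 : (1 : ℤ) ≤ n := by exact_mod_cast hn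
    nlinarith
  set M : Divisor K F := ((m + c : ℕ) : ℤ) • B with hM
  -- `L(M - E) ≠ 0`
  have hle : M - E ≤ M := sub_le_self M hE0
  have h2 := (relRank_sup_principal hfin hle).1
  have hfinME := finite_riemannRochSpace hfin (M - E)
  have hpos : 0 < Module.finrank K ↥(riemannRochSpace (M - E)) := by
    unfold rr at h2
    rw [map_sub] at h2
    have := hl m
    rw [← hM] at this
    have : (0 : ℤ) < (Module.finrank K ↥(riemannRochSpace (M - E)) : ℤ) := by omega
    exact_mod_cast this
  rw [Module.finrank_pos_iff_exists_ne_zero] at hpos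
  obtain ⟨⟨z, hz⟩, hz0⟩ := hpos
  have hz0' : z ≠ 0 := fun h => hz0 (Subtype.ext h)
  obtain ⟨G, hG, hGdeg⟩ := HasPrincipalDivisors.exists_divisor (K := K) z hz0'
  -- `E - (z) ≤ M`
  have hEG : E + -G ≤ M := by
    intro v
    have := (mem_riemannRochSpace_iff.mp hz v).resolve_left hz0'
    rw [Finsupp.sub_apply] at this
    rw [Finsupp.add_apply, Finsupp.neg_apply, hG v]
    omega
  have hG' : ∀ v : Place K F, (-G) v = v.ord z⁻¹ := fun v => by
    rw [Finsupp.neg_apply, hG v, v.ord_inv]
  have hGdeg' : Divisor.degree (-G) = 0 := by rw [map_neg, hGdeg, neg_zero]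
  have h3 := rr_add_principal (D := E) (inv_ne_zero hz0') hG' hGdeg'
  have h4 := (relRank_sup_principal hfin hEG).1
  have h5 := hmult m
  rw [← hM] at h5
  omega

end Fermat.Agent.FF
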