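import Mathlib
import Fermat.Agent.FF.RiemannBound
import Fermat.Agent.X0.RR7.DictInf
import Fermat.Agent.X0.RR.Setup
import Fermat.Agent.X0.Alg.Coord
import Fermat.Prelude.Def_AlgebraicCurve_IsCurveOver

/-!
# FF: growth of `l(m (x)_∞)` in a coordinate context, and Riemann's inequality

Coordinate context (as in `X0/Alg/DegCore`): `F` finite separable over `RatFunc K`,
`x = coordX K F`.

* `poleBound y` : a bound for the pole orders of `y`;
* `coordPoles K F` : the pole divisor `(x)_∞`;
* `exists_growth` : `∃ c, ∀ m, n (m + 1) ≤ l((m + c) (x)_∞)`, `n = [F : K(x)]`;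
* `degree_coordPoles` : `deg (x)_∞ = n` (for `K` algebraically closed);
* `rr_bounded_coord` : Riemann's inequality in a coordinate context.
-/

set_option autoImplicit false

open AlgebraicCurve Fermat.Agent.X0 Fermat.Agent.X0.RR Fermat.Agent.X0.RR7 Polynomial FunctionField
  Module

namespace Fermat.Agent.FF

variable {K F : Type*} [Field K] [Field F] [Algebra K F]

attribute [local instance] addCommGroupRepartitions

section PoleBound

variable [HasPrincipalDivisors K F]

/-- A bound for the pole orders of `y`. -/
noncomputable def poleBound (K : Type*) {F : Type*} [Field K] [Field F] [Algebra K F]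
    [HasPrincipalDivisors K F] (y : F) : ℕ :=
  ∑ v ∈ (finite_poles (K := K) y).toFinset, (-(v.ord y)).toNat

theorem neg_ord_le_poleBound (y : F) (v : Place K F) : -(v.ord y) ≤ (poleBound K y : ℤ) := by
  by_cases hv : v.ord y < 0
  · have hmem : v ∈ (finite_poles (K := K) y).toFinset := by
      rw [Set.Finite.mem_toFinset]
      exact hv
    have h1 : (-(v.ord y)).toNat ≤ poleBound K y :=
      Finset.single_le_sum (f := fun w : Place K F => (-(w.ord y)).toNat)
        (fun _ _ => Nat.zero_le _) hmem
    have h2 : ((-(v.ord y)).toNat : ℤ) = -(v.ord y) := Int.toNat_of_nonneg (by omega)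
    omega
  · have : (0 : ℤ) ≤ (poleBound K y : ℤ) := Int.natCast_nonneg _
    omega

end PoleBound

/-- For `K` algebraically closed, every place has degree one. -/
theorem deg_eq_one [IsAlgClosed K] (v : Place K F) [Module.Finite K v.ResidueField] :
    v.deg = 1 :=
  v.deg_eq_one_of_isAlgClosed_of_finite

section CoordPoles

variable [Algebra K[X] F]

variable (K F) in
/-- The pole divisor of the coordinate function. -/
noncomputable def coordPoles [HasPrincipalDivisors K F] : Divisor K F :=
  poleDivisor (diag K F (coordX K F))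

theorem coordPoles_apply [HasPrincipalDivisors K F] (v : Place K F) :
    coordPoles K F v = max 0 (-(v.ord (coordX K F))) := rfl

theorem coordPoles_nonneg [HasPrincipalDivisors K F] : 0 ≤ coordPoles K F :=
  poleDivisor_nonneg _

end CoordPoles

section Coord

variable [Algebra K[X] F] [Algebra (RatFunc K) F] [IsScalarTower K[X] (RatFunc K) F]
  [IsScalarTower K K[X] F] [FunctionField K F] [Algebra.IsSeparable (RatFunc K) F]

/-- Integral elements have no poles outside the poles of the coordinate. -/
theorem ord_nonneg_of_isIntegral {y : F} (hy : IsIntegral K[X] y) (v : Place K F)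
    (hv : 0 ≤ v.ord (coordX K F)) : 0 ≤ v.ord y := by
  have h := Place.ringOfIntegers_mem v (Place.mem_of_ord_nonneg v hv)
    (⟨y, hy⟩ : ringOfIntegers K F)
  exact Place.ord_nonneg_of_mem v h

theorem pow_mul_mem_riemannRochSpace [HasPrincipalDivisors K F] {y : F}
    (hy : IsIntegral K[X] y) {c : ℕ} (hc : poleBound K y ≤ c) {j m : ℕ} (hj : j ≤ m) :
    coordX K F ^ j * y ∈ riemannRochSpace (((m + c : ℕ) : ℤ) • coordPoles K F) := by
  rw [mem_riemannRochSpace_iff]
  intro v
  rcases eq_or_ne y 0 with hy0 | hy0
  · left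
    rw [hy0, mul_zero]
  right
  have hx0 : coordX K F ≠ 0 := coordX_ne_zero_of_ratFunc
  rw [v.ord_mul (pow_ne_zero j hx0) hy0, Place.ord_pow, Finsupp.smul_apply, smul_eq_mul,
    coordPoles_apply]
  rcases le_or_gt 0 (v.ord (coordX K F)) with hv | hv
  · have h1 := ord_nonneg_of_isIntegral hy v hv
    rw [max_eq_left (by omega), mul_zero, neg_zero]
    positivity
  · have h1 := neg_ord_le_poleBound (K := K) y v
    rw [max_eq_right (by omega)]
    have hc' : (poleBound K y : ℤ) ≤ c := by exact_mod_cast hc
    have hj' : (j : ℤ) ≤ m := by exact_mod_cast hj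
    push_cast
    nlinarith

theorem linearIndependent_X_pow (m : ℕ) :
    LinearIndependent K (fun j : Fin (m + 1) => (RatFunc.X : RatFunc K) ^ (j : ℕ)) := by
  have h1 : LinearIndependent K (fun n : ℕ => (X : K[X]) ^ n) := by
    have := (Polynomial.basisMonomials K).linearIndependent
    rw [Polynomial.coe_basisMonomials] at this
    simpa [Polynomial.X_pow_eq_monomial] using this
  have h2 : LinearIndependent K
      (fun n : ℕ => (IsScalarTower.toAlgHom K K[X] (RatFunc K)).toLinearMap ((X : K[X]) ^ n)) := by
    refine h1.map' _ ?_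
    rw [LinearMap.ker_eq_bot]
    exact RatFunc.algebraMap_injective K
  have h3 : (fun n : ℕ => (IsScalarTower.toAlgHom K K[X] (RatFunc K)).toLinearMap
      ((X : K[X]) ^ n)) = fun n : ℕ => (RatFunc.X : RatFunc K) ^ n := by
    funext n
    simp
  rw [h3] at h2
  exact h2.comp _ Fin.val_injective

omit [FunctionField K F] [Algebra.IsSeparable (RatFunc K) F] in
theorem linearIndependent_pow_mul {ι : Type*} (b : Basis ι (RatFunc K) F) (m : ℕ) :
    LinearIndependent K (fun p : Fin (m + 1) × ι => coordX K F ^ (p.1 : ℕ) * b p.2) := by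
  have := isScalarTower_base_rat (K := K) (F := F)
  have h := linearIndependent_smul (linearIndependent_X_pow (K := K) m) b.linearIndependent
  have h2 : (fun p : Fin (m + 1) × ι => (RatFunc.X : RatFunc K) ^ (p.1 : ℕ) • b p.2) =
      fun p : Fin (m + 1) × ι => coordX K F ^ (p.1 : ℕ) * b p.2 := by
    funext p
    rw [Algebra.smul_def, map_pow, algebraMap_ratFunc_X]
  rw [h2] at h
  exact h

/-- **Growth**: `n (m + 1) ≤ l((m + c) (x)_∞)`. -/
theorem exists_growth [HasPrincipalDivisors K F] [Nonempty (Place K F)]
    (hfin : ∀ v : Place K F, Module.Finite K v.ResidueField) :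
    ∃ c : ℕ, ∀ m : ℕ, ((finrank (RatFunc K) F : ℕ) : ℤ) * (m + 1) ≤
      (finrank K ↥(riemannRochSpace (((m + c : ℕ) : ℤ) • coordPoles K F)) : ℤ) := by
  obtain ⟨b, hb⟩ := Bf.exists_basis K F
  have hint : ∀ i, IsIntegral K[X] (b i) := by
    intro i
    have h1 : b i ∈ Submodule.span K[X] (Set.range b) := Submodule.subset_span ⟨i, rfl⟩
    rw [hb] at h1
    exact h1
  refine ⟨∑ i, poleBound K (b i), fun m => ?_⟩
  set c : ℕ := ∑ i, poleBound K (b i) with hc
  have hci : ∀ i, poleBound K (b i) ≤ c := fun i =>
    Finset.single_le_sum (f := fun i => poleBound K (b i)) (fun _ _ => Nat.zero_le _)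
      (Finset.mem_univ i)
  set L := riemannRochSpace (((m + c : ℕ) : ℤ) • coordPoles K F) with hL
  have hmem : ∀ p : Fin (m + 1) × Fin (finrank (RatFunc K) F),
      coordX K F ^ (p.1 : ℕ) * b p.2 ∈ L := fun p =>
    pow_mul_mem_riemannRochSpace (hint p.2) (hci p.2) (Nat.lt_succ_iff.mp p.1.2)
  have hli : LinearIndependent K
      (fun p : Fin (m + 1) × Fin (finrank (RatFunc K) F) =>
        (⟨coordX K F ^ (p.1 : ℕ) * b p.2, hmem p⟩ : ↥L)) := by
    refine LinearIndependent.of_comp L.subtype ?_
    exact linearIndependent_pow_mul b m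
  have := finite_riemannRochSpace hfin (((m + c : ℕ) : ℤ) • coordPoles K F)
  have hcard := hli.fintype_card_le_finrank
  rw [Fintype.card_prod, Fintype.card_fin, Fintype.card_fin] at hcard
  have : ((finrank (RatFunc K) F : ℕ) : ℤ) * ((m : ℤ) + 1) =
      (((m + 1) * finrank (RatFunc K) F : ℕ) : ℤ) := by
    push_cast
    ring
  rw [this]
  exact_mod_cast hcard

/-- `deg (x)_∞ = [F : K(x)]`. -/
theorem degree_coordPoles [IsAlgClosed K] [HasPrincipalDivisors K F]
    (hfin : ∀ v : Place K F, Module.Finite K v.ResidueField) :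
    Divisor.degree (coordPoles K F) = (finrank (RatFunc K) F : ℤ) := by
  classical
  have hx0 : coordX K F ≠ 0 := coordX_ne_zero_of_ratFunc
  obtain ⟨G, hG, hGdeg⟩ := HasPrincipalDivisors.exists_divisor (K := K) (coordX K F) hx0
  set Z : Divisor K F := G + coordPoles K F with hZ
  have hZv : ∀ v, Z v = max (v.ord (coordX K F)) 0 := by
    intro v
    rw [hZ, Finsupp.add_apply, hG v, coordPoles_apply]
    rcases le_or_gt 0 (v.ord (coordX K F)) with h | h
    · rw [max_eq_left (by omega), max_eq_left h, add_zero]
    · rw [max_eq_right (by omega), max_eq_right (by omega)]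
      ring
  have hdegZ : Divisor.degree Z = Divisor.degree (coordPoles K F) := by
    rw [hZ, map_add, hGdeg, zero_add]
  rw [← hdegZ, ← sum_ord_placesOver_core (K := K) (F := F) 0, degree_apply]
  have hsub : Z.support ⊆ (finite_placesOver_core (K := K) (F := F) 0).toFinset := by
    intro v hv
    rw [Finsupp.mem_support_iff, hZv v] at hv
    rw [Set.Finite.mem_toFinset, mem_placesOver, map_zero, sub_zero]
    by_contra hcon
    apply hv
    rw [max_eq_right (by omega)]
  rw [Finsupp.sum_of_support_subset Z hsub _ (fun v _ => by simp)]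
  refine Finset.sum_congr rfl fun v hv => ?_
  rw [Set.Finite.mem_toFinset, mem_placesOver, map_zero, sub_zero] at hv
  have := hfin v
  rw [deg_eq_one v, hZv v, max_eq_left hv.le, map_zero, sub_zero]
  simp

theorem nonempty_place_coord [IsAlgClosed K] : Nonempty (Place K F) := by
  by_contra hcon
  rw [not_nonempty_iff] at hcon
  have h := sum_ord_placesOver_core (K := K) (F := F) 0
  have hpos : 0 < finrank (RatFunc K) F := finrank_pos
  rw [Finset.sum_eq_zero (fun v _ => (hcon.false v).elim)] at h
  have : (0 : ℤ) < (finrank (RatFunc K) F : ℤ) := by exact_mod_cast hpos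
  omega

/-- **Riemann's inequality** in a coordinate context. -/
theorem rr_bounded_coord [IsAlgClosed K] [HasPrincipalDivisors K F]
    (hfin : ∀ v : Place K F, Module.Finite K v.ResidueField) :
    ∃ γ : ℤ, ∀ D : Divisor K F, rr D ≤ γ := by
  have := nonempty_place_coord (K := K) (F := F)
  obtain ⟨c, hc⟩ := exists_growth (K := K) (F := F) hfin
  exact ⟨_, fun D => rr_bounded_of_growth hfin (coordPoles K F)
    (finrank (RatFunc K) F) finrank_pos (degree_coordPoles hfin) c hc D⟩

end Coord

end Fermat.Agent.FF
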