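import Mathlib
import Fermat.Agent.FF.Growth
import Fermat.Agent.X0.Alg.SepVarBasic

/-!
# FF: Riemann's theorem for function fields over an algebraically closed field (any characteristic)

`K` algebraically closed, `F / K` with `HasPrincipalDivisors K F`, finite residue fields, and a
separating variable `x` (`IsSepVar K x n` and `Algebra.IsSeparable K⟮x⟯ F`).

* `rr_bounded_of_isSepVar` : Riemann's inequality `deg D - l(D) ≤ γ`;
* `riemannRochSpace_zero` / `finrank_riemannRochSpace_zero` : `L(0) = K`;
* `riemann` : `H1 D` and `L(D)` are finite dimensional and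
  `l(D) - dim H1(D) = deg D + 1 - genusFF K F`;
* `riemann_inequality` : `deg D + 1 - g ≤ l(D)`.
-/

set_option autoImplicit false

open AlgebraicCurve Fermat.Agent.X0 Fermat.Agent.X0.RR Polynomial FunctionField Module
  IntermediateField

namespace Fermat.Agent.FF

variable {K F : Type*} [Field K] [Field F] [Algebra K F]

attribute [local instance] addCommGroupRepartitions

/-- Separability over `K⟮x⟯` transported to `RatFunc K`. -/
theorem isSeparable_ratFunc_of {x : F} (hx : Transcendental K x)
    [hsep : Algebra.IsSeparable K⟮x⟯ F] :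
    letI := algRat hx
    Algebra.IsSeparable (RatFunc K) F := by
  let _ := algRat hx
  refine Algebra.IsSeparable.of_equiv_equiv
    (RatFunc.algEquivOfTranscendental x hx).symm.toRingEquiv (RingEquiv.refl F) ?_
  ext z
  show K⟮x⟯.val ((RatFunc.algEquivOfTranscendental x hx)
    ((RatFunc.algEquivOfTranscendental x hx).symm z)) = algebraMap K⟮x⟯ F z
  rw [AlgEquiv.apply_symm_apply]
  rfl

/-- **Riemann's inequality** for a function field with a separating variable. -/
theorem rr_bounded_of_isSepVar [IsAlgClosed K] [HasPrincipalDivisors K F]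
    (hfin : ∀ v : Place K F, Module.Finite K v.ResidueField) {x : F} {n : ℕ}
    (hx : IsSepVar K x n) [Algebra.IsSeparable K⟮x⟯ F] :
    ∃ γ : ℤ, ∀ D : Divisor K F, rr D ≤ γ := by
  let _ := algPoly K x
  let _ := algRat hx.transcendental
  have := isScalarTower_poly_rat hx.transcendental
  have := isScalarTower_base_poly (K := K) x
  have := hx.finite
  have := functionField_of_finite hx.transcendental
  have := isSeparable_ratFunc_of hx.transcendental
  exact rr_bounded_coord hfin

theorem nonempty_place_of_isSepVar [IsAlgClosed K] {x : F} {n : ℕ}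
    (hx : IsSepVar K x n) [Algebra.IsSeparable K⟮x⟯ F] : Nonempty (Place K F) := by
  let _ := algPoly K x
  let _ := algRat hx.transcendental
  have := isScalarTower_poly_rat hx.transcendental
  have := isScalarTower_base_poly (K := K) x
  have := hx.finite
  have := functionField_of_finite hx.transcendental
  have := isSeparable_ratFunc_of hx.transcendental
  exact nonempty_place_coord

/-- `L(0) = K`. -/
theorem riemannRochSpace_zero [IsAlgClosed K] [HasPrincipalDivisors K F] [Nonempty (Place K F)]
    (hfin : ∀ v : Place K F, Module.Finite K v.ResidueField) :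
    riemannRochSpace (0 : Divisor K F) = LinearMap.range (Algebra.linearMap K F) := by
  apply le_antisymm
  · intro f hf
    obtain ⟨v⟩ := ‹Nonempty (Place K F)›
    have := hfin v
    have hfv : f ∈ v.toValuationSubring := by
      rcases mem_riemannRochSpace_iff.mp hf v with h0 | h
      · rw [h0]; exact zero_mem _
      · exact Place.mem_of_ord_nonneg v (by simpa using h)
    have hint : Algebra.IsIntegral K v.ResidueField := Algebra.IsIntegral.of_finite K v.ResidueField
    have hbij : Function.Bijective (algebraMap K v.ResidueField) :=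
      IsAlgClosed.algebraMap_bijective_of_isIntegral
    obtain ⟨a, ha⟩ := hbij.2 (IsLocalRing.residue v.toValuationSubring ⟨f, hfv⟩)
    set g : F := f - algebraMap K F a with hg
    have hgv : g ∈ v.toValuationSubring := sub_mem hfv (v.algebraMap_mem' a)
    have hres : IsLocalRing.residue v.toValuationSubring ⟨g, hgv⟩ = 0 := by
      have h1 : (⟨g, hgv⟩ : v.toValuationSubring) =
          ⟨f, hfv⟩ - algebraMap K v.toValuationSubring a := Subtype.ext rfl
      rw [h1, map_sub, ← ha, sub_eq_zero, IsScalarTower.algebraMap_apply K v.toValuationSubring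
        v.ResidueField, IsLocalRing.ResidueField.algebraMap_eq]
    rw [IsLocalRing.residue_eq_zero_iff, mem_maximalIdeal_iff] at hres
    have hg0 : g = 0 := by
      by_contra hg0
      have hpos : 0 < v.ord g := hres.resolve_left hg0
      obtain ⟨G, hG, hGdeg⟩ := HasPrincipalDivisors.exists_divisor (K := K) g hg0
      have hgL : g ∈ riemannRochSpace (0 : Divisor K F) :=
        Submodule.sub_mem _ hf (by
          rw [mem_riemannRochSpace_iff]
          intro w
          right
          rw [Place.ord_algebraMap]
          simp)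
      have hGnn : Finsupp.single v (G v) ≤ G := by
        classical
        intro w
        rw [Finsupp.single_apply]
        split_ifs with hw
        · rw [hw]
        · rw [hG w]
          have := (mem_riemannRochSpace_iff.mp hgL w).resolve_left hg0
          simpa using this
      have h2 := degree_mono hGnn
      rw [Divisor.degree_single, hGdeg, hG v] at h2
      have h3 : (0 : ℤ) < (v.deg : ℤ) := by exact_mod_cast deg_pos v
      nlinarith
    refine ⟨a, ?_⟩
    rw [Algebra.linearMap_apply]
    rw [hg, sub_eq_zero] at hg0
    exact hg0.symm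
  · rintro _ ⟨a, rfl⟩
    rw [mem_riemannRochSpace_iff]
    intro w
    right
    rw [Algebra.linearMap_apply, Place.ord_algebraMap]
    simp

theorem finrank_riemannRochSpace_zero [IsAlgClosed K] [HasPrincipalDivisors K F]
    [Nonempty (Place K F)] (hfin : ∀ v : Place K F, Module.Finite K v.ResidueField) :
    finrank K ↥(riemannRochSpace (0 : Divisor K F)) = 1 := by
  rw [riemannRochSpace_zero hfin]
  have hinj : Function.Injective (Algebra.linearMap K F) := (algebraMap K F).injective
  rw [LinearMap.finrank_range_of_inj hinj, finrank_self]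

/-- **Riemann's theorem** (characteristic free, `K` algebraically closed). -/
theorem riemann [IsAlgClosed K] [HasPrincipalDivisors K F]
    (hfin : ∀ v : Place K F, Module.Finite K v.ResidueField) {x : F} {n : ℕ}
    (hx : IsSepVar K x n) [Algebra.IsSeparable K⟮x⟯ F] (D : Divisor K F) :
    Module.Finite K (H1 D) ∧ Module.Finite K ↥(riemannRochSpace D) ∧
      (finrank K ↥(riemannRochSpace D) : ℤ) - (finrank K (H1 D) : ℤ) =
        Divisor.degree D + 1 - (genusFF K F : ℤ) := by
  have := nonempty_place_of_isSepVar hx
  obtain ⟨h1, h2⟩ := riemann_abstract hfin (rr_bounded_of_isSepVar hfin hx) D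
  refine ⟨h1, finite_riemannRochSpace hfin D, ?_⟩
  rw [h2, finrank_riemannRochSpace_zero hfin]
  norm_num

/-- **Riemann's inequality**: `deg D + 1 - g ≤ l(D)`. -/
theorem riemann_inequality [IsAlgClosed K] [HasPrincipalDivisors K F]
    (hfin : ∀ v : Place K F, Module.Finite K v.ResidueField) {x : F} {n : ℕ}
    (hx : IsSepVar K x n) [Algebra.IsSeparable K⟮x⟯ F] (D : Divisor K F) :
    Divisor.degree D + 1 - (genusFF K F : ℤ) ≤ (finrank K ↥(riemannRochSpace D) : ℤ) := by
  obtain ⟨-, -, h⟩ := riemann hfin hx D
  have : (0 : ℤ) ≤ (finrank K (H1 D) : ℤ) := Int.natCast_nonneg _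
  omega

/-- **Large degree**: there is a bound `N` such that for every divisor `D` with `N ≤ deg D`
one has `H1 D = 0` and `l(D) = deg D + 1 - g`. -/
theorem exists_forall_finrank_H1_eq_zero [IsAlgClosed K] [HasPrincipalDivisors K F]
    (hfin : ∀ v : Place K F, Module.Finite K v.ResidueField) {x : F} {n : ℕ}
    (hx : IsSepVar K x n) [Algebra.IsSeparable K⟮x⟯ F] :
    ∃ N : ℤ, ∀ D : Divisor K F, N ≤ Divisor.degree D →
      finrank K (H1 D) = 0 ∧
        (finrank K ↥(riemannRochSpace D) : ℤ) = Divisor.degree D + 1 - (genusFF K F : ℤ) := by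
  have := nonempty_place_of_isSepVar hx
  obtain ⟨D₀, hD₀⟩ := exists_forall_H1_subsingleton hfin (rr_bounded_of_isSepVar hfin hx)
  refine ⟨Divisor.degree D₀ + (genusFF K F : ℤ), fun D hD => ?_⟩
  -- a nonzero element of `L(D - D₀)`
  have hineq := riemann_inequality hfin hx (D - D₀)
  have hfinL := finite_riemannRochSpace hfin (D - D₀)
  have hpos : 0 < finrank K ↥(riemannRochSpace (D - D₀)) := by
    have h1 : Divisor.degree (D - D₀) = Divisor.degree D - Divisor.degree D₀ := map_sub _ _ _
    have : (0 : ℤ) < (finrank K ↥(riemannRochSpace (D - D₀)) : ℤ) := by omega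
    exact_mod_cast this
  have hnt : Nontrivial ↥(riemannRochSpace (D - D₀)) := Module.finrank_pos_iff.mp hpos
  obtain ⟨⟨z, hzL⟩, hz0⟩ := exists_ne (0 : ↥(riemannRochSpace (D - D₀)))
  have hz : z ≠ 0 := fun h => hz0 (Subtype.ext h)
  obtain ⟨G, hG, hGdeg⟩ := HasPrincipalDivisors.exists_divisor (K := K) z hz
  have hle : D₀ ≤ D + G := by
    intro v
    have h := (mem_riemannRochSpace_iff.mp hzL v).resolve_left hz
    have h2 : (D - D₀) v = D v - D₀ v := rfl
    have h3 : (D + G) v = D v + G v := rfl
    rw [h3, hG v]
    rw [h2] at h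
    linarith
  have hsub := hD₀ (D + G) hle
  have hzero : finrank K (H1 (D + G)) = 0 := Module.finrank_zero_of_subsingleton
  obtain ⟨-, -, hR1⟩ := riemann hfin hx (D + G)
  obtain ⟨-, -, hR2⟩ := riemann hfin hx D
  have hl : finrank K ↥(riemannRochSpace (D + G)) = finrank K ↥(riemannRochSpace D) :=
    (mulEquiv (D := D) hz hG).finrank_eq
  have hdeg : Divisor.degree (D + G) = Divisor.degree D := by
    rw [map_add, hGdeg, add_zero]
  rw [hzero, hl, hdeg] at hR1
  constructor
  · have : (finrank K (H1 D) : ℤ) = 0 := by
      push_cast at hR1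
      linarith
    exact_mod_cast this
  · push_cast at hR1
    linarith

end Fermat.Agent.FF
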