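import Mathlib
import Fermat.Agent.FF.Riemann
import Fermat.Agent.X0.Alg.DegCore
import Fermat.Agent.X0.Alg.EssFT
import Fermat.Agent.X0.Alg.SepVarBasic
import Fermat.Agent.X0.Alg.RHAbstract

/-!
# FF: places of a function field with a separable coordinate, any characteristic

`IsSepVarS K x n` : `x` is transcendental over `K`, `[F : K(x)] = n` and `F / K(x)` is separable
(the characteristic-free notion of separating variable).  For `K` algebraically closed:

* `Place.exists_adicValuation_sub_lt_one_S`, `Place.algebraMap_residueField_surjective_S`,
  `finite_residueField`, `place_deg_eq_one` : the residue field of every place is `K`;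
* `finite_placesOver_S`, `sum_ord_placesOver_S`, `finite_placesOverInfty_S`,
  `sum_ord_placesOverInfty_S` : the fundamental identity over every value of `x`;
* `exists_place_over`, `infinite_place` : there are infinitely many places.
-/

set_option autoImplicit false

open AlgebraicCurve Fermat.Agent.X0 IsDedekindDomain IntermediateField Polynomial FunctionField

namespace Fermat.Agent.FF

variable {K F : Type*} [Field K] [Field F] [Algebra K F]

/-- `x` is a separating variable of `F / K` of degree `n`: transcendental, `[F : K(x)] = n`, and
`F / K(x)` separable. -/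
structure IsSepVarS (K : Type*) {F : Type*} [Field K] [Field F] [Algebra K F] (x : F) (n : ℕ) :
    Prop where
  toIsSepVar : IsSepVar K x n
  separable : Algebra.IsSeparable K⟮x⟯ F

namespace IsSepVarS

variable {x y : F} {n : ℕ}

theorem transcendental (hx : IsSepVarS K x n) : Transcendental K x := hx.toIsSepVar.transcendental

theorem finite (hx : IsSepVarS K x n) : FiniteDimensional K⟮x⟯ F := hx.toIsSepVar.finite

theorem finrank_eq (hx : IsSepVarS K x n) : Module.finrank K⟮x⟯ F = n := hx.toIsSepVar.finrank_eq

theorem pos (hx : IsSepVarS K x n) : 0 < n := by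
  have := hx.finite
  rw [← hx.finrank_eq]
  exact Module.finrank_pos

/-- Being a separating variable only depends on the field `K(x)`. -/
theorem of_adjoin_eq (hx : IsSepVarS K x n) (h : K⟮y⟯ = K⟮x⟯) (hy : Transcendental K y) :
    IsSepVarS K y n := by
  refine ⟨isSepVar_of_adjoin_eq hx.toIsSepVar h hy, ?_⟩
  rw [h]
  exact hx.separable

theorem inv (hx : IsSepVarS K x n) : IsSepVarS K x⁻¹ n :=
  ⟨isSepVar_inv hx.toIsSepVar, by rw [adjoin_simple_inv]; exact hx.separable⟩

theorem sub_const (hx : IsSepVarS K x n) (a : K) : IsSepVarS K (x - algebraMap K F a) n :=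
  ⟨isSepVar_sub_const hx.toIsSepVar a, by
    rw [adjoin_simple_sub_algebraMap]; exact hx.separable⟩

end IsSepVarS

section AnyPlace

variable {x : F} {n : ℕ}

/-- Every place contains `y = x` or `y = x⁻¹`, which is again a separating variable. -/
theorem Place.exists_sepVarS_mem (hx : IsSepVarS K x n) (v : Place K F) :
    ∃ y : F, IsSepVarS K y n ∧ y ∈ v.toValuationSubring := by
  rcases v.toValuationSubring.mem_or_inv_mem x with h | h
  · exact ⟨x, hx, h⟩
  · exact ⟨x⁻¹, hx.inv, h⟩

variable [IsAlgClosed K]

/-- (RES) the residue field of every place is `K`. -/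
theorem Place.exists_adicValuation_sub_lt_one_S (hx : IsSepVarS K x n) (v : Place K F) {u : F}
    (hu : u ∈ v.toValuationSubring) :
    ∃ c : K, v.adicValuation (u - algebraMap K F c) < 1 := by
  obtain ⟨y, hy, hyv⟩ := Place.exists_sepVarS_mem hx v
  let _ := algPoly K y
  let _ := algRat hy.transcendental
  have := isScalarTower_poly_rat hy.transcendental
  have := isScalarTower_base_poly (K := K) y
  have := hy.finite
  have := hy.separable
  have := functionField_of_finite hy.transcendental
  have := isSeparable_ratFunc_of hy.transcendental
  obtain ⟨R, hD, hFr, hFT, hle⟩ := exists_dedekind_model_coord (K := K) (F := F)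
  have hyv' : coordX K F ∈ v.toValuationSubring := by
    rw [coordX_eq]
    exact hyv
  exact Place.exists_adicValuation_sub_lt_one_of_model (R := R) v (fun r => hle v hyv' r) hu

/-- The residue field of every place is `K`: surjectivity of `K → k_v`. -/
theorem Place.algebraMap_residueField_surjective_S (hx : IsSepVarS K x n) (v : Place K F) :
    Function.Surjective (algebraMap K v.ResidueField) := by
  intro ū
  obtain ⟨u, rfl⟩ := IsLocalRing.residue_surjective ū
  obtain ⟨c, hc⟩ := Place.exists_adicValuation_sub_lt_one_S hx v u.2
  refine ⟨c, ?_⟩
  have h1 : u - algebraMap K v.toValuationSubring c ∈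
      IsLocalRing.maximalIdeal v.toValuationSubring := by
    have h2 : v.adicValuation ((u - algebraMap K v.toValuationSubring c : v.toValuationSubring) : F)
        < 1 := hc
    rw [v.adicValuation_coe, HeightOneSpectrum.intValuation_lt_one_iff_mem] at h2
    exact h2
  have h3 : IsLocalRing.residue v.toValuationSubring (u - algebraMap K v.toValuationSubring c)
      = 0 := (IsLocalRing.residue_eq_zero_iff _).mpr h1
  rw [map_sub, sub_eq_zero] at h3
  rw [h3]
  rfl

/-- Every place has degree one. -/
theorem place_deg_eq_one (hx : IsSepVarS K x n) (v : Place K F) : v.deg = 1 := by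
  rw [Place.deg]
  rw [finrank_eq_one_iff_of_nonzero' (1 : v.ResidueField) one_ne_zero]
  intro w
  obtain ⟨c, rfl⟩ := Place.algebraMap_residueField_surjective_S hx v w
  exact ⟨c, by rw [Algebra.smul_def, mul_one]⟩

/-- The residue field of every place is finite over `K`. -/
theorem finite_residueField (hx : IsSepVarS K x n) (v : Place K F) :
    Module.Finite K v.ResidueField :=
  Module.finite_of_finrank_pos (by
    have := place_deg_eq_one hx v
    rw [Place.deg] at this
    omega)

/-! ### The fundamental identity -/

omit [IsAlgClosed K] in
/-- Finitely many places over a value. -/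
theorem finite_placesOver_S (hx : IsSepVarS K x n) (a : K) : (placesOver x a).Finite := by
  let _ := algPoly K x
  let _ := algRat hx.transcendental
  have := isScalarTower_poly_rat hx.transcendental
  have := isScalarTower_base_poly (K := K) x
  have := hx.finite
  have := hx.separable
  have := functionField_of_finite hx.transcendental
  have := isSeparable_ratFunc_of hx.transcendental
  have h := finite_placesOver_core (K := K) (F := F) a
  rwa [coordX_eq] at h

/-- Fundamental identity `∑ e = n` over a finite value. -/
theorem sum_ord_placesOver_S (hx : IsSepVarS K x n) (a : K) :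
    ∑ v ∈ (finite_placesOver_S hx a).toFinset, v.ord (x - algebraMap K F a) = n := by
  let _ := algPoly K x
  let _ := algRat hx.transcendental
  have := isScalarTower_poly_rat hx.transcendental
  have := isScalarTower_base_poly (K := K) x
  have := hx.finite
  have := hx.separable
  have := functionField_of_finite hx.transcendental
  have := isSeparable_ratFunc_of hx.transcendental
  have h := sum_ord_placesOver_core (K := K) (F := F) a
  rw [finrank_ratFunc_eq hx.transcendental, hx.finrank_eq] at h
  rw [← h]
  have hx' : coordX K F = x := coordX_eq x
  refine Finset.sum_congr ?_ fun v _ => ?_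
  · ext v
    simp only [Set.Finite.mem_toFinset]
    rw [hx']
  · rw [hx']

omit [IsAlgClosed K] in
theorem finite_placesOverInfty_S (hx : IsSepVarS K x n) : (placesOverInfty K x).Finite := by
  rw [placesOverInfty_eq_placesOver_inv_zero]
  exact finite_placesOver_S hx.inv 0

theorem sum_ord_placesOverInfty_S (hx : IsSepVarS K x n) :
    ∑ v ∈ (finite_placesOverInfty_S hx).toFinset, -v.ord x = n := by
  rw [← sum_ord_placesOver_S hx.inv 0]
  refine Finset.sum_congr ?_ fun v _ => ?_
  · ext v
    simp only [Set.Finite.mem_toFinset]
    rw [placesOverInfty_eq_placesOver_inv_zero]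
  · rw [map_zero, sub_zero, v.ord_inv]

/-- Over every value of `x` there is a place. -/
theorem exists_place_over (hx : IsSepVarS K x n) (a : K) : ∃ v : Place K F, v ∈ placesOver x a := by
  by_contra hcon
  push Not at hcon
  have h := sum_ord_placesOver_S hx a
  have hempty : (finite_placesOver_S hx a).toFinset = ∅ := by
    rw [Finset.eq_empty_iff_forall_notMem]
    intro v hv
    rw [Set.Finite.mem_toFinset] at hv
    exact hcon v hv
  rw [hempty, Finset.sum_empty] at h
  have := hx.pos
  omega

/-- There are infinitely many places. -/
theorem infinite_place (hx : IsSepVarS K x n) : Infinite (Place K F) := by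
  have hK : Infinite K := IsAlgClosed.instInfinite
  choose g hg using exists_place_over hx
  refine Infinite.of_injective g ?_
  intro a b hab
  by_contra hne
  have h1 : g a ∈ placesOver x a := hg a
  have h2 : g a ∈ placesOver x b := by rw [hab]; exact hg b
  exact Set.disjoint_left.mp (placesOver_disjoint x hne) h1 h2

end AnyPlace

end Fermat.Agent.FF
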