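import Fermat.Agent.FF.AdeleDedekind
import Fermat.Agent.X0.RR7.DictFin
import Fermat.Agent.X0.RR7.DictInf
import Fermat.Agent.X0.RR.Setup
import Fermat.Agent.X0.RR.CoreTrace

/-!
# Track L-FF, node FF-ADELE (coordinate part): the genus as `dim F / (Bf + Binf)`

Coordinate context (any characteristic): `F` a finite separable extension of `RatFunc K`,
`x = coordX K F`, `Bf K F` / `Binf K F` the integral closures of `K[X]` / `Rinf K` in `F`.

* `fromModel_Bf_iff`, `fromModel_Binf_iff` : the places of `F / K` are the primes of `Bf` (where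
  `x` is integral) and the primes of `Binf` (the poles of `x`);
* `finite_poles_coord` : every function has finitely many poles (no `HasPrincipalDivisors`);
* `approxOn_fin`, `approxOn_inf` : approximation on the finite places and on the poles of `x`;
* `lamOn_fin_zero`, `lamOn_inf_zero` : the half lattices of the zero divisor are `Bf` and `Binf`;
* `h1ZeroEquiv`, `genusFF_eq_finrank_quotient` :
  `H¹(0) ≃ F ⧸ (Bf + Binf)` and `genusFF K F = dim_K F ⧸ (Bf + Binf)`.
-/

set_option autoImplicit false

open AlgebraicCurve IsDedekindDomain WithZero Polynomial FunctionField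

namespace Fermat.Agent.FF.Adele

open Fermat.Agent.X0 Fermat.Agent.X0.RR Fermat.Agent.X0.RR7

variable {K F : Type*} [Field K] [Field F] [Algebra K F]
  [Algebra K[X] F] [Algebra (RatFunc K) F] [IsScalarTower K[X] (RatFunc K) F]
  [IsScalarTower K K[X] F] [IsScalarTower K (RatFunc K) F]
  [FunctionField K F] [Algebra.IsSeparable (RatFunc K) F]

/-- The finite places: those where the coordinate is integral. -/
def IsFin (v : Place K F) : Prop := 0 ≤ v.ord (coordX K F)

omit [IsScalarTower K (RatFunc K) F] in
theorem fromModel_Bf_iff (v : Place K F) : FromModel K (Bf K F) v ↔ IsFin v := by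
  constructor
  · rintro ⟨w, rfl⟩
    exact ord_coordX_nonneg_ofHeightOneSpectrum (K := K) (F := F) w
  · intro h
    exact exists_hos_of_ord_coordX_nonneg v h

theorem fromModel_Binf_iff (v : Place K F) : FromModel K (Binf K F) v ↔ ¬ IsFin v := by
  constructor
  · rintro ⟨w, rfl⟩
    have := ord_coordX_neg_ofHeightOneSpectrum_inf (K := K) (F := F) w
    unfold IsFin
    omega
  · intro h
    unfold IsFin at h
    exact exists_hos_inf_of_ord_neg v (by omega)

omit [IsScalarTower K (RatFunc K) F] in
theorem fromModel_Bf_eq : (FromModel K (Bf K F) : Place K F → Prop) = IsFin :=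
  funext fun v => propext (fromModel_Bf_iff v)

theorem fromModel_Binf_eq :
    (FromModel K (Binf K F) : Place K F → Prop) = fun v => ¬ IsFin v :=
  funext fun v => propext (fromModel_Binf_iff v)

/-- Every function has finitely many poles. -/
theorem finite_poles_coord (f : F) : {v : Place K F | ¬ v.adicValuation f ≤ 1}.Finite := by
  refine ((finite_poles_fromModel (K := K) (Bf K F) f).union
    (finite_poles_fromModel (K := K) (Binf K F) f)).subset ?_
  intro v hv
  by_cases h : IsFin v
  · exact Or.inl ⟨(fromModel_Bf_iff v).2 h, hv⟩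
  · exact Or.inr ⟨(fromModel_Binf_iff v).2 h, hv⟩

theorem approxOn_fin : ApproxOn (IsFin : Place K F → Prop) := by
  rw [← fromModel_Bf_eq]
  exact approxOn_fromModel (Bf K F) finite_poles_coord

theorem approxOn_inf : ApproxOn (fun v : Place K F => ¬ IsFin v) := by
  rw [← fromModel_Binf_eq]
  exact approxOn_fromModel (Binf K F) finite_poles_coord

theorem lamOn_fin_zero : lamOn (IsFin : Place K F → Prop) 0 = BfK K F := by
  rw [← fromModel_Bf_eq]
  ext f
  rw [mem_lamOn_fromModel_zero, mem_BfK]
  constructor
  · rintro ⟨r, rfl⟩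
    exact r.2
  · intro h
    exact ⟨⟨f, h⟩, rfl⟩

theorem lamOn_inf_zero : lamOn (fun v : Place K F => ¬ IsFin v) 0 = BinfK K F := by
  rw [← fromModel_Binf_eq]
  ext f
  rw [mem_lamOn_fromModel_zero, mem_BinfK]
  constructor
  · rintro ⟨r, rfl⟩
    exact r.2
  · intro h
    exact ⟨⟨f, h⟩, rfl⟩

variable (K F) in
/-- **`H¹(0)` as `F ⧸ (Bf + Binf)`.** -/
noncomputable def h1ZeroEquiv :
    (F ⧸ (BfK K F ⊔ BinfK K F)) ≃ₗ[K] H1 (0 : Divisor K F) :=
  (Submodule.quotEquivOfEq _ _ (by rw [lamOn_fin_zero, lamOn_inf_zero])).trans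
    (h1Equiv finite_poles_coord (IsFin : Place K F → Prop) approxOn_fin approxOn_inf 0)

variable (K F) in
/-- **The genus is the dimension of `F ⧸ (Bf + Binf)`.** -/
theorem genusFF_eq_finrank_quotient :
    genusFF K F = Module.finrank K (F ⧸ (BfK K F ⊔ BinfK K F)) :=
  (h1ZeroEquiv K F).finrank_eq.symm

end Fermat.Agent.FF.Adele
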