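import Mathlib
import Fermat.Agent.FF.PlacesCoord
import Fermat.Agent.X0.Alg.SepVarChange

/-!
# FF: Kähler differentials of a function field with a separating variable, any characteristic

`F / K(x)` finite separable, `x` transcendental over `K`. Then `Ω[F⁄K]` is free of rank one over
`F`, generated by `D x` (`exists_kaehler_equiv_S`, `span_D_eq_top_S`, `finrank_kaehler_S`,
`free_kaehler_S`).

Separability criterion (`isSepVarS_of_D_ne_zero`): over an algebraically closed `K`, every `u`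
with `D u ≠ 0` is again a separating variable (transcendental, `F / K(u)` finite separable).
In characteristic `p` a transcendental element need not be separating (`u = y ^ p`).
-/

set_option autoImplicit false

open AlgebraicCurve Fermat.Agent.X0 KaehlerDifferential IntermediateField Polynomial TensorProduct

namespace Fermat.Agent.FF

variable {K F : Type*} [Field K] [Field F] [Algebra K F]

/-- `Ω[F⁄K] ≃ F`, `D x ↦ 1`, for a separating variable `x`. -/
theorem exists_kaehler_equiv_S {x : F} (hx : Transcendental K x) [FiniteDimensional K⟮x⟯ F]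
    [Algebra.IsSeparable K⟮x⟯ F] :
    ∃ e : Ω[F⁄K] ≃ₗ[F] F, e (D K F x) = 1 := by
  let algXL : Algebra K[X] K⟮x⟯ := (aeval (AdjoinSimple.gen K x)).toAlgebra
  let algXF : Algebra K[X] F := (aeval x).toAlgebra
  have hXL : ∀ g : K[X], algebraMap K[X] K⟮x⟯ g = aeval (AdjoinSimple.gen K x) g := fun _ => rfl
  have hXF : ∀ g : K[X], algebraMap K[X] F g = aeval x g := fun _ => rfl
  have : IsScalarTower K K[X] K⟮x⟯ := IsScalarTower.of_algebraMap_eq fun a => by
    rw [hXL, Polynomial.algebraMap_apply, aeval_C, Algebra.algebraMap_self, RingHom.id_apply]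
  have : IsScalarTower K K[X] F := IsScalarTower.of_algebraMap_eq fun a => by
    rw [hXF, Polynomial.algebraMap_apply, aeval_C, Algebra.algebraMap_self, RingHom.id_apply]
  have : IsScalarTower K[X] K⟮x⟯ F := IsScalarTower.of_algebraMap_eq fun g => by
    rw [hXF, hXL, ← aeval_algebraMap_apply, AdjoinSimple.algebraMap_gen]
  have : IsFractionRing K[X] K⟮x⟯ := by
    let e : RatFunc K ≃ₐ[K[X]] K⟮x⟯ :=
      AlgEquiv.ofRingEquiv (f := (RatFunc.algEquivOfTranscendental x hx).toRingEquiv)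
        (fun g => RatFunc.algEquivOfTranscendental_algebraMap x hx g)
    exact IsLocalization.isLocalization_of_algEquiv _ e
  have : Algebra.FormallyEtale K[X] K⟮x⟯ :=
    Algebra.FormallyEtale.of_isLocalization (nonZeroDivisors K[X])
  have : Algebra.FormallyEtale K⟮x⟯ F := Algebra.FormallyEtale.of_isSeparable _ _
  have : Algebra.FormallyEtale K[X] F := Algebra.FormallyEtale.comp K[X] K⟮x⟯ F
  let e1 : F ⊗[K[X]] Ω[K[X]⁄K] ≃ₗ[F] Ω[F⁄K] := tensorKaehlerEquivOfFormallyEtale K K[X] F
  let e2 : F ⊗[K[X]] Ω[K[X]⁄K] ≃ₗ[F] F ⊗[K[X]] K[X] :=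
    LinearEquiv.baseChange K[X] F _ _ (polynomialEquiv K)
  let e3 : F ⊗[K[X]] K[X] ≃ₗ[F] F := TensorProduct.AlgebraTensorModule.rid K[X] F F
  refine ⟨e1.symm ≪≫ₗ e2 ≪≫ₗ e3, ?_⟩
  have h1 : e1 (1 ⊗ₜ D K K[X] X) = D K F x := by
    simp only [e1, tensorKaehlerEquivOfFormallyEtale_apply, mapBaseChange_tmul, map_D, one_smul,
      hXF, aeval_X]
  rw [← h1]
  simp [e2, e3]

theorem D_ne_zero_S {x : F} (hx : Transcendental K x) [FiniteDimensional K⟮x⟯ F]
    [Algebra.IsSeparable K⟮x⟯ F] : D K F x ≠ 0 := by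
  obtain ⟨e, he⟩ := exists_kaehler_equiv_S hx
  intro h
  rw [h, map_zero] at he
  exact zero_ne_one he

theorem span_D_eq_top_S {x : F} (hx : Transcendental K x) [FiniteDimensional K⟮x⟯ F]
    [Algebra.IsSeparable K⟮x⟯ F] : Submodule.span F {D K F x} = ⊤ := by
  obtain ⟨e, he⟩ := exists_kaehler_equiv_S hx
  rw [eq_top_iff]
  intro ω _
  rw [Submodule.mem_span_singleton]
  refine ⟨e ω, e.injective ?_⟩
  rw [map_smul, he, smul_eq_mul, mul_one]

theorem finrank_kaehler_S {x : F} (hx : Transcendental K x) [FiniteDimensional K⟮x⟯ F]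
    [Algebra.IsSeparable K⟮x⟯ F] : Module.finrank F Ω[F⁄K] = 1 := by
  obtain ⟨e, -⟩ := exists_kaehler_equiv_S hx
  rw [e.finrank_eq, Module.finrank_self]

theorem free_kaehler_S {x : F} (hx : Transcendental K x) [FiniteDimensional K⟮x⟯ F]
    [Algebra.IsSeparable K⟮x⟯ F] : Module.Free F Ω[F⁄K] := by
  obtain ⟨e, -⟩ := exists_kaehler_equiv_S hx
  exact Module.Free.of_equiv e.symm

/-- If `D u ≠ 0` then `D u` generates `Ω[F⁄K]`. -/
theorem span_D_eq_top_of_ne_zero_S {x : F} (hx : Transcendental K x) [FiniteDimensional K⟮x⟯ F]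
    [Algebra.IsSeparable K⟮x⟯ F] {u : F} (hu : D K F u ≠ 0) :
    Submodule.span F {D K F u} = ⊤ := by
  obtain ⟨e, he⟩ := exists_kaehler_equiv_S hx
  have he0 : e (D K F u) ≠ 0 := fun h => hu (e.injective (by rw [h, map_zero]))
  rw [eq_top_iff]
  intro ω _
  rw [Submodule.mem_span_singleton]
  refine ⟨e ω * (e (D K F u))⁻¹, e.injective ?_⟩
  rw [map_smul, smul_eq_mul, mul_assoc, inv_mul_cancel₀ he0, mul_one]

/-- `Ω[F⁄K(u)] = 0` when `D u ≠ 0`. -/
theorem subsingleton_kaehler_adjoin {x : F} (hx : Transcendental K x) [FiniteDimensional K⟮x⟯ F]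
    [Algebra.IsSeparable K⟮x⟯ F] {u : F} (hu : D K F u ≠ 0) :
    Subsingleton Ω[F⁄K⟮u⟯] := by
  have hsurj := KaehlerDifferential.map_surjective K K⟮u⟯ F
  have hzero : ∀ ω : Ω[F⁄K], KaehlerDifferential.map K K⟮u⟯ F F ω = 0 := by
    intro ω
    have hω : ω ∈ Submodule.span F {D K F u} := by
      rw [span_D_eq_top_of_ne_zero_S hx hu]
      trivial
    obtain ⟨f, rfl⟩ := Submodule.mem_span_singleton.mp hω
    rw [map_smul, KaehlerDifferential.map_D]
    have h1 : (algebraMap F F) u = algebraMap K⟮u⟯ F (AdjoinSimple.gen K u) := by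
      rw [AdjoinSimple.algebraMap_gen]
      rfl
    rw [h1, Derivation.map_algebraMap, smul_zero]
  refine ⟨fun a b => ?_⟩
  obtain ⟨a', rfl⟩ := hsurj a
  obtain ⟨b', rfl⟩ := hsurj b
  rw [hzero a', hzero b']

/-- **Separability criterion.** Every `u` with `D u ≠ 0` is a separating variable. -/
theorem isSepVarS_of_D_ne_zero [IsAlgClosed K] {x : F} {n : ℕ} (hx : IsSepVarS K x n) {u : F}
    (hu : D K F u ≠ 0) : IsSepVarS K u (Module.finrank K⟮u⟯ F) := by
  have := hx.finite
  have := hx.separable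
  have htr : Transcendental K u := by
    intro halg
    obtain ⟨c, rfl⟩ := PrincipalDeg.exists_algebraMap_eq_of_isAlgebraic halg
    exact hu (Derivation.map_algebraMap _ c)
  have hfd : FiniteDimensional K⟮u⟯ F :=
    PrincipalDeg.finiteDimensional_adjoin_simple_of_transcendental x u htr
  refine ⟨⟨htr, hfd, rfl⟩, ?_⟩
  have : Algebra.FormallyUnramified K⟮u⟯ F := ⟨subsingleton_kaehler_adjoin hx.transcendental hu⟩
  exact Algebra.FormallyUnramified.isSeparable K⟮u⟯ F

/-- For every nonzero `z`, either `z` or `z * x` has nonzero differential. -/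
theorem D_ne_zero_or_D_mul_ne_zero {x : F} (hx : Transcendental K x) [FiniteDimensional K⟮x⟯ F]
    [Algebra.IsSeparable K⟮x⟯ F] {z : F} (hz : z ≠ 0) :
    D K F z ≠ 0 ∨ D K F (z * x) ≠ 0 := by
  by_cases h : D K F z = 0
  · right
    rw [Derivation.leibniz, h, smul_zero, add_zero]
    exact smul_ne_zero hz (D_ne_zero_S hx)
  · exact Or.inl h

end Fermat.Agent.FF
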