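import Mathlib
import Fermat.Agent.FF.SepKaehler

/-!
# FF: principal divisors have degree zero, any characteristic

`K` algebraically closed, `F / K(x)` finite separable.

* `exists_principal_divisor_sepVarS` : the divisor of a separating variable `g` exists and has
  degree zero (fundamental identity at `0` and `∞` for `g`);
* `exists_principal_divisor_S` : the same for every `z ≠ 0`: if `D z ≠ 0` then `z` is separating,
  otherwise `z * x` is, and `div z = div (z * x) - div x`;
* `hasPrincipalDivisors_S` : the Prelude class `HasPrincipalDivisors K F`;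
* `isCurveOver_S` : the Prelude class `IsCurveOver K F`.
-/

set_option autoImplicit false

open AlgebraicCurve Fermat.Agent.X0 KaehlerDifferential IntermediateField

namespace Fermat.Agent.FF

variable {K F : Type*} [Field K] [Field F] [Algebra K F] [IsAlgClosed K]

/-- The principal divisor of a separating variable exists and has degree zero. -/
theorem exists_principal_divisor_sepVarS {g : F} {m : ℕ} (hg : IsSepVarS K g m) :
    ∃ G : Divisor K F, (∀ v, G v = v.ord g) ∧ Divisor.degree G = 0 := by
  classical
  have h0 := finite_placesOver_S hg 0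
  have hinf := finite_placesOverInfty_S hg
  have hz' := sum_ord_placesOver_S hg 0
  have hp' := sum_ord_placesOverInfty_S hg
  set Z := h0.toFinset with hZ
  set P := hinf.toFinset with hP
  have hmemZ : ∀ v, v ∈ Z ↔ 0 < v.ord g := by
    intro v
    rw [hZ, Set.Finite.mem_toFinset, mem_placesOver, map_zero, sub_zero]
  have hmemP : ∀ v, v ∈ P ↔ v.ord g < 0 := by
    intro v
    rw [hP, Set.Finite.mem_toFinset, mem_placesOverInfty]
  have hfin : {v : Place K F | v.ord g ≠ 0}.Finite := by
    refine (h0.union hinf).subset ?_
    intro v hv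
    rcases lt_or_gt_of_ne hv with h | h
    · exact Or.inr h
    · left
      rw [mem_placesOver, map_zero, sub_zero]
      exact h
  refine ⟨Finsupp.ofSupportFinite (fun v => v.ord g) hfin, fun v => rfl, ?_⟩
  set G : Divisor K F := Finsupp.ofSupportFinite (fun v => v.ord g) hfin with hG
  have hGv : ∀ v, G v = v.ord g := fun v => rfl
  have hdisj : Disjoint Z P := by
    rw [Finset.disjoint_left]
    intro v h1 h2
    rw [hmemZ] at h1
    rw [hmemP] at h2
    omega
  have hsub : G.support ⊆ Z ∪ P := by
    intro v hv
    rw [Finsupp.mem_support_iff, hGv] at hv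
    rcases lt_or_gt_of_ne hv with h | h
    · exact Finset.mem_union_right _ ((hmemP v).mpr h)
    · exact Finset.mem_union_left _ ((hmemZ v).mpr h)
  rw [degree_apply, Finsupp.sum_of_support_subset G hsub _ (fun v _ => by simp)]
  have hterm : ∀ v ∈ Z ∪ P, G v * (v.deg : ℤ) = v.ord g := by
    intro v _
    rw [place_deg_eq_one hg v, hGv]
    simp
  rw [Finset.sum_congr rfl hterm, Finset.sum_union hdisj]
  have hz : ∑ v ∈ Z, v.ord g = (m : ℤ) := by
    rw [← hz']
    refine Finset.sum_congr rfl fun v _ => ?_
    rw [map_zero, sub_zero]
  have hp : ∑ v ∈ P, v.ord g = -(m : ℤ) := by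
    rw [← hp', Finset.sum_neg_distrib, neg_neg]
  rw [hz, hp, add_neg_cancel]

/-- The principal divisor of every nonzero function exists and has degree zero. -/
theorem exists_principal_divisor_S {x : F} {n : ℕ} (hx : IsSepVarS K x n) {z : F} (hz : z ≠ 0) :
    ∃ G : Divisor K F, (∀ v, G v = v.ord z) ∧ Divisor.degree G = 0 := by
  have := hx.finite
  have := hx.separable
  rcases D_ne_zero_or_D_mul_ne_zero (K := K) hx.transcendental hz with h | h
  · exact exists_principal_divisor_sepVarS (isSepVarS_of_D_ne_zero hx h)
  · obtain ⟨G1, hG1, hd1⟩ := exists_principal_divisor_sepVarS (isSepVarS_of_D_ne_zero hx h)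
    obtain ⟨G2, hG2, hd2⟩ := exists_principal_divisor_sepVarS hx
    have hx0 : x ≠ 0 := by
      rintro rfl
      exact hx.transcendental (isAlgebraic_zero)
    refine ⟨G1 - G2, fun v => ?_, ?_⟩
    · rw [Finsupp.sub_apply, hG1 v, hG2 v, v.ord_mul hz hx0]
      ring
    · rw [map_sub, hd1, hd2, sub_zero]

/-- The Prelude class `HasPrincipalDivisors K F` in any characteristic. -/
theorem hasPrincipalDivisors_S {x : F} {n : ℕ} (hx : IsSepVarS K x n) :
    HasPrincipalDivisors K F :=
  ⟨fun _ hz => exists_principal_divisor_S hx hz⟩

/-- The Prelude class `IsCurveOver K F` in any characteristic. -/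
theorem isCurveOver_S {x : F} {n : ℕ} (hx : IsSepVarS K x n) : IsCurveOver K F := by
  have := hx.finite
  have := hx.separable
  exact
    { toHasPrincipalDivisors := hasPrincipalDivisors_S hx
      finiteResidue := finite_residueField hx
      kaehler_free_rank_one := ⟨free_kaehler_S hx.transcendental,
        finrank_kaehler_S hx.transcendental⟩ }

end Fermat.Agent.FF
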