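import Mathlib
import Fermat.Agent.FF.Principal
import Fermat.Agent.X0.RR7.DictInf

/-!
# FF: from a coordinate context back to a separating variable

In a coordinate context (`F` finite separable over `RatFunc K`, compatible `K[X]`-algebra
structure) the coordinate `coordX K F` is a separating variable in the sense of `IsSepVarS`:
`isSepVarS_coordX`.  Consequently all the theorems of `FF/PlacesCoord`, `FF/Principal`,
`FF/Riemann` are available in a coordinate context: `hasPrincipalDivisors_coord`,
`finite_residueField_coord`, `riemann_coord`, ...
-/

set_option autoImplicit false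

open AlgebraicCurve Fermat.Agent.X0 Fermat.Agent.X0.RR7 IntermediateField Polynomial FunctionField
  Module

namespace Fermat.Agent.FF

variable {K F : Type*} [Field K] [Field F] [Algebra K F]
  [Algebra K[X] F] [Algebra (RatFunc K) F] [IsScalarTower K[X] (RatFunc K) F]
  [IsScalarTower K K[X] F]

omit [Algebra (RatFunc K) F] [IsScalarTower K[X] (RatFunc K) F] in
theorem algebraMap_poly_eq_aeval_coordX (p : K[X]) :
    algebraMap K[X] F p = aeval (coordX K F) p := by
  have h : IsScalarTower.toAlgHom K K[X] F = aeval (coordX K F) :=
    Polynomial.algHom_ext (by simp [coordX])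
  exact congrArg (fun f : K[X] →ₐ[K] F => f p) h

theorem transcendental_coordX : Transcendental K (coordX K F) := by
  have := isScalarTower_base_rat (K := K) (F := F)
  rw [← algebraMap_ratFunc_X (K := K) (F := F)]
  exact (transcendental_algebraMap_iff (algebraMap (RatFunc K) F).injective).mpr
    (RatFunc.transcendental_X (K := K))

/-- The given `RatFunc K`-algebra structure is the one attached to the coordinate. -/
theorem algebraMap_ratFunc_eq_ratFuncHom :
    algebraMap (RatFunc K) F = (ratFuncHom (transcendental_coordX (K := K) (F := F))).toRingHom := by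
  refine IsLocalization.ringHom_ext (nonZeroDivisors K[X]) ?_
  ext p
  · simp only [RingHom.coe_comp, Function.comp_apply]
    rw [← IsScalarTower.algebraMap_apply K[X] (RatFunc K) F]
    show algebraMap K[X] F (C p) = ratFuncHom _ (algebraMap K[X] (RatFunc K) (C p))
    rw [ratFuncHom_algebraMap, algebraMap_poly_eq_aeval_coordX]
  · simp only [RingHom.coe_comp, Function.comp_apply]
    rw [← IsScalarTower.algebraMap_apply K[X] (RatFunc K) F]
    show algebraMap K[X] F X = ratFuncHom _ (algebraMap K[X] (RatFunc K) X)
    rw [ratFuncHom_algebraMap, algebraMap_poly_eq_aeval_coordX]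

/-- The comparison square between `RatFunc K → F` and `K(x) → F`. -/
theorem algebraMap_adjoin_comp_equiv :
    (algebraMap K⟮coordX K F⟯ F).comp
        ((RatFunc.algEquivOfTranscendental (coordX K F)
          (transcendental_coordX (K := K) (F := F))).toRingEquiv : RatFunc K →+* K⟮coordX K F⟯) =
      (RingEquiv.refl F : F →+* F).comp (algebraMap (RatFunc K) F) := by
  rw [algebraMap_ratFunc_eq_ratFuncHom]
  rfl

variable [FunctionField K F]

theorem finiteDimensional_adjoin_coordX : FiniteDimensional K⟮coordX K F⟯ F :=
  Module.Finite.of_equiv_equiv
    (RatFunc.algEquivOfTranscendental (coordX K F)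
      (transcendental_coordX (K := K) (F := F))).toRingEquiv (RingEquiv.refl F)
    algebraMap_adjoin_comp_equiv

omit [FunctionField K F] in
theorem finrank_adjoin_coordX :
    finrank K⟮coordX K F⟯ F = finrank (RatFunc K) F :=
  (Algebra.finrank_eq_of_equiv_equiv
    (RatFunc.algEquivOfTranscendental (coordX K F)
      (transcendental_coordX (K := K) (F := F))).toRingEquiv (RingEquiv.refl F)
    algebraMap_adjoin_comp_equiv).symm

variable [Algebra.IsSeparable (RatFunc K) F]

omit [FunctionField K F] in
theorem isSeparable_adjoin_coordX : Algebra.IsSeparable K⟮coordX K F⟯ F :=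
  Algebra.IsSeparable.of_equiv_equiv
    (RatFunc.algEquivOfTranscendental (coordX K F)
      (transcendental_coordX (K := K) (F := F))).toRingEquiv (RingEquiv.refl F)
    algebraMap_adjoin_comp_equiv

variable (K F) in
/-- **The coordinate of a coordinate context is a separating variable.** -/
theorem isSepVarS_coordX : IsSepVarS K (coordX K F) (finrank (RatFunc K) F) :=
  ⟨⟨transcendental_coordX, finiteDimensional_adjoin_coordX, finrank_adjoin_coordX⟩,
    isSeparable_adjoin_coordX⟩

section AlgClosed

variable [IsAlgClosed K]

variable (K F) in
theorem hasPrincipalDivisors_coord : HasPrincipalDivisors K F :=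
  hasPrincipalDivisors_S (isSepVarS_coordX K F)

theorem finite_residueField_coord (v : Place K F) : Module.Finite K v.ResidueField :=
  finite_residueField (isSepVarS_coordX K F) v

variable (K F) in
theorem isCurveOver_coord : IsCurveOver K F := isCurveOver_S (isSepVarS_coordX K F)

end AlgClosed

end Fermat.Agent.FF
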