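import Mathlib
import Fermat.Agent.FF.CoordSepVar
import Fermat.Agent.FF.AdeleCoord
import Fermat.Agent.X0.RR.BG
import Fermat.Agent.X0.RR.StdPair
import Fermat.Agent.X0.RR.IntegralBasis

/-!
# FF: the genus from a standard (Birkhoff–Grothendieck) basis, any characteristic

Coordinate context, `K` algebraically closed. There are a `RatFunc K`-basis `b` of `F` and
integers `d i` such that `b` is a `K[X]`-basis of `Bf K F`, the `X ^ d i • b i` are a
`Rinf K`-basis of `Binf K F`, and

  `1 - genusFF K F = n + ∑ i, d i`,  `n = [F : K(x)]`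

(`exists_std_basis_genus`).  This is the Euler characteristic `h⁰ - h¹` of the lattice pair
`(Bf, Binf)`, computed with `h⁰ = l(0) = 1` and `h¹ = genusFF` (FF-4, `genusFF_eq_finrank_quotient`).
-/

set_option autoImplicit false

open AlgebraicCurve Fermat.Agent.X0 Fermat.Agent.X0.RR Fermat.Agent.X0.RR7 Polynomial FunctionField
  Module

namespace Fermat.Agent.FF

variable {K F : Type*} [Field K] [Field F] [Algebra K F]
  [Algebra K[X] F] [Algebra (RatFunc K) F] [IsScalarTower K[X] (RatFunc K) F]
  [IsScalarTower K K[X] F] [IsScalarTower K (RatFunc K) F]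
  [FunctionField K F] [Algebra.IsSeparable (RatFunc K) F]

attribute [local instance] addCommGroupRepartitions

omit [IsScalarTower K K[X] F] in
variable (K F) in
/-- Bases adapted to `Bf` and `Binf` (any characteristic). -/
theorem exists_bases_BfK_BinfK_S :
    ∃ β γ : Basis (Fin (finrank (RatFunc K) F)) (RatFunc K) F,
      latF β = BfK K F ∧ latInf γ 0 = BinfK K F := by
  obtain ⟨β, hβ⟩ := Bf.exists_basis K F
  obtain ⟨γ, hγ⟩ := Binf.exists_basis K F
  refine ⟨β, γ, ?_, ?_⟩
  · ext h
    rw [mem_latF_iff_mem_span, hβ]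
    rfl
  · ext h
    rw [mem_latInf_zero_iff_mem_span, hγ]
    rfl

variable (K F) in
/-- `L(0) = Bf ∩ Binf`. -/
theorem riemannRochSpace_zero_eq_inf :
    riemannRochSpace (0 : Divisor K F) = BfK K F ⊓ BinfK K F := by
  rw [Adele.riemannRochSpace_eq_inf (Adele.IsFin : Place K F → Prop) 0, Adele.lamOn_fin_zero,
    Adele.lamOn_inf_zero]

theorem toNat_sub_toNat_neg_int (a : ℤ) : (a.toNat : ℤ) - ((-a).toNat : ℤ) = a := by
  omega

variable (K F) in
/-- **The genus from a standard basis.** -/
theorem exists_std_basis_genus [IsAlgClosed K] :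
    ∃ (b : Basis (Fin (finrank (RatFunc K) F)) (RatFunc K) F)
      (d : Fin (finrank (RatFunc K) F) → ℤ),
      latF b = BfK K F ∧ latInf b d = BinfK K F ∧
        (1 : ℤ) - (genusFF K F : ℤ) = (finrank (RatFunc K) F : ℤ) + ∑ i, d i := by
  classical
  obtain ⟨β, γ, hβ, hγ⟩ := exists_bases_BfK_BinfK_S K F
  obtain ⟨b, d, hb, hd⟩ := exists_std_basis β γ
  rw [hβ] at hb
  rw [hγ] at hd
  refine ⟨b, d, hb, hd, ?_⟩
  -- `h¹`
  have h1 : genusFF K F = ∑ i, (-d i - 1).toNat := by
    rw [Adele.genusFF_eq_finrank_quotient K F, ← hb, ← hd]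
    exact finrank_quotient_latF_sup_latInf b d
  -- `h⁰`
  have h0 : (1 : ℕ) = ∑ i, (d i + 1).toNat := by
    have hP := hasPrincipalDivisors_coord K F
    have hne : Nonempty (Place K F) := (infinite_place (isSepVarS_coordX K F)).nonempty
    rw [← finrank_riemannRochSpace_zero (K := K) (F := F) finite_residueField_coord,
      riemannRochSpace_zero_eq_inf K F, ← hb, ← hd]
    exact finrank_latF_inf_latInf b d
  have h0' : (1 : ℤ) = ∑ i, ((d i + 1).toNat : ℤ) := by exact_mod_cast h0
  have h1' : (genusFF K F : ℤ) = ∑ i, ((-d i - 1).toNat : ℤ) := by exact_mod_cast h1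
  rw [h0', h1', ← Finset.sum_sub_distrib]
  have hterm : ∀ i, ((d i + 1).toNat : ℤ) - ((-d i - 1).toNat : ℤ) = d i + 1 := by
    intro i
    have := toNat_sub_toNat_neg_int (d i + 1)
    rw [show -(d i + 1) = -d i - 1 by ring] at this
    exact this
  rw [Finset.sum_congr rfl fun i _ => hterm i, Finset.sum_add_distrib]
  simp
  ring

end Fermat.Agent.FF
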