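import Mathlib
import Fermat.Agent.FF.Principal
import Fermat.Agent.Red.Setup

/-!
# FF: the Riemann package of a function field with a separating variable (interface I1)

`riemannPkg : IsSepVarS K x n → Red.RiemannPkg K F` for `K` algebraically closed of any
characteristic; `riemannPkg_of` is the same statement with unbundled hypotheses.
-/

set_option autoImplicit false

open AlgebraicCurve Fermat.Agent.X0 IntermediateField Module

namespace Fermat.Agent.FF

variable {K F : Type*} [Field K] [Field F] [Algebra K F] [IsAlgClosed K]

/-- **Interface (I1).** The Riemann package of a function field with a separating variable. -/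
theorem riemannPkg {x : F} {n : ℕ} (hx : IsSepVarS K x n) : Red.RiemannPkg K F := by
  have hP := hasPrincipalDivisors_S hx
  have hfin := finite_residueField hx
  have := hx.separable
  have hne : Nonempty (Place K F) := (infinite_place hx).nonempty
  exact
    { deg_one := place_deg_eq_one hx
      principal := hP
      infinite_places := infinite_place hx
      finite_L := finite_riemannRochSpace hfin
      L_eq_bot_of_neg := fun D hD => riemannRochSpace_eq_bot_of_degree_neg hD
      L_zero := fun f hf => by
        rw [riemannRochSpace_zero hfin] at hf
        obtain ⟨a, ha⟩ := hf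
        exact ⟨a, ha.symm⟩
      riemann_le := riemann_inequality hfin hx.toIsSepVar
      riemann_eq := by
        obtain ⟨N, hN⟩ := exists_forall_finrank_H1_eq_zero hfin hx.toIsSepVar
        exact ⟨N, fun D hD => (hN D hD).2⟩ }

/-- Interface (I1), unbundled form. -/
theorem riemannPkg_of {x : F} (hx : Transcendental K x) [FiniteDimensional K⟮x⟯ F]
    [Algebra.IsSeparable K⟮x⟯ F] : Red.RiemannPkg K F :=
  riemannPkg (x := x) (n := finrank K⟮x⟯ F) ⟨⟨hx, inferInstance, rfl⟩, inferInstance⟩

end Fermat.Agent.FF
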