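import Mathlib
import Fermat.Prelude.Def_AlgebraicCurve_Repartitions
import Fermat.Agent.X0.Alg.Dict
import Fermat.Agent.X0.Alg.PlaceBasic

/-!
# L-FF (node 2): extensions of places in an algebraic extension of function fields

`F'/F` an algebraic extension of fields over `K` (no hypothesis on the characteristic).

* `Place.comapField w : Place K F`: the restriction `w ∩ F` of a place `w` of `F'`;
* `Place.ramIdx F w`: the ramification index `e(w | w ∩ F) ≥ 1`;
  `Place.ord_algebraMap_eq`: `ord_w (f) = e · ord_{w ∩ F} (f)` for `f ∈ F`.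
-/

set_option autoImplicit false
set_option linter.unusedSectionVars false

open AlgebraicCurve IsDedekindDomain WithZero

namespace Fermat.Agent.FF

variable {K F F' : Type*} [Field K] [Field F] [Field F'] [Algebra K F] [Algebra F F']
  [Algebra K F'] [IsScalarTower K F F']

section Comap

variable [Algebra.IsAlgebraic F F'] (w : Place K F')

/-- The restriction of the valuation ring of a place of `F'` to `F` is not all of `F`. -/
theorem comap_toValuationSubring_ne_top :
    w.toValuationSubring.comap (algebraMap F F') ≠ ⊤ := by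
  intro htop
  apply w.ne_top'
  refine SetLike.ext fun x => ⟨fun _ => ValuationSubring.mem_top x, fun _ => ?_⟩
  -- `x` is integral over `F ⊆ O_w`, and `O_w` is integrally closed
  have hF : ∀ f : F, algebraMap F F' f ∈ w.toValuationSubring := fun f => by
    have : f ∈ w.toValuationSubring.comap (algebraMap F F') := by rw [htop]; trivial
    exact this
  have hx : IsIntegral F x := Algebra.IsIntegral.isIntegral x
  obtain ⟨p, hp, hpx⟩ := hx
  have hint : IsIntegral w.toValuationSubring x := by
    refine ⟨p.map ((algebraMap F F').codRestrict w.toValuationSubring.toSubring hF),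
      hp.map _, ?_⟩
    rw [Polynomial.eval₂_map]
    exact hpx
  have hcl := IsIntegrallyClosed.isIntegral_iff (R := w.toValuationSubring) (K := F') (x := x)
  obtain ⟨y, hy⟩ := hcl.mp hint
  rw [← hy]
  exact y.2

/-- An ord function on the restriction. -/
theorem exists_ord_min (I : Ideal (w.toValuationSubring.comap (algebraMap F F'))) (hI : I ≠ ⊥) :
    ∃ a ∈ I, a ≠ 0 ∧ ∀ b ∈ I, b ≠ 0 →
      w.ord (algebraMap F F' (a : F)) ≤ w.ord (algebraMap F F' (b : F)) := by
  classical
  obtain ⟨a₀, ha₀, ha₀0⟩ := Submodule.exists_mem_ne_zero_of_ne_bot hI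
  have hnonneg : ∀ b : w.toValuationSubring.comap (algebraMap F F'),
      0 ≤ w.ord (algebraMap F F' (b : F)) := fun b =>
    Fermat.Agent.X0.Place.ord_nonneg_of_mem w b.2
  let S : Set ℕ := {n | ∃ b ∈ I, b ≠ 0 ∧ (w.ord (algebraMap F F' (b : F))).toNat = n}
  have hS : S.Nonempty := ⟨_, a₀, ha₀, ha₀0, rfl⟩
  obtain ⟨a, ha, ha0, han⟩ := Nat.sInf_mem hS
  refine ⟨a, ha, ha0, fun b hb hb0 => ?_⟩
  have h1 : sInf S ≤ (w.ord (algebraMap F F' (b : F))).toNat := Nat.sInf_le ⟨b, hb, hb0, rfl⟩
  rw [← han] at h1
  have := hnonneg a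
  have := hnonneg b
  omega

/-- The restriction of the valuation ring of a place to `F` is a principal ideal ring. -/
theorem isPrincipalIdealRing_comap :
    IsPrincipalIdealRing (w.toValuationSubring.comap (algebraMap F F')) := by
  refine ⟨fun I => ?_⟩
  by_cases hI : I = ⊥
  · exact ⟨0, by rw [hI]; simp⟩
  obtain ⟨a, ha, ha0, hmin⟩ := exists_ord_min w I hI
  refine ⟨a, le_antisymm (fun b hb => ?_) ?_⟩
  · rw [Submodule.mem_span_singleton]
    by_cases hb0 : b = 0
    · exact ⟨0, by rw [hb0, zero_smul]⟩
    have haF : (a : F) ≠ 0 := fun h => ha0 (Subtype.ext h)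
    have hbF : (b : F) ≠ 0 := fun h => hb0 (Subtype.ext h)
    have haF' : algebraMap F F' (a : F) ≠ 0 := (map_ne_zero _).mpr haF
    have hbF' : algebraMap F F' (b : F) ≠ 0 := (map_ne_zero _).mpr hbF
    have hq : (b : F) * (a : F)⁻¹ ∈ w.toValuationSubring.comap (algebraMap F F') := by
      rw [ValuationSubring.mem_comap, map_mul, map_inv₀]
      apply Fermat.Agent.X0.Place.mem_of_ord_nonneg
      rw [w.ord_mul hbF' (inv_ne_zero haF'), w.ord_inv]
      have := hmin b hb hb0
      omega
    refine ⟨⟨(b : F) * (a : F)⁻¹, hq⟩, Subtype.ext ?_⟩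
    show (b : F) * (a : F)⁻¹ * (a : F) = (b : F)
    rw [inv_mul_cancel_right₀ haF]
  · rw [Submodule.span_le, Set.singleton_subset_iff]
    exact ha

/-- **The restriction `w ∩ F` of a place `w` of `F'` to `F`** (`F'/F` algebraic). -/
def comapField (F : Type*) [Field F] [Algebra K F] [Algebra F F'] [IsScalarTower K F F']
    [Algebra.IsAlgebraic F F'] (w : Place K F') : Place K F where
  toValuationSubring := w.toValuationSubring.comap (algebraMap F F')
  algebraMap_mem' a := by
    show algebraMap F F' (algebraMap K F a) ∈ w.toValuationSubring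
    rw [← IsScalarTower.algebraMap_apply]
    exact w.algebraMap_mem' a
  ne_top' := comap_toValuationSubring_ne_top w
  isPrincipalIdealRing' := isPrincipalIdealRing_comap w

@[simp]
theorem comapField_toValuationSubring :
    (comapField F w).toValuationSubring = w.toValuationSubring.comap (algebraMap F F') := rfl

theorem mem_comapField_iff (f : F) :
    f ∈ (comapField F w).toValuationSubring ↔ algebraMap F F' f ∈ w.toValuationSubring :=
  Iff.rfl

end Comap

section RamIdx

variable [Algebra.IsAlgebraic F F'] (w : Place K F')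

/-- A unit of `O_v`, `v = w ∩ F`, has order `0` at `w`. -/
theorem ord_algebraMap_unit (u : (comapField F w).toValuationSubringˣ) :
    w.ord (algebraMap F F' ((u : (comapField F w).toValuationSubring) : F)) = 0 := by
  have h1 : 0 ≤ w.ord (algebraMap F F' ((u : (comapField F w).toValuationSubring) : F)) :=
    Fermat.Agent.X0.Place.ord_nonneg_of_mem w (u : (comapField F w).toValuationSubring).2
  have h2 : 0 ≤ w.ord (algebraMap F F'
      (((u⁻¹ : (comapField F w).toValuationSubringˣ) : (comapField F w).toValuationSubring) : F)) :=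
    Fermat.Agent.X0.Place.ord_nonneg_of_mem w
      ((u⁻¹ : (comapField F w).toValuationSubringˣ) : (comapField F w).toValuationSubring).2
  have h3 : (((u⁻¹ : (comapField F w).toValuationSubringˣ) :
      (comapField F w).toValuationSubring) : F) =
      ((u : (comapField F w).toValuationSubring) : F)⁻¹ := by
    have h := congrArg Subtype.val (u.inv_mul)
    exact eq_inv_of_mul_eq_one_left h
  rw [h3, map_inv₀, w.ord_inv] at h2
  omega

/-- A non-unit of `O_v` has positive order at `w`. -/
theorem ord_algebraMap_pos_of_not_isUnit {a : (comapField F w).toValuationSubring}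
    (ha0 : a ≠ 0) (ha : ¬ IsUnit a) : 0 < w.ord (algebraMap F F' (a : F)) := by
  have h1 : 0 ≤ w.ord (algebraMap F F' (a : F)) :=
    Fermat.Agent.X0.Place.ord_nonneg_of_mem w a.2
  rcases h1.lt_or_eq with h | h
  · exact h
  exfalso
  apply ha
  have haF : (a : F) ≠ 0 := fun h => ha0 (Subtype.ext h)
  have hinv : (a : F)⁻¹ ∈ (comapField F w).toValuationSubring := by
    rw [mem_comapField_iff, map_inv₀]
    exact Fermat.Agent.X0.Place.inv_mem_of_ord_nonpos w h.symm.le
  exact IsUnit.of_mul_eq_one (⟨(a : F)⁻¹, hinv⟩ : (comapField F w).toValuationSubring)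
    (Subtype.ext (mul_inv_cancel₀ haF))

/-- **The ramification index** `e(w | w ∩ F)`. -/
noncomputable def ramIdx (F : Type*) [Field F] [Algebra K F] [Algebra F F'] [IsScalarTower K F F']
    [Algebra.IsAlgebraic F F'] (w : Place K F') : ℕ :=
  (w.ord (algebraMap F F' ((Classical.choose
    (IsDiscreteValuationRing.exists_irreducible (comapField F w).toValuationSubring) :
      (comapField F w).toValuationSubring) : F))).toNat

theorem ramIdx_pos : 0 < ramIdx F w := by
  have hπ := Classical.choose_spec
    (IsDiscreteValuationRing.exists_irreducible (comapField F w).toValuationSubring)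
  have := ord_algebraMap_pos_of_not_isUnit w hπ.ne_zero hπ.not_isUnit
  unfold ramIdx
  omega

/-- **`ord_w(f) = e(w|v) · ord_v(f)`** for `f ∈ F`, `v = w ∩ F`. -/
theorem ord_algebraMap_eq (f : F) :
    w.ord (algebraMap F F' f) = (ramIdx F w : ℤ) * (comapField F w).ord f := by
  rcases eq_or_ne f 0 with rfl | hf
  · simp
  have hπ := Classical.choose_spec
    (IsDiscreteValuationRing.exists_irreducible (comapField F w).toValuationSubring)
  set π := Classical.choose
    (IsDiscreteValuationRing.exists_irreducible (comapField F w).toValuationSubring) with hπdef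
  have hpos := ord_algebraMap_pos_of_not_isUnit w hπ.ne_zero hπ.not_isUnit
  have he : (ramIdx F w : ℤ) = w.ord (algebraMap F F' (π : F)) := by
    unfold ramIdx
    rw [Int.toNat_of_nonneg hpos.le]
  obtain ⟨u, hu⟩ := (comapField F w).exists_unit_mul_zpow hf hπ
  have hπF : (π : F) ≠ 0 := fun h => hπ.ne_zero (Subtype.ext h)
  have huF : ((u : (comapField F w).toValuationSubring) : F) ≠ 0 := by
    intro h
    rw [h, zero_mul] at hu
    exact hf hu
  conv_lhs => rw [hu]
  rw [map_mul, map_zpow₀, w.ord_mul ((map_ne_zero _).mpr huF)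
    (zpow_ne_zero _ ((map_ne_zero _).mpr hπF)), ord_algebraMap_unit, zero_add, w.ord_zpow, he]
  ring

theorem ramIdx_eq_ord {t : F} (ht : (comapField F w).ord t = 1) :
    (ramIdx F w : ℤ) = w.ord (algebraMap F F' t) := by
  rw [ord_algebraMap_eq, ht, mul_one]

end RamIdx

end Fermat.Agent.FF
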