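import Mathlib
import Fermat.Prelude.Def_AlgebraicCurve_Repartitions
import Fermat.Agent.X0.Alg.Dict
import Fermat.Agent.X0.Alg.PlaceBasic

/-!
# L-FF (node 2): the residue field of the place attached to a prime of a Dedekind model

`R` a Dedekind domain with fraction field `F`, a `K`-algebra.  For `P : HeightOneSpectrum R` and
`w = Place.ofHeightOneSpectrum P`:

* `residueFieldAlgEquiv P : (R ⧸ P.asIdeal) ≃ₐ[K] w.ResidueField`;
* `deg_ofHeightOneSpectrum : w.deg = finrank K (R ⧸ P.asIdeal)`.

No hypothesis on the characteristic.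
-/

set_option autoImplicit false
set_option linter.unusedSectionVars false

open AlgebraicCurve IsDedekindDomain WithZero

namespace Fermat.Agent.FF

variable {K F : Type*} [Field K] [Field F] [Algebra K F]
variable {R : Type*} [CommRing R] [IsDedekindDomain R] [Algebra R F] [IsFractionRing R F]
  [Algebra K R] [IsScalarTower K R F]

variable (K) in
/-- The inclusion of the Dedekind model `R` into the valuation ring of the place of `P`. -/
noncomputable def toPlaceRingHom (P : HeightOneSpectrum R) :
    R →+* (Place.ofHeightOneSpectrum (K := K) (F := F) P).toValuationSubring :=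
  (algebraMap R F).codRestrict
    (Place.ofHeightOneSpectrum (K := K) (F := F) P).toValuationSubring.toSubring
    (Fermat.Agent.X0.Place.algebraMap_mem_ofHeightOneSpectrum (K := K) (F := F) P)

@[simp]
theorem coe_toPlaceRingHom (P : HeightOneSpectrum R) (r : R) :
    ((toPlaceRingHom K (F := F) P r :
      (Place.ofHeightOneSpectrum (K := K) (F := F) P).toValuationSubring) : F) =
      algebraMap R F r := rfl

variable (K) in
/-- `R → k(w)`, the reduction modulo the place `w` attached to `P`. -/
noncomputable def residuePlaceHom (P : HeightOneSpectrum R) :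
    R →+* (Place.ofHeightOneSpectrum (K := K) (F := F) P).ResidueField :=
  (IsLocalRing.residue _).comp (toPlaceRingHom K (F := F) P)

/-- An element of the valuation ring of `w` is a non-unit iff its valuation is `< 1`. -/
theorem mem_maximalIdeal_ofHeightOneSpectrum_iff (P : HeightOneSpectrum R)
    (x : (Place.ofHeightOneSpectrum (K := K) (F := F) P).toValuationSubring) :
    x ∈ IsLocalRing.maximalIdeal
        (Place.ofHeightOneSpectrum (K := K) (F := F) P).toValuationSubring ↔
      P.valuation F (x : F) < 1 := by
  have hx1 : P.valuation F (x : F) ≤ 1 := (Valuation.mem_valuationSubring_iff _ _).mp x.2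
  rw [IsLocalRing.mem_maximalIdeal, mem_nonunits_iff]
  constructor
  · intro hnu
    rcases hx1.lt_or_eq with h | h
    · exact h
    exfalso
    apply hnu
    have hx0 : (x : F) ≠ 0 := by
      intro h0
      rw [h0, map_zero] at h
      exact zero_ne_one h
    have hinv : (x : F)⁻¹ ∈
        (Place.ofHeightOneSpectrum (K := K) (F := F) P).toValuationSubring := by
      show (x : F)⁻¹ ∈ (P.valuation F).valuationSubring
      rw [Valuation.mem_valuationSubring_iff, map_inv₀, h, inv_one]
    exact IsUnit.of_mul_eq_one (⟨(x : F)⁻¹, hinv⟩ :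
      (Place.ofHeightOneSpectrum (K := K) (F := F) P).toValuationSubring)
      (Subtype.ext (mul_inv_cancel₀ hx0))
  · intro hlt hu
    obtain ⟨u, rfl⟩ := hu
    have h1 : P.valuation F (((u⁻¹ : _ˣ) :
        (Place.ofHeightOneSpectrum (K := K) (F := F) P).toValuationSubring) : F) ≤ 1 :=
      (Valuation.mem_valuationSubring_iff _ _).mp
        ((u⁻¹ : _ˣ) : (Place.ofHeightOneSpectrum (K := K) (F := F) P).toValuationSubring).2
    have h2 : ((u : (Place.ofHeightOneSpectrum (K := K) (F := F) P).toValuationSubring) : F) *
        (((u⁻¹ : _ˣ) : (Place.ofHeightOneSpectrum (K := K) (F := F) P).toValuationSubring) : F)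
          = 1 :=
      congrArg Subtype.val u.mul_inv
    have h3 := congrArg (P.valuation F) h2
    rw [map_mul, map_one] at h3
    have h4 : P.valuation F
        ((u : (Place.ofHeightOneSpectrum (K := K) (F := F) P).toValuationSubring) : F) *
        P.valuation F (((u⁻¹ : _ˣ) :
          (Place.ofHeightOneSpectrum (K := K) (F := F) P).toValuationSubring) : F) < 1 := by
      calc _ ≤ P.valuation F
            ((u : (Place.ofHeightOneSpectrum (K := K) (F := F) P).toValuationSubring) : F) * 1 := by
            gcongr
        _ < 1 := by rwa [mul_one]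
    rw [h3] at h4
    exact lt_irrefl _ h4

theorem ker_residuePlaceHom (P : HeightOneSpectrum R) :
    RingHom.ker (residuePlaceHom K (F := F) P) = P.asIdeal := by
  ext r
  rw [RingHom.mem_ker, residuePlaceHom, RingHom.comp_apply, IsLocalRing.residue_eq_zero_iff,
    mem_maximalIdeal_ofHeightOneSpectrum_iff, coe_toPlaceRingHom,
    HeightOneSpectrum.valuation_of_algebraMap, HeightOneSpectrum.intValuation_lt_one_iff_mem]

theorem residuePlaceHom_surjective (P : HeightOneSpectrum R) :
    Function.Surjective (residuePlaceHom K (F := F) P) := by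
  intro y
  obtain ⟨x, rfl⟩ := IsLocalRing.residue_surjective y
  have hx1 : P.valuation F (x : F) ≤ 1 := (Valuation.mem_valuationSubring_iff _ _).mp x.2
  obtain ⟨n, d, hnd⟩ := P.exists_primeCompl_mul_eq_of_integer (x : F) hx1
  -- `d` is invertible modulo `P`
  have hmax : P.asIdeal.IsMaximal := P.isMaximal
  obtain ⟨d', hd'⟩ := Ideal.Quotient.exists_inv (I := P.asIdeal)
    (a := Ideal.Quotient.mk P.asIdeal (d : R)) (by
      rw [Ne, Ideal.Quotient.eq_zero_iff_mem]
      exact d.2)
  obtain ⟨d', rfl⟩ := Ideal.Quotient.mk_surjective d'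
  rw [← map_mul, ← map_one (Ideal.Quotient.mk P.asIdeal), Ideal.Quotient.eq] at hd'
  refine ⟨n * d', ?_⟩
  rw [residuePlaceHom, RingHom.comp_apply, ← sub_eq_zero, ← map_sub,
    IsLocalRing.residue_eq_zero_iff, mem_maximalIdeal_ofHeightOneSpectrum_iff]
  have hkey : ((toPlaceRingHom K (F := F) P (n * d') - x :
      (Place.ofHeightOneSpectrum (K := K) (F := F) P).toValuationSubring) : F) =
      (x : F) * algebraMap R F ((d : R) * d' - 1) := by
    rw [AddSubgroupClass.coe_sub, coe_toPlaceRingHom, map_mul, ← hnd, map_sub, map_mul, map_one]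
    ring
  rw [hkey, map_mul, HeightOneSpectrum.valuation_of_algebraMap]
  calc P.valuation F (x : F) * P.intValuation ((d : R) * d' - 1)
      ≤ 1 * P.intValuation ((d : R) * d' - 1) := by gcongr
    _ < 1 := by
      rw [one_mul, HeightOneSpectrum.intValuation_lt_one_iff_mem]
      exact hd'

variable (K) in
/-- `R ⧸ P ≃+* k(w)`. -/
noncomputable def residueFieldRingEquiv (P : HeightOneSpectrum R) :
    (R ⧸ P.asIdeal) ≃+* (Place.ofHeightOneSpectrum (K := K) (F := F) P).ResidueField :=
  (Ideal.quotEquivOfEq (ker_residuePlaceHom (K := K) (F := F) P).symm).trans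
    (RingHom.quotientKerEquivOfSurjective (residuePlaceHom_surjective (K := K) (F := F) P))

@[simp]
theorem residueFieldRingEquiv_mk (P : HeightOneSpectrum R) (r : R) :
    residueFieldRingEquiv K (F := F) P (Ideal.Quotient.mk P.asIdeal r) =
      residuePlaceHom K (F := F) P r := rfl

/-- **`R ⧸ P ≃ₐ[K] k(w)`** for `w` the place attached to the prime `P` of the Dedekind model. -/
noncomputable def residueFieldAlgEquiv (P : HeightOneSpectrum R) :
    (R ⧸ P.asIdeal) ≃ₐ[K] (Place.ofHeightOneSpectrum (K := K) (F := F) P).ResidueField :=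
  AlgEquiv.ofRingEquiv (f := residueFieldRingEquiv K (F := F) P) fun a => by
    rw [IsScalarTower.algebraMap_apply K R (R ⧸ P.asIdeal), Ideal.Quotient.algebraMap_eq,
      residueFieldRingEquiv_mk, residuePlaceHom, RingHom.comp_apply]
    show IsLocalRing.residue _ _ = IsLocalRing.residue _ (algebraMap K _ a)
    congr 1
    apply Subtype.ext
    rw [coe_toPlaceRingHom, Place.coe_algebraMap, ← IsScalarTower.algebraMap_apply]

/-- **`deg w = dim_K (R ⧸ P)`**. -/
theorem deg_ofHeightOneSpectrum (P : HeightOneSpectrum R) :
    (Place.ofHeightOneSpectrum (K := K) (F := F) P).deg = Module.finrank K (R ⧸ P.asIdeal) :=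
  ((residueFieldAlgEquiv (K := K) (F := F) P).toLinearEquiv.finrank_eq).symm

end Fermat.Agent.FF
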