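import Mathlib
import Fermat.Agent.FF.PlaceExt
import Fermat.Agent.FF.ResidueDedekind
import Fermat.Agent.X0.RR.EOver

/-!
# L-FF (node 2): the places of `F'` over a place `v` of `F`, via the integral closure of `O_v`

`F'/F` a finite extension of fields over `K` (any characteristic), `v : Place K F`,
`A = O_v` (a discrete valuation ring with fraction field `F`), `B` = the integral closure of `A`
in `F'`.  Under the hypothesis `IntClosureFinite v F'` (`B` is a finite `A`-module; automatic when
`F'/F` is separable), `B` is a Dedekind domain with fraction field `F'`, and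

* `placeOfPrime v P : Place K F'` for `P : HeightOneSpectrum B`, lying over `v`;
* `primeOfPlace`, `placesOverEquiv v : {w // comapField F w = v} ≃ HeightOneSpectrum B`;
* `placesAbove v F' : Finset (Place K F')`, `mem_placesAbove`, `placesAbove_nonempty`,
  `card_placesAbove_le`;
* `ramIdx_placeOfPrime` (`e(w|v)` = `Ideal.ramificationIdx`), `deg_placeOfPrime`
  (`deg w = f(w|v) · deg v`);
* **`sum_ramIdx_mul_deg`**: `∑_{w|v} e(w|v) · deg w = [F':F] · deg v`;
  `sum_ramIdx_of_deg_eq_one`: `∑_{w|v} e(w|v) = [F':F]` when all degrees are `1`.
-/

set_option autoImplicit false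
set_option linter.unusedSectionVars false

open AlgebraicCurve IsDedekindDomain WithZero

namespace Fermat.Agent.FF

variable {K F F' : Type*} [Field K] [Field F] [Field F'] [Algebra K F] [Algebra F F']
  [Algebra K F'] [IsScalarTower K F F']

section LiesOver

variable [Algebra.IsAlgebraic F F']

/-- `w` lies over `v` as soon as `O_v ⊆ O_w`. -/
theorem comapField_eq_of_le (w : Place K F') (v : Place K F)
    (h : ∀ f ∈ v.toValuationSubring, algebraMap F F' f ∈ w.toValuationSubring) :
    comapField F w = v := by
  apply Place.ext
  symm
  exact ValuationSubring.eq_of_le_of_ne_top _ (fun f hf => h f hf) (comapField F w).ne_top'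

theorem comapField_eq_iff (w : Place K F') (v : Place K F) :
    comapField F w = v ↔
      ∀ f ∈ v.toValuationSubring, algebraMap F F' f ∈ w.toValuationSubring :=
  ⟨fun h f hf => by rw [← h] at hf; exact hf, comapField_eq_of_le w v⟩

end LiesOver

section IntClosure

variable (v : Place K F)

instance instIsScalarTowerValuationSubring : IsScalarTower K v.toValuationSubring F' :=
  IsScalarTower.of_algebraMap_eq fun a => by
    rw [IsScalarTower.algebraMap_apply K F F']
    rfl

/-- The hypothesis that the integral closure of `O_v` in `F'` is a finite `O_v`-module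
(automatic for `F'/F` finite separable: `IntClosureFinite.of_isSeparable`). -/
class IntClosureFinite {K F : Type*} [Field K] [Field F] [Algebra K F] (v : Place K F)
    (F' : Type*) [Field F'] [Algebra F F'] : Prop where
  finite : Module.Finite v.toValuationSubring (integralClosure v.toValuationSubring F')

instance IntClosureFinite.of_isSeparable [FiniteDimensional F F'] [Algebra.IsSeparable F F'] :
    IntClosureFinite v F' :=
  ⟨IsIntegralClosure.finite v.toValuationSubring F F' _⟩

instance instModuleFiniteIntClosure [h : IntClosureFinite v F'] :
    Module.Finite v.toValuationSubring (integralClosure v.toValuationSubring F') := h.finite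

instance instIsFractionRingIntClosure [FiniteDimensional F F'] :
    IsFractionRing (integralClosure v.toValuationSubring F') F' :=
  integralClosure.isFractionRing_of_finite_extension F F'

instance instIsNoetherianRingIntClosure [IntClosureFinite v F'] :
    IsNoetherianRing (integralClosure v.toValuationSubring F') :=
  isNoetherianRing_iff.mpr <| isNoetherian_of_tower v.toValuationSubring
    (isNoetherian_of_isNoetherianRing_of_finite v.toValuationSubring _)

instance instIsDedekindDomainIntClosure [FiniteDimensional F F'] [IntClosureFinite v F'] :
    IsDedekindDomain (integralClosure v.toValuationSubring F') :=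
  { instIsNoetherianRingIntClosure v,
    Ring.DimensionLEOne.integralClosure v.toValuationSubring F',
    (isIntegrallyClosed_iff F').mpr fun {x} hx =>
      ⟨IsIntegralClosure.mk' (integralClosure v.toValuationSubring F') x
          (isIntegral_trans (R := v.toValuationSubring) _ hx),
        IsIntegralClosure.algebraMap_mk' _ _ _⟩ with }

end IntClosure

section PlaceOfPrime

variable [FiniteDimensional F F'] (v : Place K F) [IntClosureFinite v F']

/-- Integral elements over `O_v` lie in the valuation ring of every place over `v`. -/
theorem mem_of_isIntegral_of_comapField_eq (w : Place K F') (hw : comapField F w = v) {x : F'}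
    (hx : IsIntegral v.toValuationSubring x) : x ∈ w.toValuationSubring := by
  have hF : ∀ a : v.toValuationSubring, algebraMap F F' (a : F) ∈ w.toValuationSubring :=
    fun a => ((comapField_eq_iff w v).mp hw) a a.2
  obtain ⟨p, hp, hpx⟩ := hx
  have hint : IsIntegral w.toValuationSubring x := by
    refine ⟨p.map (((algebraMap F F').comp v.toValuationSubring.subtype).codRestrict
      w.toValuationSubring.toSubring hF), hp.map _, ?_⟩
    rw [Polynomial.eval₂_map]
    exact hpx
  have hcl := IsIntegrallyClosed.isIntegral_iff (R := w.toValuationSubring) (K := F') (x := x)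
  obtain ⟨y, hy⟩ := hcl.mp hint
  rw [← hy]
  exact y.2

/-- **The place of `F'` attached to a nonzero prime of the integral closure of `O_v`.** -/
noncomputable def placeOfPrime
    (P : HeightOneSpectrum (integralClosure v.toValuationSubring F')) : Place K F' :=
  Place.ofHeightOneSpectrum (K := K) (F := F') P

theorem placeOfPrime_toValuationSubring
    (P : HeightOneSpectrum (integralClosure v.toValuationSubring F')) :
    (placeOfPrime v P).toValuationSubring = (P.valuation F').valuationSubring := rfl

theorem ord_placeOfPrime (P : HeightOneSpectrum (integralClosure v.toValuationSubring F'))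
    (g : F') : (placeOfPrime v P).ord g = - log (P.valuation F' g) :=
  Fermat.Agent.X0.Place.ord_ofHeightOneSpectrum (K := K) (F := F') P g

theorem comapField_placeOfPrime
    (P : HeightOneSpectrum (integralClosure v.toValuationSubring F')) :
    comapField F (placeOfPrime v P) = v := by
  apply comapField_eq_of_le
  intro f hf
  exact Fermat.Agent.X0.Place.algebraMap_mem_ofHeightOneSpectrum (K := K) (F := F') P
    (algebraMap v.toValuationSubring (integralClosure v.toValuationSubring F') ⟨f, hf⟩)

theorem placeOfPrime_injective :
    Function.Injective (placeOfPrime (F' := F') v) :=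
  Fermat.Agent.X0.Place.ofHeightOneSpectrum_injective (K := K) (F := F')

theorem exists_placeOfPrime_eq (w : Place K F') (hw : comapField F w = v) :
    ∃ P : HeightOneSpectrum (integralClosure v.toValuationSubring F'), placeOfPrime v P = w :=
  Fermat.Agent.X0.Place.exists_ofHeightOneSpectrum_eq (K := K) (F := F') w fun b =>
    mem_of_isIntegral_of_comapField_eq v w hw b.2

/-- **The places of `F'` over `v` are the nonzero primes of the integral closure of `O_v`.** -/
noncomputable def placesOverEquiv :
    HeightOneSpectrum (integralClosure v.toValuationSubring F') ≃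
      {w : Place K F' // comapField F w = v} :=
  Equiv.ofBijective (fun P => ⟨placeOfPrime v P, comapField_placeOfPrime v P⟩)
    ⟨fun P Q h => placeOfPrime_injective v (congrArg Subtype.val h),
      fun w => by
        obtain ⟨P, hP⟩ := exists_placeOfPrime_eq v w.1 w.2
        exact ⟨P, Subtype.ext hP⟩⟩

@[simp]
theorem placesOverEquiv_apply
    (P : HeightOneSpectrum (integralClosure v.toValuationSubring F')) :
    ((placesOverEquiv v P : {w : Place K F' // comapField F w = v}) : Place K F') =
      placeOfPrime v P := rfl

end PlaceOfPrime

section Primes

variable [FiniteDimensional F F'] (v : Place K F) [IntClosureFinite v F']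

instance faithfulSMul_intClosure :
    FaithfulSMul v.toValuationSubring (integralClosure v.toValuationSubring F') := by
  rw [faithfulSMul_iff_algebraMap_injective]
  intro a b hab
  have h := congrArg (algebraMap (integralClosure v.toValuationSubring F') F') hab
  rw [← IsScalarTower.algebraMap_apply, ← IsScalarTower.algebraMap_apply] at h
  exact Subtype.ext ((algebraMap F F').injective h)

omit [FiniteDimensional F F'] [IntClosureFinite v F'] in
instance (priority := high) flat_intClosure :
    Module.Flat v.toValuationSubring (integralClosure v.toValuationSubring F') :=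
  Module.Flat.instOfIsDedekindDomainOfIsTorsionFree

theorem maximalIdeal_valuationSubring_ne_bot :
    IsLocalRing.maximalIdeal v.toValuationSubring ≠ ⊥ :=
  IsDiscreteValuationRing.not_a_field _

/-- Every nonzero prime of the integral closure of `O_v` lies over the maximal ideal. -/
instance liesOver_maximalIdeal
    (P : HeightOneSpectrum (integralClosure v.toValuationSubring F')) :
    P.asIdeal.LiesOver (IsLocalRing.maximalIdeal v.toValuationSubring) := by
  constructor
  have hne : P.asIdeal.under v.toValuationSubring ≠ ⊥ :=
    mt Ideal.eq_bot_of_comap_eq_bot P.ne_bot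
  have hprime : (P.asIdeal.under v.toValuationSubring).IsPrime := .under _ _
  have hmax : (P.asIdeal.under v.toValuationSubring).IsMaximal := hprime.isMaximal hne
  exact (IsLocalRing.eq_maximalIdeal hmax).symm

/-- Nonzero primes of the integral closure versus primes over the maximal ideal of `O_v`. -/
noncomputable def heightOneEquivPrimesOver :
    HeightOneSpectrum (integralClosure v.toValuationSubring F') ≃
      (IsLocalRing.maximalIdeal v.toValuationSubring).primesOver
        (integralClosure v.toValuationSubring F') where
  toFun P := ⟨P.asIdeal, P.isPrime, liesOver_maximalIdeal v P⟩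
  invFun Q := ⟨Q.1, Q.2.1, Ideal.ne_bot_of_mem_primesOver
    (maximalIdeal_valuationSubring_ne_bot v) Q.2⟩
  left_inv _ := rfl
  right_inv _ := rfl

instance finite_heightOneSpectrum_intClosure :
    Finite (HeightOneSpectrum (integralClosure v.toValuationSubring F')) :=
  haveI : Finite ((IsLocalRing.maximalIdeal v.toValuationSubring).primesOver
      (integralClosure v.toValuationSubring F')) :=
    (IsDedekindDomain.primesOver_finite (IsLocalRing.maximalIdeal v.toValuationSubring)
      (integralClosure v.toValuationSubring F')).to_subtype
  Finite.of_equiv _ (heightOneEquivPrimesOver v).symm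

instance nonempty_heightOneSpectrum_intClosure :
    Nonempty (HeightOneSpectrum (integralClosure v.toValuationSubring F')) := by
  obtain ⟨P, hPm, hp⟩ := Ideal.exists_maximal_ideal_liesOver_of_isIntegral
    (S := integralClosure v.toValuationSubring F') (IsLocalRing.maximalIdeal v.toValuationSubring)
  exact ⟨(heightOneEquivPrimesOver v).symm ⟨P, hPm.isPrime, hp⟩⟩

end Primes

section Ram

variable [FiniteDimensional F F'] (v : Place K F) [IntClosureFinite v F']

/-- **`e(w|v)` is the ramification index of the prime `P` over `O_v`** (`w = placeOfPrime v P`). -/
theorem ramIdx_placeOfPrime (P : HeightOneSpectrum (integralClosure v.toValuationSubring F')) :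
    ramIdx F (placeOfPrime v P) = P.asIdeal.ramificationIdx v.toValuationSubring := by
  obtain ⟨π, hπ⟩ := IsDiscreteValuationRing.exists_irreducible v.toValuationSubring
  have hord : (comapField F (placeOfPrime v P)).ord (π : F) = 1 := by
    rw [comapField_placeOfPrime]
    exact v.ord_coe_irreducible hπ
  have h1 := ramIdx_eq_ord (placeOfPrime v P) hord
  rw [ord_placeOfPrime] at h1
  have hπ0 : algebraMap v.toValuationSubring (integralClosure v.toValuationSubring F') π ≠ 0 := by
    rw [Ne, FaithfulSMul.algebraMap_eq_zero_iff]
    exact hπ.ne_zero
  have h2 : algebraMap F F' (π : F) = algebraMap (integralClosure v.toValuationSubring F') F'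
      (algebraMap v.toValuationSubring (integralClosure v.toValuationSubring F') π) := rfl
  rw [h2, HeightOneSpectrum.valuation_of_algebraMap,
    HeightOneSpectrum.intValuation_eq_exp_neg_multiplicity _ hπ0, log_exp, neg_neg] at h1
  have hmap : (IsLocalRing.maximalIdeal v.toValuationSubring).map
      (algebraMap v.toValuationSubring (integralClosure v.toValuationSubring F')) =
      Ideal.span {algebraMap v.toValuationSubring (integralClosure v.toValuationSubring F') π} := by
    rw [hπ.maximalIdeal_eq, Ideal.map_span, Set.image_singleton]
  have hne : (IsLocalRing.maximalIdeal v.toValuationSubring).map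
      (algebraMap v.toValuationSubring (integralClosure v.toValuationSubring F')) ≠ ⊥ := by
    rw [hmap, Ne, Ideal.span_singleton_eq_bot]
    exact hπ0
  rw [Ideal.IsDedekindDomain.ramificationIdx_eq_multiplicity
    (IsLocalRing.maximalIdeal v.toValuationSubring) P.asIdeal hne, hmap]
  exact_mod_cast h1

/-- Bridge to the multiplicity form `eOver` used by the different-exponent files. -/
theorem ramIdx_placeOfPrime_eq_eOver
    (P : HeightOneSpectrum (integralClosure v.toValuationSubring F')) :
    ramIdx F (placeOfPrime v P) = Fermat.Agent.X0.RR.eOver v.toValuationSubring P := by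
  classical
  have hne : (IsLocalRing.maximalIdeal v.toValuationSubring).map
      (algebraMap v.toValuationSubring (integralClosure v.toValuationSubring F')) ≠ ⊥ :=
    Ideal.map_ne_bot_of_ne_bot (maximalIdeal_valuationSubring_ne_bot v)
  rw [ramIdx_placeOfPrime, Ideal.IsDedekindDomain.ramificationIdx_eq_normalizedFactors_count
    (IsLocalRing.maximalIdeal v.toValuationSubring) P.asIdeal hne]
  unfold Fermat.Agent.X0.RR.eOver
  rw [← Ideal.over_def P.asIdeal (IsLocalRing.maximalIdeal v.toValuationSubring)]

end Ram

section Deg

variable [FiniteDimensional F F'] (v : Place K F) [IntClosureFinite v F']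

theorem deg_placeOfPrime_eq_finrank
    (P : HeightOneSpectrum (integralClosure v.toValuationSubring F')) :
    (placeOfPrime v P).deg =
      Module.finrank K (integralClosure v.toValuationSubring F' ⧸ P.asIdeal) :=
  deg_ofHeightOneSpectrum (K := K) (F := F') P

/-- **`deg w = f(w|v) · deg v`**. -/
theorem deg_placeOfPrime (P : HeightOneSpectrum (integralClosure v.toValuationSubring F')) :
    (placeOfPrime v P).deg = P.asIdeal.inertiaDeg v.toValuationSubring * v.deg := by
  rw [deg_placeOfPrime_eq_finrank]
  have : P.asIdeal.IsMaximal := P.isMaximal
  rw [Ideal.inertiaDeg_eq_of_isMaximal (IsLocalRing.maximalIdeal v.toValuationSubring) P.asIdeal]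
  let : Field (v.toValuationSubring ⧸ IsLocalRing.maximalIdeal v.toValuationSubring) :=
    Ideal.Quotient.field _
  have : IsScalarTower K (v.toValuationSubring ⧸ IsLocalRing.maximalIdeal v.toValuationSubring)
      (integralClosure v.toValuationSubring F' ⧸ P.asIdeal) := by
    infer_instance
  rw [mul_comm]
  exact (Module.finrank_mul_finrank K
    (v.toValuationSubring ⧸ IsLocalRing.maximalIdeal v.toValuationSubring)
    (integralClosure v.toValuationSubring F' ⧸ P.asIdeal)).symm

end Deg

section Fund

variable [FiniteDimensional F F'] (v : Place K F) [IntClosureFinite v F']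

noncomputable instance fintypeHeightOneSpectrumIntClosure :
    Fintype (HeightOneSpectrum (integralClosure v.toValuationSubring F')) :=
  Fintype.ofFinite _

theorem finrank_intClosure :
    Module.finrank v.toValuationSubring (integralClosure v.toValuationSubring F') =
      Module.finrank F F' :=
  (IsFractionRing.finrank_eq v.toValuationSubring F
    (integralClosure v.toValuationSubring F') F').symm

/-- The fundamental identity `∑ e f = n` over the primes of the integral closure of `O_v`. -/
theorem sum_ramificationIdx_mul_inertiaDeg :
    ∑ P : HeightOneSpectrum (integralClosure v.toValuationSubring F'),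
      P.asIdeal.ramificationIdx v.toValuationSubring * P.asIdeal.inertiaDeg v.toValuationSubring =
      Module.finrank F F' := by
  let : Fintype ((IsLocalRing.maximalIdeal v.toValuationSubring).primesOver
      (integralClosure v.toValuationSubring F')) := Fintype.ofEquiv _ (heightOneEquivPrimesOver v)
  rw [← finrank_intClosure v, ← Ideal.sum_ramification_inertia_eq_finrank
    (IsLocalRing.maximalIdeal v.toValuationSubring) (integralClosure v.toValuationSubring F')]
  exact Fintype.sum_equiv (heightOneEquivPrimesOver v) _ _ fun P => rfl

/-- **The finite set of places of `F'` over `v`.** -/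
noncomputable def placesAbove (v : Place K F) (F' : Type*) [Field F'] [Algebra F F'] [Algebra K F']
    [IsScalarTower K F F'] [FiniteDimensional F F'] [IntClosureFinite v F'] : Finset (Place K F') :=
  Finset.univ.map ⟨placeOfPrime (F' := F') v, placeOfPrime_injective v⟩

@[simp]
theorem mem_placesAbove {w : Place K F'} : w ∈ placesAbove v F' ↔ comapField F w = v := by
  unfold placesAbove
  rw [Finset.mem_map]
  constructor
  · rintro ⟨P, -, rfl⟩
    exact comapField_placeOfPrime v P
  · intro hw
    obtain ⟨P, hP⟩ := exists_placeOfPrime_eq v w hw
    exact ⟨P, Finset.mem_univ _, hP⟩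

theorem placesAbove_nonempty : (placesAbove v F').Nonempty := by
  obtain ⟨P⟩ := nonempty_heightOneSpectrum_intClosure (F' := F') v
  exact ⟨placeOfPrime v P, (mem_placesAbove v).mpr (comapField_placeOfPrime v P)⟩

theorem sum_placesAbove {M : Type*} [AddCommMonoid M] (g : Place K F' → M) :
    ∑ w ∈ placesAbove v F', g w =
      ∑ P : HeightOneSpectrum (integralClosure v.toValuationSubring F'), g (placeOfPrime v P) := by
  unfold placesAbove
  rw [Finset.sum_map]
  rfl

/-- **The fundamental identity** `∑_{w|v} e(w|v) · deg w = [F':F] · deg v`. -/
theorem sum_ramIdx_mul_deg :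
    ∑ w ∈ placesAbove v F', ramIdx F w * w.deg = Module.finrank F F' * v.deg := by
  rw [sum_placesAbove, ← sum_ramificationIdx_mul_inertiaDeg v, Finset.sum_mul]
  refine Finset.sum_congr rfl fun P _ => ?_
  rw [ramIdx_placeOfPrime, deg_placeOfPrime, mul_assoc]

/-- Over an algebraically closed constant field (all degrees `1`): `∑_{w|v} e(w|v) = [F':F]`. -/
theorem sum_ramIdx_of_deg_eq_one (hv : v.deg = 1) (hw : ∀ w : Place K F', w.deg = 1) :
    ∑ w ∈ placesAbove v F', ramIdx F w = Module.finrank F F' := by
  have h := sum_ramIdx_mul_deg (F' := F') v
  rw [hv, mul_one] at h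
  rw [← h]
  exact Finset.sum_congr rfl fun w _ => by rw [hw w, mul_one]

theorem card_placesAbove_le : (placesAbove v F').card ≤ Module.finrank F F' := by
  rw [← sum_ramificationIdx_mul_inertiaDeg v]
  unfold placesAbove
  rw [Finset.card_map, Finset.card_eq_sum_ones]
  refine Finset.sum_le_sum fun P _ => ?_
  have : P.asIdeal.IsPrime := P.isPrime
  exact Nat.succ_le_of_lt (Nat.mul_pos (Ideal.ramificationIdx_pos _ _) (Ideal.inertiaDeg_pos _ _))

end Fund

end Fermat.Agent.FF
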