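import Mathlib
import Fermat.Agent.FF.PlaceOver

/-!
# L-FF (node 2): the conorm of divisors in a finite extension of function fields

`F'/F` a finite extension of fields over `K` (any characteristic) such that the integral closure of
`O_v` in `F'` is a finite `O_v`-module for every place `v` of `F` (automatic for `F'/F` separable).

* `conormPlace F' v = ∑_{w|v} e(w|v) • w`;
* `conorm F' : Divisor K F →+ Divisor K F'`, `conorm_apply : (conorm F' D) w = e(w|w∩F) · D (w ∩ F)`;
* `degree_conorm : degree (conorm F' D) = [F':F] · degree D`;
* `conorm_apply_of_forall_ord` / `conorm_mem_principal`: the conorm of the divisor of `f ∈ F` is the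
  divisor of `f` in `F'`.
-/

set_option autoImplicit false
set_option linter.unusedSectionVars false

open AlgebraicCurve IsDedekindDomain

namespace Fermat.Agent.FF

variable {K F : Type*} [Field K] [Field F] [Algebra K F]
variable (F' : Type*) [Field F'] [Algebra F F'] [Algebra K F'] [IsScalarTower K F F']
  [FiniteDimensional F F'] [∀ v : Place K F, IntClosureFinite v F']

/-- The conorm of a place: `∑_{w|v} e(w|v) • w`. -/
noncomputable def conormPlace (v : Place K F) : Divisor K F' :=
  ∑ w ∈ placesAbove v F', Finsupp.single w (ramIdx F w : ℤ)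

theorem conormPlace_apply (v : Place K F) (w : Place K F') [Decidable (comapField F w = v)] :
    conormPlace F' v w = if comapField F w = v then (ramIdx F w : ℤ) else 0 := by
  classical
  unfold conormPlace
  rw [Finsupp.finsetSum_apply]
  simp only [Finsupp.single_apply]
  rw [Finset.sum_ite_eq' (placesAbove v F') w fun u => (ramIdx F u : ℤ)]
  simp only [mem_placesAbove]

theorem conormPlace_apply_of_eq (w : Place K F') :
    conormPlace F' (comapField F w) w = (ramIdx F w : ℤ) := by
  classical
  rw [conormPlace_apply, if_pos rfl]

theorem conormPlace_apply_of_ne {v : Place K F} {w : Place K F'} (h : comapField F w ≠ v) :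
    conormPlace F' v w = 0 := by
  classical
  rw [conormPlace_apply, if_neg h]

theorem degree_conormPlace (v : Place K F) :
    Divisor.degree (conormPlace F' v) = (Module.finrank F F' : ℤ) * v.deg := by
  unfold conormPlace
  rw [map_sum]
  simp only [Divisor.degree_single]
  have h := sum_ramIdx_mul_deg (F' := F') v
  exact_mod_cast h

/-- **The conorm of divisors** `Con_{F'/F} : Div(F) → Div(F')`. -/
noncomputable def conorm : Divisor K F →+ Divisor K F' :=
  Finsupp.liftAddHom fun v => (smulAddHom ℤ (Divisor K F')).flip (conormPlace F' v)

@[simp]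
theorem conorm_single (v : Place K F) (n : ℤ) :
    conorm F' (Finsupp.single v n) = n • conormPlace F' v := by
  simp [conorm]

/-- **`(Con D)(w) = e(w | w∩F) · D(w ∩ F)`**. -/
theorem conorm_apply (D : Divisor K F) (w : Place K F') :
    conorm F' D w = (ramIdx F w : ℤ) * D (comapField F w) := by
  classical
  induction D using Finsupp.induction_linear with
  | zero => simp
  | add D E hD hE => rw [map_add, Finsupp.add_apply, Finsupp.add_apply, hD, hE, mul_add]
  | single v n =>
    rw [conorm_single, Finsupp.smul_apply, conormPlace_apply, Finsupp.single_apply, smul_eq_mul]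
    by_cases h : comapField F w = v
    · rw [if_pos h, if_pos h.symm, mul_comm]
    · rw [if_neg h, if_neg (Ne.symm h), mul_zero, mul_zero]

/-- **`deg (Con D) = [F':F] · deg D`**. -/
theorem degree_conorm (D : Divisor K F) :
    Divisor.degree (conorm F' D) = (Module.finrank F F' : ℤ) * Divisor.degree D := by
  induction D using Finsupp.induction_linear with
  | zero => simp
  | add D E hD hE => rw [map_add, map_add, map_add, hD, hE, mul_add]
  | single v n =>
    rw [conorm_single, map_zsmul, degree_conormPlace, Divisor.degree_single, smul_eq_mul]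
    ring

/-- The conorm of the divisor of `f ∈ F` is the divisor of `f` in `F'`. -/
theorem conorm_apply_of_forall_ord {D : Divisor K F} {f : F}
    (hD : ∀ v : Place K F, D v = v.ord f) (w : Place K F') :
    conorm F' D w = w.ord (algebraMap F F' f) := by
  rw [conorm_apply, hD, ord_algebraMap_eq]

theorem conorm_isPrincipal {D : Divisor K F} (hD : Divisor.IsPrincipal D) :
    Divisor.IsPrincipal (conorm F' D) := by
  obtain ⟨f, hf, hD⟩ := hD
  exact ⟨algebraMap F F' f, (map_ne_zero _).mpr hf, conorm_apply_of_forall_ord F' hD⟩

theorem conorm_mem_principal {D : Divisor K F} (hD : D ∈ Divisor.principal (K := K) (F := F)) :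
    conorm F' D ∈ Divisor.principal (K := K) (F := F') :=
  conorm_isPrincipal F' hD

theorem conorm_mem_degZero {D : Divisor K F} (hD : D ∈ Divisor.degZero (K := K) (F := F)) :
    conorm F' D ∈ Divisor.degZero (K := K) (F := F') := by
  rw [Divisor.mem_degZero] at hD ⊢
  rw [degree_conorm, hD, mul_zero]

theorem conorm_injective : Function.Injective (conorm (K := K) (F := F) F') := by
  rw [injective_iff_map_eq_zero]
  intro D hD
  ext v
  obtain ⟨w, hw⟩ := placesAbove_nonempty (F' := F') v
  rw [mem_placesAbove] at hw
  have h := conorm_apply F' D w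
  rw [hD, Finsupp.zero_apply, hw] at h
  have hpos : (ramIdx F w : ℤ) ≠ 0 := by
    have := ramIdx_pos (F := F) w
    omega
  rcases mul_eq_zero.mp h.symm with h0 | h0
  · exact absurd h0 hpos
  · simpa using h0

theorem conorm_nonneg_iff (D : Divisor K F) : 0 ≤ conorm F' D ↔ 0 ≤ D := by
  constructor
  · intro h v
    obtain ⟨w, hw⟩ := placesAbove_nonempty (F' := F') v
    rw [mem_placesAbove] at hw
    have h1 := h w
    rw [Finsupp.zero_apply, conorm_apply, hw] at h1
    have hpos : (0 : ℤ) < ramIdx F w := by exact_mod_cast ramIdx_pos (F := F) w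
    rw [Finsupp.zero_apply]
    exact nonneg_of_mul_nonneg_right h1 hpos
  · intro h w
    rw [Finsupp.zero_apply, conorm_apply]
    exact mul_nonneg (Int.natCast_nonneg _) (h _)

end Fermat.Agent.FF
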