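import Mathlib
import Fermat.Prelude.Def_AlgebraicCurve_DivisorPushPull
import Fermat.Agent.FF.Conorm

/-!
# L-FF (node 2): bridge to the Prelude's `Place.restrict`, `ramificationIndex`, `inertiaDeg`,
`Divisor.pullback`, `FundamentalIdentity`, `SumRamificationInertia`

`F'/F` finite, `IntClosureFinite v F'` for all places `v` of `F` (automatic when separable).

* `restrict_eq_comapField`, `ramificationIndex_eq_ramIdx`, `fiber_eq_placesAbove`,
  `pullback_eq_conorm`;
* `inertiaDeg_placeOfPrime : (placeOfPrime v P).inertiaDeg F = P.asIdeal.inertiaDeg O_v`;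
* `fundamentalIdentity : FundamentalIdentity K F F'`,
  `sumRamificationInertia : SumRamificationInertia K F F'`.
-/

set_option autoImplicit false
set_option linter.unusedSectionVars false

open AlgebraicCurve IsDedekindDomain

namespace Fermat.Agent.FF

variable {K F F' : Type*} [Field K] [Field F] [Field F'] [Algebra K F] [Algebra F F']
  [Algebra K F'] [IsScalarTower K F F'] [FiniteDimensional F F']

theorem restrict_eq_comapField (w : Place K F') : w.restrict F = comapField F w :=
  Place.ext rfl

theorem ramificationIndex_eq_ramIdx (w : Place K F') :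
    w.ramificationIndex F = ramIdx F w := by
  obtain ⟨π, hπ⟩ := IsDiscreteValuationRing.exists_irreducible (comapField F w).toValuationSubring
  have h1 : (comapField F w).ord (π : F) = 1 := (comapField F w).ord_coe_irreducible hπ
  have h2 := w.ord_restrict (F := F) (π : F)
  rw [restrict_eq_comapField, h1, mul_one] at h2
  have h3 := ramIdx_eq_ord w h1
  have : (w.ramificationIndex F : ℤ) = (ramIdx F w : ℤ) := by rw [← h2, h3]
  exact_mod_cast this

section Fiber

variable [∀ v : Place K F, IntClosureFinite v F']

theorem fiber_eq_placesAbove [HasPrincipalDivisors K F'] (v : Place K F) :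
    v.fiber F' = placesAbove v F' := by
  ext w
  rw [Place.mem_fiber, mem_placesAbove, restrict_eq_comapField]

theorem pullback_eq_conorm [HasPrincipalDivisors K F'] :
    Divisor.pullback (K := K) (F := F) F' = conorm F' := by
  refine AddMonoidHom.ext fun D => Finsupp.ext fun w => ?_
  rw [Divisor.pullback_apply, conorm_apply, ramificationIndex_eq_ramIdx, restrict_eq_comapField]

/-- **The Prelude's `FundamentalIdentity` holds** for a finite extension with finite integral
closures (e.g. finite separable). -/
theorem fundamentalIdentity [HasPrincipalDivisors K F'] : FundamentalIdentity K F F' where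
  sum_ramificationIndex_mul_deg v := by
    rw [fiber_eq_placesAbove]
    have h := sum_ramIdx_mul_deg (F' := F') v
    have h' : ∑ w ∈ placesAbove v F', ((ramIdx F w : ℕ) : ℤ) * (w.deg : ℤ) =
        (Module.finrank F F' : ℤ) * (v.deg : ℤ) := by exact_mod_cast h
    rw [← h']
    exact Finset.sum_congr rfl fun w _ => by rw [ramificationIndex_eq_ramIdx]

end Fiber

section Inertia

/-- The ring isomorphism between equal valuation subrings. -/
def valuationSubringEquivOfEq {S T : ValuationSubring F} (h : S = T) : S ≃+* T where
  toFun x := ⟨x, h ▸ x.2⟩
  invFun y := ⟨y, h ▸ y.2⟩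
  left_inv _ := rfl
  right_inv _ := rfl
  map_mul' _ _ := rfl
  map_add' _ _ := rfl

@[simp]
theorem coe_valuationSubringEquivOfEq {S T : ValuationSubring F} (h : S = T) (x : S) :
    ((valuationSubringEquivOfEq h x : T) : F) = x := rfl

variable (v : Place K F) [IntClosureFinite v F']

/-- **The Prelude's inertia degree of `placeOfPrime v P` is the inertia degree of `P` over `O_v`.** -/
theorem inertiaDeg_placeOfPrime
    (P : HeightOneSpectrum (integralClosure v.toValuationSubring F')) :
    (placeOfPrime v P).inertiaDeg F = P.asIdeal.inertiaDeg v.toValuationSubring := by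
  have hP : P.asIdeal.IsMaximal := P.isMaximal
  rw [Ideal.inertiaDeg_eq_of_isMaximal (IsLocalRing.maximalIdeal v.toValuationSubring) P.asIdeal]
  have hv : v.toValuationSubring = ((placeOfPrime v P).restrict F).toValuationSubring := by
    rw [restrict_eq_comapField, comapField_placeOfPrime]
  symm
  refine Algebra.finrank_eq_of_equiv_equiv
    (IsLocalRing.ResidueField.mapEquiv (valuationSubringEquivOfEq hv))
    (residueFieldRingEquiv K (F := F') P) ?_
  ext a
  show Place.restrictResidueMap F (placeOfPrime v P)
      (IsLocalRing.residue _ (valuationSubringEquivOfEq hv a)) =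
    residuePlaceHom K (F := F') P (algebraMap v.toValuationSubring _ a)
  rw [Place.restrictResidueMap_residue]
  rfl

end Inertia

section SumRamInertia

variable [∀ v : Place K F, IntClosureFinite v F']

/-- **The Prelude's `SumRamificationInertia` holds**: `∑_{w|v} e(w|v) f(w|v) = [F':F]`. -/
theorem sumRamificationInertia [HasPrincipalDivisors K F'] : SumRamificationInertia K F F' where
  sum_ramificationIndex_mul_inertiaDeg v := by
    rw [fiber_eq_placesAbove, sum_placesAbove]
    have h := sum_ramificationIdx_mul_inertiaDeg (F' := F') v
    rw [← h]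
    push_cast
    refine Finset.sum_congr rfl fun P _ => ?_
    rw [ramificationIndex_eq_ramIdx, ramIdx_placeOfPrime, inertiaDeg_placeOfPrime]

end SumRamInertia

end Fermat.Agent.FF
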