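import Mathlib
import Fermat.Agent.FF.PreludeBridge

/-!
# L-FF (node 2): the norm formula `ord_v (N_{F'/F} g) = ∑_{w|v} f(w|v) · ord_w g`

`F'/F` a finite extension of fields over `K` (any characteristic) with finite integral closures
(`IntClosureFinite v F'`, automatic when `F'/F` is separable).

* `length_quotient_span_singleton` : `length_{O_v} (O_v / (a)) = ord_v a`;
* `ord_norm_of_span_eq` : `ord_v (N p) = f(P|v)` for a generator `p` of a prime `P` of the integral
  closure `B` of `O_v` (Smith normal form + lengths);
* `ord_norm_eq_sum` : the formula on `B` (induction on the prime factorisation in the PID `B`);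
* `ord_norm_eq_sum_primes`, `ord_norm_eq_sum_placesAbove` : the formula on `F'ˣ`;
* **`pushforwardNormFormula : Divisor.PushforwardNormFormula K F F'`** (the Prelude's hypothesis of
  `Pic0.pushforwardHom` and of the Hecke correspondences).
-/

set_option autoImplicit false
set_option linter.unusedSectionVars false

open AlgebraicCurve IsDedekindDomain

namespace Fermat.Agent.FF

variable {K F F' : Type*} [Field K] [Field F] [Field F'] [Algebra K F] [Algebra F F']
  [Algebra K F'] [IsScalarTower K F F']

section DVR

variable (v : Place K F)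

/-- The length of `O_v / (a)` is `ord_v a`. -/
theorem length_quotient_span_singleton {a : v.toValuationSubring} (ha : a ≠ 0) :
    Module.length v.toValuationSubring (v.toValuationSubring ⧸ Ideal.span {a}) =
      ((v.ord (a : F)).toNat : ℕ∞) := by
  obtain ⟨π, hπ⟩ := IsDiscreteValuationRing.exists_irreducible v.toValuationSubring
  obtain ⟨n, u, hu⟩ := IsDiscreteValuationRing.eq_unit_mul_pow_irreducible ha hπ
  have hspan : Ideal.span {a} = IsLocalRing.maximalIdeal v.toValuationSubring ^ n := by
    rw [hπ.maximalIdeal_eq, Ideal.span_singleton_pow, hu]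
    exact Ideal.span_singleton_eq_span_singleton.mpr
      (associated_unit_mul_left _ _ u.isUnit)
  have hord : v.ord (a : F) = n := by
    have h := v.ord_unit_smul_zpow u hπ (n : ℤ)
    rw [zpow_natCast] at h
    rw [hu]
    exact_mod_cast h
  rw [hspan, IsDiscreteValuationRing.length_quotient_pow_maximalIdeal, hord]
  simp

end DVR

section Assoc

variable (v : Place K F)

theorem ord_coe_eq_of_associated {a b : v.toValuationSubring} (h : Associated a b) :
    v.ord (a : F) = v.ord (b : F) := by
  obtain ⟨u, rfl⟩ := h
  rcases eq_or_ne a 0 with rfl | ha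
  · simp
  have haF : (a : F) ≠ 0 := fun h => ha (Subtype.ext h)
  have huF : ((u : v.toValuationSubring) : F) ≠ 0 := fun h => u.ne_zero (Subtype.ext h)
  push_cast
  rw [v.ord_mul haF huF, v.ord_coe_unit, add_zero]

theorem ord_coe_prod {ι : Type*} (s : Finset ι) (a : ι → v.toValuationSubring)
    (ha : ∀ i ∈ s, a i ≠ 0) :
    v.ord ((∏ i ∈ s, a i : v.toValuationSubring) : F) = ∑ i ∈ s, v.ord (a i : F) := by
  classical
  induction s using Finset.induction_on with
  | empty => simp
  | insert i s hi ih =>
    rw [Finset.prod_insert hi, Finset.sum_insert hi]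
    push_cast
    have h1 : ((a i : v.toValuationSubring) : F) ≠ 0 :=
      fun h => ha i (Finset.mem_insert_self _ _) (Subtype.ext h)
    have h2 : ((∏ j ∈ s, a j : v.toValuationSubring) : F) ≠ 0 := by
      intro h
      have : (∏ j ∈ s, a j : v.toValuationSubring) = 0 := Subtype.ext h
      rw [Finset.prod_eq_zero_iff] at this
      obtain ⟨j, hj, hj0⟩ := this
      exact ha j (Finset.mem_insert_of_mem hj) hj0
    have h3 := ih fun j hj => ha j (Finset.mem_insert_of_mem hj)
    push_cast at h3 h2
    rw [v.ord_mul h1 h2, h3]

end Assoc

section PrimeElt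

variable [FiniteDimensional F F'] (v : Place K F) [IntClosureFinite v F']

instance (priority := high) free_intClosure :
    Module.Free v.toValuationSubring (integralClosure v.toValuationSubring F') :=
  Module.free_of_finite_type_torsion_free'

theorem length_quotient_prime (P : HeightOneSpectrum (integralClosure v.toValuationSubring F')) :
    Module.length v.toValuationSubring (integralClosure v.toValuationSubring F' ⧸ P.asIdeal) =
      (P.asIdeal.inertiaDeg v.toValuationSubring : ℕ∞) := by
  have hP : P.asIdeal.IsMaximal := P.isMaximal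
  let _ : Field (v.toValuationSubring ⧸ IsLocalRing.maximalIdeal v.toValuationSubring) :=
    Ideal.Quotient.field _
  rw [Ideal.inertiaDeg_eq_of_isMaximal (IsLocalRing.maximalIdeal v.toValuationSubring) P.asIdeal,
    Module.length_eq_of_surjective
      (R := v.toValuationSubring ⧸ IsLocalRing.maximalIdeal v.toValuationSubring)
      Ideal.Quotient.mk_surjective]
  have : Module.Finite (v.toValuationSubring ⧸ IsLocalRing.maximalIdeal v.toValuationSubring)
      (integralClosure v.toValuationSubring F' ⧸ P.asIdeal) :=
    Module.Finite.of_restrictScalars_finite v.toValuationSubring _ _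
  exact Module.length_eq_finrank _ _

/-- **`ord_v (N p) = f(P|v)`** for a generator `p` of the prime `P`. -/
theorem ord_norm_of_span_eq (P : HeightOneSpectrum (integralClosure v.toValuationSubring F'))
    {p : integralClosure v.toValuationSubring F'} (hp : Ideal.span {p} = P.asIdeal) :
    v.ord ((Algebra.norm v.toValuationSubring p : v.toValuationSubring) : F) =
      (P.asIdeal.inertiaDeg v.toValuationSubring : ℤ) := by
  classical
  have hp0 : p ≠ 0 := by
    rintro rfl
    apply P.ne_bot
    rw [← hp]
    simp
  let b := Module.Free.chooseBasis v.toValuationSubring (integralClosure v.toValuationSubring F')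
  have hI : Ideal.span {p} ≠ ⊥ := Ideal.span_singleton_eq_bot.not.2 hp0
  have hassoc := associated_norm_prod_smith b hp0
  have hne : ∀ i, Ideal.smithCoeffs b (Ideal.span {p}) hI i ≠ 0 :=
    fun i => Ideal.smithCoeffs_ne_zero b _ hI i
  have hlen1 : Module.length v.toValuationSubring
      (integralClosure v.toValuationSubring F' ⧸ Ideal.span {p}) =
      ∑ i, ((v.ord ((Ideal.smithCoeffs b (Ideal.span {p}) hI i : v.toValuationSubring) : F)).toNat
        : ℕ∞) := by
    rw [(Ideal.quotientEquivPiSpan (Ideal.span {p}) b hI).length_eq, Module.length_pi_of_fintype]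
    exact Finset.sum_congr rfl fun i _ => length_quotient_span_singleton v (hne i)
  have hlen2 : Module.length v.toValuationSubring
      (integralClosure v.toValuationSubring F' ⧸ Ideal.span {p}) =
      (P.asIdeal.inertiaDeg v.toValuationSubring : ℕ∞) := by
    rw [← length_quotient_prime v P]
    exact ((Submodule.quotEquivOfEq _ _ hp).restrictScalars v.toValuationSubring).length_eq
  rw [ord_coe_eq_of_associated v hassoc, ord_coe_prod v _ _ fun i _ => hne i]
  rw [hlen1] at hlen2
  have hnn : ∀ i, 0 ≤ v.ord
      ((Ideal.smithCoeffs b (Ideal.span {p}) hI i : v.toValuationSubring) : F) :=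
    fun i => Fermat.Agent.X0.Place.ord_nonneg_of_mem v (Subtype.mem _)
  have h3 : ((∑ i, (v.ord ((Ideal.smithCoeffs b (Ideal.span {p}) hI i : v.toValuationSubring)
      : F)).toNat : ℕ) : ℕ∞) = (P.asIdeal.inertiaDeg v.toValuationSubring : ℕ∞) := by
    rw [← hlen2]
    push_cast
    rfl
  have h4 : (∑ i, (v.ord ((Ideal.smithCoeffs b (Ideal.span {p}) hI i : v.toValuationSubring)
      : F)).toNat : ℕ) = P.asIdeal.inertiaDeg v.toValuationSubring := by exact_mod_cast h3
  rw [← h4]
  push_cast
  exact Finset.sum_congr rfl fun i _ => (Int.toNat_of_nonneg (hnn i)).symm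

end PrimeElt

section Induction

variable [FiniteDimensional F F'] (v : Place K F) [IntClosureFinite v F']

instance isPrincipalIdealRing_intClosure :
    IsPrincipalIdealRing (integralClosure v.toValuationSubring F') := by
  apply IsPrincipalIdealRing.of_finite_primes
  refine ((Set.finite_singleton ⊥).union
    (Set.finite_range (HeightOneSpectrum.asIdeal
      (R := integralClosure v.toValuationSubring F')))).subset ?_
  intro I hI
  by_cases h : I = ⊥
  · exact Or.inl h
  · exact Or.inr ⟨⟨I, hI, h⟩, rfl⟩

/-- `ord_w` of an element of the integral closure, `w = placeOfPrime v P`. -/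
theorem ord_placeOfPrime_coe (P : HeightOneSpectrum (integralClosure v.toValuationSubring F'))
    (g : integralClosure v.toValuationSubring F') :
    (placeOfPrime v P).ord (g : F') = - WithZero.log (P.intValuation g) := by
  rw [ord_placeOfPrime]
  have : (g : F') = algebraMap (integralClosure v.toValuationSubring F') F' g := rfl
  rw [this, HeightOneSpectrum.valuation_of_algebraMap]

theorem ord_placeOfPrime_coe_nonneg
    (P : HeightOneSpectrum (integralClosure v.toValuationSubring F'))
    (g : integralClosure v.toValuationSubring F') : 0 ≤ (placeOfPrime v P).ord (g : F') :=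
  Fermat.Agent.X0.Place.ord_nonneg_of_mem _
    (Fermat.Agent.X0.Place.algebraMap_mem_ofHeightOneSpectrum (K := K) (F := F') P g)

theorem ord_placeOfPrime_coe_unit
    (P : HeightOneSpectrum (integralClosure v.toValuationSubring F'))
    (u : (integralClosure v.toValuationSubring F')ˣ) :
    (placeOfPrime v P).ord ((u : integralClosure v.toValuationSubring F') : F') = 0 := by
  have h1 := ord_placeOfPrime_coe_nonneg v P u
  have h2 := ord_placeOfPrime_coe_nonneg v P (u⁻¹ : (integralClosure v.toValuationSubring F')ˣ)
  have h3 : ((u : integralClosure v.toValuationSubring F') : F') *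
      (((u⁻¹ : (integralClosure v.toValuationSubring F')ˣ) :
        integralClosure v.toValuationSubring F') : F') = 1 := by
    have := congrArg (Subtype.val) u.mul_inv
    exact this
  have hu0 : ((u : integralClosure v.toValuationSubring F') : F') ≠ 0 :=
    left_ne_zero_of_mul_eq_one h3
  have hu0' : (((u⁻¹ : (integralClosure v.toValuationSubring F')ˣ) :
        integralClosure v.toValuationSubring F') : F') ≠ 0 := right_ne_zero_of_mul_eq_one h3
  have h4 := (placeOfPrime v P).ord_mul hu0 hu0'
  rw [h3, Place.ord_one] at h4
  omega

theorem ord_placeOfPrime_generator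
    (P Q : HeightOneSpectrum (integralClosure v.toValuationSubring F')) [Decidable (Q = P)]
    {p : integralClosure v.toValuationSubring F'} (hp : Ideal.span {p} = P.asIdeal) :
    (placeOfPrime v Q).ord (p : F') = if Q = P then 1 else 0 := by
  have hp0 : p ≠ 0 := by
    rintro rfl
    apply P.ne_bot
    rw [← hp]
    simp
  rw [ord_placeOfPrime_coe]
  split_ifs with h
  · subst h
    rw [HeightOneSpectrum.intValuation_singleton _ hp0 hp.symm]
    simp
  · have hnot : p ∉ Q.asIdeal := by
      intro hmem
      apply h
      have hle : P.asIdeal ≤ Q.asIdeal := by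
        rw [← hp, Ideal.span_le, Set.singleton_subset_iff]
        exact hmem
      have hmax : P.asIdeal.IsMaximal := P.isMaximal
      exact HeightOneSpectrum.ext (hmax.eq_of_le Q.isPrime.ne_top hle).symm
    have : Q.intValuation p = 1 :=
      (HeightOneSpectrum.intValuation_eq_one_iff_mem_primeCompl Q p).mpr hnot
    rw [this]
    simp

/-- **The norm formula on the integral closure**: `ord_v (N g) = ∑_P f(P|v) · ord_P g`. -/
theorem ord_norm_eq_sum (g : integralClosure v.toValuationSubring F') (hg : g ≠ 0) :
    v.ord ((Algebra.norm v.toValuationSubring g : v.toValuationSubring) : F) =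
      ∑ P : HeightOneSpectrum (integralClosure v.toValuationSubring F'),
        (P.asIdeal.inertiaDeg v.toValuationSubring : ℤ) * (placeOfPrime v P).ord (g : F') := by
  classical
  induction g using UniqueFactorizationMonoid.induction_on_prime with
  | h₁ => exact absurd rfl hg
  | h₂ u hu =>
    obtain ⟨u, rfl⟩ := hu
    have h1 : IsUnit (Algebra.norm v.toValuationSubring
        (u : integralClosure v.toValuationSubring F')) := u.isUnit.map _
    obtain ⟨u', hu'⟩ := h1
    rw [← hu', v.ord_coe_unit]
    symm
    exact Finset.sum_eq_zero fun P _ => by rw [ord_placeOfPrime_coe_unit, mul_zero]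
  | h₃ a p ha hp ih =>
    have hp0 : p ≠ 0 := hp.ne_zero
    have hspan : (Ideal.span {p} : Ideal (integralClosure v.toValuationSubring F')).IsPrime :=
      (Ideal.span_singleton_prime hp0).mpr hp
    let P₀ : HeightOneSpectrum (integralClosure v.toValuationSubring F') :=
      ⟨Ideal.span {p}, hspan, Ideal.span_singleton_eq_bot.not.2 hp0⟩
    have hP₀ : Ideal.span {p} = P₀.asIdeal := rfl
    have hna : Algebra.norm v.toValuationSubring a ≠ 0 := by
      rw [Ne, Algebra.norm_eq_zero_iff]
      exact ha
    have hnp : Algebra.norm v.toValuationSubring p ≠ 0 := by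
      rw [Ne, Algebra.norm_eq_zero_iff]
      exact hp0
    have hnaF : ((Algebra.norm v.toValuationSubring a : v.toValuationSubring) : F) ≠ 0 :=
      fun h => hna (Subtype.ext h)
    have hnpF : ((Algebra.norm v.toValuationSubring p : v.toValuationSubring) : F) ≠ 0 :=
      fun h => hnp (Subtype.ext h)
    rw [map_mul]
    push_cast
    rw [v.ord_mul hnpF hnaF, ih ha, ord_norm_of_span_eq v P₀ hP₀]
    have haF : (a : F') ≠ 0 := fun h => ha (Subtype.ext h)
    have hpF : (p : F') ≠ 0 := fun h => hp0 (Subtype.ext h)
    have hsum : ∀ P : HeightOneSpectrum (integralClosure v.toValuationSubring F'),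
        (P.asIdeal.inertiaDeg v.toValuationSubring : ℤ) * (placeOfPrime v P).ord ((p : F') * a) =
        (if P = P₀ then (P₀.asIdeal.inertiaDeg v.toValuationSubring : ℤ) else 0) +
        (P.asIdeal.inertiaDeg v.toValuationSubring : ℤ) * (placeOfPrime v P).ord (a : F') := by
      intro P
      rw [(placeOfPrime v P).ord_mul hpF haF, ord_placeOfPrime_generator v P₀ P hP₀, mul_add]
      split_ifs with h
      · rw [h, mul_one]
      · rw [mul_zero]
    simp only [hsum, Finset.sum_add_distrib, Finset.sum_ite_eq', Finset.mem_univ, if_true]

end Induction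

section FieldLevel

variable [FiniteDimensional F F'] (v : Place K F) [IntClosureFinite v F']

theorem norm_coe_intClosure (a : integralClosure v.toValuationSubring F') :
    Algebra.norm F (a : F') =
      ((Algebra.norm v.toValuationSubring a : v.toValuationSubring) : F) := by
  have : IsLocalization (Algebra.algebraMapSubmonoid (integralClosure v.toValuationSubring F')
      (nonZeroDivisors v.toValuationSubring)) F' :=
    IsIntegralClosure.isLocalization v.toValuationSubring F F' _
  exact Algebra.norm_localization v.toValuationSubring (nonZeroDivisors v.toValuationSubring)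
    (Rₘ := F) (Sₘ := F') a

/-- **The norm formula**: `ord_v (N_{F'/F} g) = ∑_P f(P|v) · ord_P g` for `g ∈ F'ˣ`. -/
theorem ord_norm_eq_sum_primes {g : F'} (hg : g ≠ 0) :
    v.ord (Algebra.norm F g) =
      ∑ P : HeightOneSpectrum (integralClosure v.toValuationSubring F'),
        (P.asIdeal.inertiaDeg v.toValuationSubring : ℤ) * (placeOfPrime v P).ord g := by
  obtain ⟨a, b, hb, rfl⟩ := IsFractionRing.div_surjective
    (A := integralClosure v.toValuationSubring F') g
  have hb0 : b ≠ 0 := nonZeroDivisors.ne_zero hb
  have ha0 : a ≠ 0 := by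
    rintro rfl
    rw [map_zero, zero_div] at hg
    exact hg rfl
  have haF : algebraMap (integralClosure v.toValuationSubring F') F' a ≠ 0 := by
    rwa [Ne, FaithfulSMul.algebraMap_eq_zero_iff]
  have hbF : algebraMap (integralClosure v.toValuationSubring F') F' b ≠ 0 := by
    rwa [Ne, FaithfulSMul.algebraMap_eq_zero_iff]
  have hca : algebraMap (integralClosure v.toValuationSubring F') F' a = (a : F') := rfl
  have hcb : algebraMap (integralClosure v.toValuationSubring F') F' b = (b : F') := rfl
  rw [hca] at haF
  rw [hcb] at hbF
  rw [hca, hcb]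
  have hna : Algebra.norm F (a : F') ≠ 0 := Algebra.norm_ne_zero_iff.mpr haF
  have hnb : Algebra.norm F (b : F') ≠ 0 := Algebra.norm_ne_zero_iff.mpr hbF
  have hdiv : (a : F') / (b : F') ≠ 0 := div_ne_zero haF hbF
  have hnd : Algebra.norm F ((a : F') / (b : F')) ≠ 0 := Algebra.norm_ne_zero_iff.mpr hdiv
  have hmul : Algebra.norm F ((a : F') / (b : F')) * Algebra.norm F (b : F') =
      Algebra.norm F (a : F') := by
    rw [← map_mul, div_mul_cancel₀ _ hbF]
  have hord : v.ord (Algebra.norm F ((a : F') / (b : F'))) =
      v.ord (Algebra.norm F (a : F')) - v.ord (Algebra.norm F (b : F')) := by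
    rw [← hmul, v.ord_mul hnd hnb]
    ring
  rw [hord, norm_coe_intClosure v a, norm_coe_intClosure v b, ord_norm_eq_sum v a ha0,
    ord_norm_eq_sum v b hb0, ← Finset.sum_sub_distrib]
  refine Finset.sum_congr rfl fun P _ => ?_
  rw [div_eq_mul_inv, (placeOfPrime v P).ord_mul haF (inv_ne_zero hbF),
    (placeOfPrime v P).ord_inv]
  ring

/-- **The norm formula over the places**:
`ord_v (N_{F'/F} g) = ∑_{w|v} f(w|v) · ord_w g`, with the Prelude's `Place.inertiaDeg`. -/
theorem ord_norm_eq_sum_placesAbove {g : F'} (hg : g ≠ 0) :
    v.ord (Algebra.norm F g) =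
      ∑ w ∈ placesAbove v F', (w.inertiaDeg F : ℤ) * w.ord g := by
  rw [ord_norm_eq_sum_primes v hg, sum_placesAbove]
  exact Finset.sum_congr rfl fun P _ => by rw [inertiaDeg_placeOfPrime]

end FieldLevel

section Package

variable [FiniteDimensional F F'] [∀ v : Place K F, IntClosureFinite v F']

/-- **The Prelude's `PushforwardNormFormula` holds** for a finite extension with finite integral
closures (e.g. finite separable): the push-forward of the divisor of `g` is the divisor of
`N_{F'/F} g`. -/
theorem pushforwardNormFormula : Divisor.PushforwardNormFormula K F F' := by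
  classical
  intro f hf D hD v
  rw [Divisor.pushforward_apply, ord_norm_eq_sum_placesAbove v hf, ← Finset.sum_filter]
  have hsub : D.support.filter (fun w => w.restrict F = v) ⊆ placesAbove v F' := by
    intro w hw
    rw [Finset.mem_filter] at hw
    rw [mem_placesAbove, ← restrict_eq_comapField]
    exact hw.2
  rw [Finset.sum_subset hsub]
  · exact Finset.sum_congr rfl fun w _ => by rw [hD w, mul_comm]
  · intro w hw hnot
    rw [mem_placesAbove, ← restrict_eq_comapField] at hw
    have : w ∉ D.support := fun h => hnot (Finset.mem_filter.mpr ⟨h, hw⟩)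
    rw [Finsupp.notMem_support_iff] at this
    rw [this, zero_mul]

end Package

end Fermat.Agent.FF
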