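import Mathlib
import Fermat.Prelude.Def_AlgebraicCurve_IsCurveOver
import Fermat.Agent.FF.NormFormula

/-!
# L-FF (node 2): `HasPrincipalDivisors` and `IsCurveOver` go up along finite (separable) extensions

`F'/F` finite with finite integral closures (`IntClosureFinite v F'` for all `v`; automatic when
`F'/F` is separable).

* `finite_poles_of_finite`, `finite_support_ord_of_finite` : a function of `F'` has finitely many
  zeros and poles as soon as this holds in `F`;
* **`hasPrincipalDivisors_of_finite : HasPrincipalDivisors K F → HasPrincipalDivisors K F'`**
  (the degree of a principal divisor upstairs is the degree of the divisor of its norm);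
* `finite_residueField_of_finite` : residue fields upstairs are finite over `K`;
* **`isCurveOver_of_finite_separable : IsCurveOver K F → IsCurveOver K F'`** for `F'/F` finite
  separable.
-/

set_option autoImplicit false
set_option linter.unusedSectionVars false

open AlgebraicCurve IsDedekindDomain KaehlerDifferential

namespace Fermat.Agent.FF

variable {K F F' : Type*} [Field K] [Field F] [Field F'] [Algebra K F] [Algebra F F']
  [Algebra K F'] [IsScalarTower K F F'] [FiniteDimensional F F']

section Poles

/-- If all coefficients of the minimal polynomial of `g` are regular at `w ∩ F`, then `g` is regular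
at `w`. -/
theorem ord_nonneg_of_forall_coeff_minpoly (w : Place K F') (g : F')
    (h : ∀ i, 0 ≤ (comapField F w).ord ((minpoly F g).coeff i)) : 0 ≤ w.ord g := by
  have hint : IsIntegral F g := Algebra.IsIntegral.isIntegral g
  have hmonic : (minpoly F g).Monic := minpoly.monic hint
  have hlift : minpoly F g ∈ Polynomial.lifts (algebraMap (comapField F w).toValuationSubring F) := by
    rw [Polynomial.lifts_iff_coeff_lifts]
    intro i
    exact ⟨⟨_, Fermat.Agent.X0.Place.mem_of_ord_nonneg _ (h i)⟩, rfl⟩
  obtain ⟨q, hq, -, hqm⟩ := Polynomial.lifts_and_degree_eq_and_monic hlift hmonic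
  have hx : IsIntegral (comapField F w).toValuationSubring g := by
    refine ⟨q, hqm, ?_⟩
    have h1 : Polynomial.eval₂ (algebraMap (comapField F w).toValuationSubring F') g q =
        Polynomial.eval₂ (algebraMap F F') g
          (q.map (algebraMap (comapField F w).toValuationSubring F)) := by
      rw [Polynomial.eval₂_map]
      rfl
    rw [h1, hq]
    exact minpoly.aeval F g
  have hF : ∀ a : (comapField F w).toValuationSubring,
      algebraMap F F' (a : F) ∈ w.toValuationSubring := fun a => a.2
  obtain ⟨p, hp, hpx⟩ := hx
  have hint' : IsIntegral w.toValuationSubring g := by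
    refine ⟨p.map (((algebraMap F F').comp (comapField F w).toValuationSubring.subtype).codRestrict
      w.toValuationSubring.toSubring hF), hp.map _, ?_⟩
    rw [Polynomial.eval₂_map]
    exact hpx
  have hcl := IsIntegrallyClosed.isIntegral_iff (R := w.toValuationSubring) (K := F') (x := g)
  obtain ⟨y, hy⟩ := hcl.mp hint'
  rw [← hy]
  exact Fermat.Agent.X0.Place.ord_nonneg_of_mem w y.2

variable [∀ v : Place K F, IntClosureFinite v F']

/-- The poles of `g ∈ F'` lie over the poles of the coefficients of its minimal polynomial. -/
theorem finite_poles_of_finite [HasPrincipalDivisors K F] (g : F') :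
    {w : Place K F' | w.ord g < 0}.Finite := by
  classical
  have hpoles : ∀ f : F, {v : Place K F | v.ord f < 0}.Finite := by
    intro f
    rcases eq_or_ne f 0 with rfl | hf
    · simp
    obtain ⟨D, hD, -⟩ := HasPrincipalDivisors.exists_divisor (K := K) f hf
    refine D.support.finite_toSet.subset fun v hv => ?_
    rw [Finset.mem_coe, Finsupp.mem_support_iff, hD v]
    exact ne_of_lt hv
  -- the finite set of places of `F` where some coefficient has a pole
  have hS : (⋃ i ∈ Finset.range ((minpoly F g).natDegree + 1),
      {v : Place K F | v.ord ((minpoly F g).coeff i) < 0}).Finite :=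
    Set.Finite.biUnion (Finset.finite_toSet _) fun i _ => hpoles _
  have hT : (⋃ v ∈ hS.toFinset, ((placesAbove v F' : Finset (Place K F')) : Set (Place K F'))).Finite :=
    Set.Finite.biUnion (Finset.finite_toSet _) fun v _ => Finset.finite_toSet _
  refine hT.subset fun w hw => ?_
  rw [Set.mem_ofPred_eq] at hw
  by_contra hnot
  apply not_le.mpr hw
  apply ord_nonneg_of_forall_coeff_minpoly (F := F)
  intro i
  by_contra hneg
  apply hnot
  rw [Set.mem_iUnion₂]
  refine ⟨comapField F w, ?_, ?_⟩
  · rw [Set.Finite.mem_toFinset, Set.mem_iUnion₂]
    refine ⟨i, ?_, not_le.mp hneg⟩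
    rw [Finset.mem_range]
    by_contra hi
    apply hneg
    rw [Polynomial.coeff_eq_zero_of_natDegree_lt (by omega)]
    simp
  · rw [Finset.mem_coe, mem_placesAbove]

/-- Zeros and poles of a nonzero function of `F'` are finite in number. -/
theorem finite_support_ord_of_finite [HasPrincipalDivisors K F] (g : F') :
    {w : Place K F' | w.ord g ≠ 0}.Finite := by
  refine ((finite_poles_of_finite (K := K) (F := F) g).union
    (finite_poles_of_finite (K := K) (F := F) g⁻¹)).subset fun w hw => ?_
  rw [Set.mem_ofPred_eq] at hw
  rcases lt_or_gt_of_ne hw with h | h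
  · exact Or.inl h
  · right
    rw [Set.mem_ofPred_eq, w.ord_inv]
    omega

/-- **`HasPrincipalDivisors` goes up** along a finite extension with finite integral closures. -/
theorem hasPrincipalDivisors_of_finite [HasPrincipalDivisors K F] : HasPrincipalDivisors K F' := by
  refine ⟨fun g hg => ?_⟩
  have hfin := finite_support_ord_of_finite (K := K) (F := F) g
  let D : Divisor K F' := Finsupp.ofSupportFinite (fun w => w.ord g) hfin
  have hD : ∀ w : Place K F', D w = w.ord g := fun w => rfl
  refine ⟨D, hD, ?_⟩
  have hN : Algebra.norm F g ≠ 0 := Algebra.norm_ne_zero_iff.mpr hg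
  obtain ⟨E, hE, hE0⟩ := HasPrincipalDivisors.exists_divisor (K := K) (Algebra.norm F g) hN
  rw [← Divisor.degree_pushforward (F := F) D,
    Divisor.pushforward_eq_of_normFormula pushforwardNormFormula hg hD hE, hE0]

end Poles

section Residue

/-- Residue fields of the places of `F'` are finite over `K` if those of `F` are. -/
theorem finite_residueField_of_finite (v : Place K F) [IntClosureFinite v F']
    [Module.Finite K v.ResidueField] (w : Place K F') (hw : comapField F w = v) :
    Module.Finite K w.ResidueField := by
  obtain ⟨P, rfl⟩ := exists_placeOfPrime_eq v w hw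
  have hP : P.asIdeal.IsMaximal := P.isMaximal
  let _ : Field (v.toValuationSubring ⧸ IsLocalRing.maximalIdeal v.toValuationSubring) :=
    Ideal.Quotient.field _
  have h1 : Module.Finite (v.toValuationSubring ⧸ IsLocalRing.maximalIdeal v.toValuationSubring)
      (integralClosure v.toValuationSubring F' ⧸ P.asIdeal) :=
    Module.Finite.of_restrictScalars_finite v.toValuationSubring _ _
  have h2 : Module.Finite K
      (v.toValuationSubring ⧸ IsLocalRing.maximalIdeal v.toValuationSubring) :=
    ‹Module.Finite K v.ResidueField›
  have h3 : Module.Finite K (integralClosure v.toValuationSubring F' ⧸ P.asIdeal) :=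
    Module.Finite.trans
      (v.toValuationSubring ⧸ IsLocalRing.maximalIdeal v.toValuationSubring) _
  exact Module.Finite.equiv (residueFieldAlgEquiv (K := K) (F := F') P).toLinearEquiv

end Residue

section Curve

/-- **`IsCurveOver` goes up along finite separable extensions.** -/
theorem isCurveOver_of_finite_separable [Algebra.IsSeparable F F'] [IsCurveOver K F] :
    IsCurveOver K F' := by
  have hPD : HasPrincipalDivisors K F' := hasPrincipalDivisors_of_finite (F := F)
  refine { toHasPrincipalDivisors := hPD, finiteResidue := ?_, kaehler_free_rank_one := ?_ }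
  · intro w
    have : Module.Finite K (comapField F w).ResidueField := IsCurveOver.finiteResidue _
    exact finite_residueField_of_finite (comapField F w) w rfl
  · have hEt : Algebra.FormallyEtale F F' := Algebra.FormallyEtale.of_isSeparable F F'
    let e := KaehlerDifferential.tensorKaehlerEquivOfFormallyEtale K F F'
    have hfree : Module.Free F' (TensorProduct F F' Ω[F⁄K]) := inferInstance
    refine ⟨Module.Free.of_equiv e, ?_⟩
    rw [← e.finrank_eq, Module.finrank_baseChange, IsCurveOver.finrank_kaehler]

end Curve

end Fermat.Agent.FF
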