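import Mathlib
import Fermat.Agent.X0.RR.EOver
import Fermat.Agent.X0.RR.TameDifferent
import Fermat.Agent.X0.RR.DeltaCount

/-!
# L-FF (FF-DIFF, part 1): different exponents of a finite extension of Dedekind domains

`A ⊆ B` Dedekind domains, `B` finite and torsion free over `A`, separable fraction fields.
For a height one prime `v` of `B` we put

`diffExp A v :=` the multiplicity of `v` in the different ideal `𝔇(B/A)`.

Characteristic free statements:

* `pow_dvd_differentIdeal_iff` : `v ^ k ∣ 𝔇 ↔ k ≤ d_v`;
* `eOver_sub_one_le_diffExp` : `e_v - 1 ≤ d_v` (Dedekind's different theorem, lower bound);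
* `diffExp_eq_eOver_sub_one_of_tame` : `d_v = e_v - 1` when `e_v f_v ≠ 0` in the residue field;
* `diffExp_tower` : transitivity `d_A(w) = e(w|v) · d_A(v) + d_B(w)` in a tower `A ⊆ B ⊆ C`;
* `count_conductor_add_diffExp` : `count_v (conductor of x) + d_v = count_v (f'(x))`;
  `diffExp_eq_count_of_not_le_conductor` (local monogenic case).
-/

set_option autoImplicit false
set_option linter.deprecated false
set_option linter.unusedSectionVars false

namespace Fermat.Agent.FF

open Ideal Module UniqueFactorizationMonoid IsDedekindDomain Fermat.Agent.X0.RR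
open scoped nonZeroDivisors

attribute [local instance] FractionRing.liftAlgebra FractionRing.isScalarTower_liftAlgebra
  Ideal.Quotient.field

section Count

variable {B : Type*} [CommRing B] [IsDedekindDomain B]

/-- `v ^ k ∣ I ↔ k ≤ count_v I` for a nonzero ideal `I` of a Dedekind domain. -/
theorem pow_dvd_iff_le_count [DecidableEq (Ideal B)] (v : HeightOneSpectrum B) {I : Ideal B}
    (hI : I ≠ ⊥) (k : ℕ) :
    v.asIdeal ^ k ∣ I ↔ k ≤ (normalizedFactors I).count v.asIdeal := by
  rw [pow_dvd_iff_le_emultiplicity,
    emultiplicity_eq_count_normalizedFactors v.irreducible hI, normalize_eq, Nat.cast_le]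

/-- The count of `v` in a product of nonzero ideals. -/
theorem count_mul_ideal [DecidableEq (Ideal B)] (v : HeightOneSpectrum B) {I J : Ideal B}
    (hI : I ≠ ⊥) (hJ : J ≠ ⊥) :
    (normalizedFactors (I * J)).count v.asIdeal =
      (normalizedFactors I).count v.asIdeal + (normalizedFactors J).count v.asIdeal := by
  rw [normalizedFactors_mul hI hJ, Multiset.count_add]

end Count

section Basic

variable (A : Type*) {B : Type*} [CommRing A] [CommRing B] [Algebra A B]
  [IsDedekindDomain A] [IsDedekindDomain B] [IsTorsionFree A B] [Module.Finite A B]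

open Classical in
/-- The different exponent of the height one prime `v` of `B` over `A`. -/
noncomputable def diffExp (v : HeightOneSpectrum B) : ℕ :=
  (normalizedFactors (differentIdeal A B)).count v.asIdeal

theorem diffExp_eq_count [DecidableEq (Ideal B)] (v : HeightOneSpectrum B) :
    diffExp A v = (normalizedFactors (differentIdeal A B)).count v.asIdeal := by
  unfold diffExp
  congr

variable [Algebra.IsSeparable (FractionRing A) (FractionRing B)]

/-- `v ^ k ∣ 𝔇 ↔ k ≤ d_v`. -/
theorem pow_dvd_differentIdeal_iff (v : HeightOneSpectrum B) (k : ℕ) :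
    v.asIdeal ^ k ∣ differentIdeal A B ↔ k ≤ diffExp A v := by
  classical
  rw [diffExp_eq_count]
  exact pow_dvd_iff_le_count v differentIdeal_ne_bot k

/-- **Dedekind's different theorem, lower bound**: `e_v - 1 ≤ d_v`. -/
theorem eOver_sub_one_le_diffExp (v : HeightOneSpectrum B) : eOver A v - 1 ≤ diffExp A v := by
  classical
  have := v.isMaximal
  have hp : v.asIdeal.under A ≠ ⊥ := Ideal.under_ne_bot A v.ne_bot
  have : (v.asIdeal.under A).IsMaximal := Ideal.IsMaximal.under A v.asIdeal
  have hmap : Ideal.map (algebraMap A B) (v.asIdeal.under A) ≠ ⊥ :=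
    (Ideal.map_eq_bot_iff_of_injective (FaithfulSMul.algebraMap_injective A B)).not.mpr hp
  rw [← pow_dvd_differentIdeal_iff]
  refine pow_sub_one_dvd_differentIdeal A v.asIdeal (eOver A v) hp ?_
  rw [pow_dvd_iff_le_count v hmap, eOver_eq_count]

/-- **Tame primes**: `d_v = e_v - 1` as soon as `e_v f_v ≠ 0` in the residue field of `A`. -/
theorem diffExp_eq_eOver_sub_one_of_tame (v : HeightOneSpectrum B)
    (htame : ((eOver A v * finrank (A ⧸ v.asIdeal.under A) (B ⧸ v.asIdeal) : ℕ) :
      A ⧸ v.asIdeal.under A) ≠ 0) :
    diffExp A v = eOver A v - 1 := by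
  classical
  have := v.isMaximal
  have hp : v.asIdeal.under A ≠ ⊥ := Ideal.under_ne_bot A v.ne_bot
  have : (v.asIdeal.under A).IsMaximal := Ideal.IsMaximal.under A v.asIdeal
  rw [diffExp_eq_count, eOver_eq_count]
  rw [eOver_eq_count] at htame
  exact count_normalizedFactors_differentIdeal_eq_pred A v.asIdeal hp htame

/-- Unramified tame primes do not divide the different. -/
theorem diffExp_eq_zero_of_eOver_eq_one (v : HeightOneSpectrum B) (he : eOver A v = 1)
    (hsep : ((finrank (A ⧸ v.asIdeal.under A) (B ⧸ v.asIdeal) : ℕ) :
      A ⧸ v.asIdeal.under A) ≠ 0) :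
    diffExp A v = 0 := by
  rw [diffExp_eq_eOver_sub_one_of_tame A v (by rwa [he, one_mul]), he]

end Basic

section CountMap

variable (B : Type*) {C : Type*} [CommRing B] [CommRing C] [Algebra B C]
  [IsDedekindDomain B] [IsDedekindDomain C] [IsTorsionFree B C] [Module.Finite B C]

/-- The count of `w` in the extension of an ideal `I` of `B` to `C` is `e(w|v) · count_v I`,
`v = w ∩ B`. -/
theorem count_map_eq_eOver_mul [DecidableEq (Ideal B)] [DecidableEq (Ideal C)]
    (w : HeightOneSpectrum C) {I : Ideal B} (hI : I ≠ ⊥) :
    (normalizedFactors (I.map (algebraMap B C))).count w.asIdeal =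
      eOver B w * (normalizedFactors I).count (w.under B).asIdeal := by
  have hinj : Function.Injective (algebraMap B C) := FaithfulSMul.algebraMap_injective B C
  have hImap : I.map (algebraMap B C) ≠ ⊥ :=
    (Ideal.map_eq_bot_iff_of_injective hinj).not.mpr hI
  have hp : (w.under B).asIdeal ≠ ⊥ := (w.under B).ne_bot
  have hmap : Ideal.map (algebraMap B C) (w.under B).asIdeal ≠ ⊥ :=
    (Ideal.map_eq_bot_iff_of_injective hinj).not.mpr hp
  have : w.asIdeal.LiesOver (w.under B).asIdeal := ⟨rfl⟩
  have h1 := Ideal.IsDedekindDomain.emultiplicity_map_eq_ramificationIdx'_mul (S := C) hI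
    (w.under B).irreducible w.irreducible w.ne_bot
  rw [emultiplicity_eq_count_normalizedFactors w.irreducible hImap,
    emultiplicity_eq_count_normalizedFactors (w.under B).irreducible hI, normalize_eq,
    normalize_eq,
    Ideal.IsDedekindDomain.ramificationIdx'_eq_normalizedFactors_count hmap w.isPrime w.ne_bot,
    ← Nat.cast_mul, Nat.cast_inj] at h1
  rw [h1, eOver_eq_count]
  congr!

end CountMap

section Tower

variable (A B : Type*) {C : Type*} [CommRing A] [CommRing B] [CommRing C]
  [Algebra A B] [Algebra B C] [Algebra A C] [IsScalarTower A B C]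
  [IsDedekindDomain A] [IsDedekindDomain B] [IsDedekindDomain C]
  [IsTorsionFree A B] [IsTorsionFree A C] [IsTorsionFree B C]
  [Module.Finite A B] [Module.Finite A C] [Module.Finite B C]
  [Algebra.IsSeparable (FractionRing A) (FractionRing C)]

/-- **Transitivity of the different exponents** in a tower `A ⊆ B ⊆ C`: for a prime `w` of `C`
over `v = w ∩ B`, `d_A(w) = e(w|v) · d_A(v) + d_B(w)`. -/
theorem diffExp_tower (w : HeightOneSpectrum C) :
    diffExp A w = eOver B w * diffExp A (w.under B) + diffExp B w := by
  classical
  have : Algebra.IsSeparable (FractionRing B) (FractionRing C) :=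
    Algebra.isSeparable_tower_top_of_isSeparable (FractionRing A) _ _
  have : Algebra.IsSeparable (FractionRing A) (FractionRing B) :=
    Algebra.isSeparable_tower_bot_of_isSeparable _ _ (FractionRing C)
  have hAB : differentIdeal A B ≠ ⊥ := differentIdeal_ne_bot
  have hBC : differentIdeal B C ≠ ⊥ := differentIdeal_ne_bot
  have hinj : Function.Injective (algebraMap B C) := FaithfulSMul.algebraMap_injective B C
  have hmap : (differentIdeal A B).map (algebraMap B C) ≠ ⊥ :=
    (Ideal.map_eq_bot_iff_of_injective hinj).not.mpr hAB
  rw [diffExp_eq_count, differentIdeal_eq_differentIdeal_mul_differentIdeal A B C,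
    count_mul_ideal w hBC hmap, count_map_eq_eOver_mul B w hAB, diffExp_eq_count,
    diffExp_eq_count, add_comm]

end Tower

section Conductor

variable (A K : Type*) (L : Type*) {B : Type*} [CommRing A] [Field K] [CommRing B] [Field L]
  [Algebra A K] [Algebra B L] [Algebra A B] [Algebra K L] [Algebra A L]
  [IsScalarTower A K L] [IsScalarTower A B L]
  [IsFractionRing A K] [FiniteDimensional K L] [Algebra.IsSeparable K L] [IsIntegralClosure B A L]
  [IsFractionRing B L] [IsDedekindDomain A] [IsDedekindDomain B] [IsTorsionFree A B]
  [Module.Finite A B] [Algebra.IsSeparable (FractionRing A) (FractionRing B)]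

open Polynomial in
include K L in
/-- `f'(x) ≠ 0` for `x ∈ B` with minimal polynomial `f` over `A` (separability). -/
theorem aeval_derivative_minpoly_ne_zero (x : B) :
    aeval x (derivative (minpoly A x)) ≠ 0 := by
  have hAx : IsIntegral A x := IsIntegralClosure.isIntegral A L x
  have hne₁ : aeval (algebraMap B L x) (derivative (minpoly K (algebraMap B L x))) ≠ 0 :=
    (Algebra.IsSeparable.isSeparable _ _).aeval_derivative_ne_zero (minpoly.aeval _ _)
  rw [minpoly.isIntegrallyClosed_eq_field_fractions K L hAx, derivative_map,
    aeval_map_algebraMap, aeval_algebraMap_apply] at hne₁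
  exact fun h => hne₁ (by rw [h, map_zero])

open Polynomial in
include K L in
/-- The conductor of `A[x]` in `B` is nonzero for a primitive element `x`. -/
theorem conductor_ne_bot_of_adjoin_eq_top (x : B)
    (hx : Algebra.adjoin K {algebraMap B L x} = ⊤) : conductor A x ≠ ⊥ := by
  have hmul := conductor_mul_differentIdeal A K L x hx
  intro h0
  rw [h0, Ideal.bot_mul] at hmul
  have := aeval_derivative_minpoly_ne_zero A K L x
  exact this (Ideal.span_singleton_eq_bot.mp hmul.symm)

open Polynomial in
/-- `count_v (conductor of A[x]) + d_v = count_v (f'(x))` for a primitive element `x ∈ B` with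
minimal polynomial `f` over `A`. -/
theorem count_conductor_add_diffExp [DecidableEq (Ideal B)] (v : HeightOneSpectrum B) (x : B)
    (hx : Algebra.adjoin K {algebraMap B L x} = ⊤) :
    (normalizedFactors (conductor A x)).count v.asIdeal + diffExp A v =
      (normalizedFactors (Ideal.span {aeval x (derivative (minpoly A x))})).count v.asIdeal := by
  have hD : differentIdeal A B ≠ ⊥ := differentIdeal_ne_bot
  have hc : conductor A x ≠ ⊥ := conductor_ne_bot_of_adjoin_eq_top A K L x hx
  rw [← conductor_mul_differentIdeal A K L x hx, count_mul_ideal v hc hD, diffExp_eq_count]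

open Polynomial in
/-- **Upper bound** `d_v ≤ count_v (f'(x))` for a primitive element `x ∈ B`. -/
theorem diffExp_le_count_aeval_derivative [DecidableEq (Ideal B)] (v : HeightOneSpectrum B)
    (x : B) (hx : Algebra.adjoin K {algebraMap B L x} = ⊤) :
    diffExp A v ≤
      (normalizedFactors (Ideal.span {aeval x (derivative (minpoly A x))})).count v.asIdeal := by
  rw [← count_conductor_add_diffExp A K L v x hx]
  exact Nat.le_add_left _ _

open Polynomial in
/-- **Locally monogenic primes**: if the conductor of `A[x]` is not contained in `v`, then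
`d_v = count_v (f'(x))`. -/
theorem diffExp_eq_count_of_not_conductor_le [DecidableEq (Ideal B)] (v : HeightOneSpectrum B)
    (x : B) (hx : Algebra.adjoin K {algebraMap B L x} = ⊤) (hv : ¬ conductor A x ≤ v.asIdeal) :
    diffExp A v =
      (normalizedFactors (Ideal.span {aeval x (derivative (minpoly A x))})).count v.asIdeal := by
  have hc : conductor A x ≠ ⊥ := conductor_ne_bot_of_adjoin_eq_top A K L x hx
  rw [← count_conductor_add_diffExp A K L v x hx]
  have h0 : (normalizedFactors (conductor A x)).count v.asIdeal = 0 := by
    by_contra hne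
    have h1 : 1 ≤ (normalizedFactors (conductor A x)).count v.asIdeal := Nat.one_le_iff_ne_zero.mpr hne
    rw [← pow_dvd_iff_le_count v hc, pow_one, Ideal.dvd_iff_le] at h1
    exact hv h1
  rw [h0, zero_add]

end Conductor

end Fermat.Agent.FF
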