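import Mathlib
import Fermat.Agent.FF.DiffExp
import Fermat.Agent.X0.RR.DeltaCount
import Fermat.Agent.X0.RR.IdealQuotCount
import Fermat.Agent.X0.RR.FracIdealVal

/-!
# L-FF (FF-5, part 1): the degree of the different, characteristic free (Dedekind level)

`K` a field, `A ⊆ B` Dedekind domains, `B` finite torsion free over `A` with separable fraction
fields, `B` a `K`-algebra all of whose residue fields have dimension one over `K`, `F` a fraction
field of `B`, `𝔇 = differentIdeal A B`, `d_v = diffExp A v` (`FF/DiffExp.lean`).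

* `count_inv_differentIdeal_diffExp` : `v(𝔇⁻¹) = - d_v`;
* `finrank_inv_differentIdeal_quot_one` : `dim_K (𝔇⁻¹ / B) = ∑ᶠ v, d_v`;
* `mem_inv_differentIdeal_iff_diffExp` : `x ∈ 𝔇⁻¹ ↔ ∀ v, v(x) ≥ - d_v`;
* `finrank_traceDual_quot_one_diffExp`, `mem_traceDual_one_iff_diffExp` : the same for the trace
  dual submodule of `B` (AKLB setting).

Over a local base with uniformiser `t` (the point at infinity), with `J = t² D⁻¹`
(`deltaInfIdeal`) and `Q = t² B` (`sqIdeal`), for an arbitrary nonzero ideal `D` of `B`: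

* `count_sqIdeal`, `count_deltaInfIdeal_general` : `v(Q) = 2 e_v`, `v(J) = 2 e_v - v(D)`;
* `sqIdeal_le_one`, `sqIdeal_le_deltaInfIdeal`;
* `finrank_one_quot_sqIdeal` : `dim_K (B / Q) = ∑ᶠ v, 2 e_v`;
* `finrank_deltaInfIdeal_quot_sqIdeal` : `dim_K (J / Q) = ∑ᶠ v, v(D)`;
* `mem_deltaInfIdeal_iff_general` : `x ∈ J ↔ ∀ v, v(x) ≥ 2 e_v - v(D)`.
-/

set_option autoImplicit false
set_option linter.deprecated false
set_option linter.unusedSectionVars false

namespace Fermat.Agent.FF.RRDiff

open Ideal Module UniqueFactorizationMonoid IsDedekindDomain Fermat.Agent.X0.RR Fermat.Agent.FF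
open scoped nonZeroDivisors WithZero

attribute [local instance] FractionRing.liftAlgebra FractionRing.isScalarTower_liftAlgebra
  Ideal.Quotient.field

section DifferentGeneral

variable (K : Type*) [Field K]
  (A : Type*) {B : Type*} [CommRing A] [CommRing B] [Algebra A B]
  [IsDedekindDomain A] [IsDedekindDomain B] [IsTorsionFree A B] [Module.Finite A B]
  [Algebra.IsSeparable (FractionRing A) (FractionRing B)]
  (F : Type*) [Field F] [Algebra B F] [IsFractionRing B F]

/-- The valuation of the different at `v`, as a fractional ideal, is `d_v`. -/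
theorem count_coe_differentIdeal_diffExp (v : HeightOneSpectrum B) :
    FractionalIdeal.count F v ((differentIdeal A B : Ideal B) : FractionalIdeal B⁰ F) =
      (diffExp A v : ℤ) := by
  classical
  have hD : differentIdeal A B ≠ ⊥ := differentIdeal_ne_bot
  rw [FractionalIdeal.count_coe F v hD, Ideal.count_associates_factors_eq hD v.isPrime v.ne_bot,
    diffExp_eq_count]

/-- The valuation of the inverse different at `v` is `- d_v`. -/
theorem count_inv_differentIdeal_diffExp (v : HeightOneSpectrum B) :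
    FractionalIdeal.count F v ((differentIdeal A B : Ideal B) : FractionalIdeal B⁰ F)⁻¹ =
      -(diffExp A v : ℤ) := by
  rw [FractionalIdeal.count_inv, count_coe_differentIdeal_diffExp A F v]

/-- **Valuation description of the inverse different**: `x ∈ 𝔇⁻¹ ↔ ∀ v, v(x) ≥ - d_v`. -/
theorem mem_inv_differentIdeal_iff_diffExp (x : F) :
    x ∈ ((differentIdeal A B : Ideal B) : FractionalIdeal B⁰ F)⁻¹ ↔
      ∀ v : HeightOneSpectrum B, v.valuation F x ≤ WithZero.exp (diffExp A v : ℤ) := by
  have hD : differentIdeal A B ≠ ⊥ := differentIdeal_ne_bot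
  have hD0 : ((differentIdeal A B : Ideal B) : FractionalIdeal B⁰ F) ≠ 0 :=
    FractionalIdeal.coeIdeal_ne_zero.mpr hD
  rw [mem_fractionalIdeal_iff_valuation_le _ (inv_ne_zero hD0) x]
  refine forall_congr' fun v => ?_
  rw [count_inv_differentIdeal_diffExp A F v, neg_neg]

variable [Algebra K B] [Algebra K F] [IsScalarTower K B F]

/-- **The degree of the different**: `dim_K (𝔇⁻¹ / B) = ∑ᶠ v, d_v`. -/
theorem finrank_inv_differentIdeal_quot_one
    (h1 : ∀ P : Ideal B, P.IsMaximal → finrank K (B ⧸ P) = 1) :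
    (finrank K (↥((((differentIdeal A B : Ideal B) : FractionalIdeal B⁰ F)⁻¹ :
        FractionalIdeal B⁰ F) : Submodule B F) ⧸
      ((1 : FractionalIdeal B⁰ F) : Submodule B F).comap
        ((((differentIdeal A B : Ideal B) : FractionalIdeal B⁰ F)⁻¹ :
          FractionalIdeal B⁰ F) : Submodule B F).subtype) : ℤ) =
      ∑ᶠ v : HeightOneSpectrum B, (diffExp A v : ℤ) := by
  have hD : differentIdeal A B ≠ ⊥ := differentIdeal_ne_bot
  have hD0 : ((differentIdeal A B : Ideal B) : FractionalIdeal B⁰ F) ≠ 0 :=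
    FractionalIdeal.coeIdeal_ne_zero.mpr hD
  rw [finrank_fracQuot_eq_finsum K _ _ (inv_ne_zero hD0) one_ne_zero
    (one_le_inv_differentIdeal A F) h1]
  refine finsum_congr fun v => ?_
  rw [FractionalIdeal.count_one, count_inv_differentIdeal_diffExp A F v]
  ring

end DifferentGeneral

section AKLB

variable (K : Type*) [Field K]
  (A Q : Type*) {B : Type*} (F : Type*) [CommRing A] [Field Q] [CommRing B] [Field F]
  [Algebra A Q] [Algebra B F] [Algebra A B] [Algebra Q F] [Algebra A F]
  [IsScalarTower A Q F] [IsScalarTower A B F]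
  [IsFractionRing A Q] [FiniteDimensional Q F] [Algebra.IsSeparable Q F] [IsIntegralClosure B A F]
  [IsFractionRing B F] [IsDedekindDomain A] [IsDedekindDomain B] [IsTorsionFree A B]
  [Module.Finite A B]

include Q in
/-- Valuation description of the trace dual of `B`: `x ∈ B^* ↔ ∀ v, v(x) ≥ - d_v`. -/
theorem mem_traceDual_one_iff_diffExp (x : F) :
    x ∈ Submodule.traceDual A Q (1 : Submodule B F) ↔
      ∀ v : HeightOneSpectrum B, v.valuation F x ≤ WithZero.exp (diffExp A v : ℤ) := by
  have h3 : Algebra.IsSeparable (FractionRing A) (FractionRing B) :=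
    isSeparable_fractionRing_of_isFractionRing A Q (L := F) (B := B)
  rw [← mem_inv_differentIdeal_iff_diffExp A F x, ← coe_inv_differentIdeal_eq_traceDual A Q F,
    FractionalIdeal.mem_coe]

variable [Algebra K B] [Algebra K F] [IsScalarTower K B F]

/-- `dim_K (B^* / B) = ∑ᶠ v, d_v` for the trace dual submodule of `B`. -/
theorem finrank_traceDual_quot_one_diffExp
    (h1 : ∀ P : Ideal B, P.IsMaximal → finrank K (B ⧸ P) = 1) :
    (finrank K (↥(Submodule.traceDual A Q (1 : Submodule B F)) ⧸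
      (1 : Submodule B F).comap (Submodule.traceDual A Q (1 : Submodule B F)).subtype) : ℤ) =
      ∑ᶠ v : HeightOneSpectrum B, (diffExp A v : ℤ) := by
  have h3 : Algebra.IsSeparable (FractionRing A) (FractionRing B) :=
    isSeparable_fractionRing_of_isFractionRing A Q (L := F) (B := B)
  have h := finrank_inv_differentIdeal_quot_one K A F h1
  rw [coe_inv_differentIdeal_eq_traceDual A Q F, FractionalIdeal.coe_one] at h
  exact h

end AKLB

section LocalBase

variable (K : Type*) [Field K] {A B : Type*} [CommRing A] [IsDedekindDomain A]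
  [CommRing B] [IsDedekindDomain B] [Algebra A B] [Module.Finite A B] [Module.IsTorsionFree A B]
  [Algebra K B]
  (F : Type*) [Field F] [Algebra B F] [IsFractionRing B F] [Algebra K F] [IsScalarTower K B F]

/-- The fractional ideal `t² B`. -/
noncomputable def sqIdeal (t : A) : FractionalIdeal B⁰ F :=
  FractionalIdeal.spanSingleton B⁰ (algebraMap B F (algebraMap A B t)) ^ 2

variable {F}

theorem sqIdeal_ne_zero (t : A) (ht : t ≠ 0) : sqIdeal (B := B) F t ≠ 0 := by
  have htB : algebraMap A B t ≠ 0 := by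
    rwa [Ne, map_eq_zero_iff _ (FaithfulSMul.algebraMap_injective A B)]
  have htF : algebraMap B F (algebraMap A B t) ≠ 0 := by
    rwa [Ne, map_eq_zero_iff _ (IsFractionRing.injective B F)]
  refine pow_ne_zero _ ?_
  rwa [Ne, FractionalIdeal.spanSingleton_eq_zero_iff]

/-- The multiplicities of `t² B`. -/
theorem count_sqIdeal (t : A) (ht : t ≠ 0)
    (hloc : ∀ p : Ideal A, p.IsMaximal → p = Ideal.span {t}) (v : HeightOneSpectrum B) :
    FractionalIdeal.count F v (sqIdeal (B := B) F t) = 2 * (eOver A v : ℤ) := by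
  classical
  have htB : algebraMap A B t ≠ 0 := by
    rwa [Ne, map_eq_zero_iff _ (FaithfulSMul.algebraMap_injective A B)]
  rw [sqIdeal, FractionalIdeal.count_pow, count_spanSingleton_algebraMap v _ htB,
    ← eOver_eq_count_span t hloc v]
  push_cast
  ring

/-- The multiplicities of `t² D⁻¹`, for an arbitrary nonzero ideal `D`. -/
theorem count_deltaInfIdeal_general (t : A) (ht : t ≠ 0)
    (hloc : ∀ p : Ideal A, p.IsMaximal → p = Ideal.span {t})
    (D : Ideal B) (hD0 : D ≠ ⊥) (v : HeightOneSpectrum B) :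
    FractionalIdeal.count F v (deltaInfIdeal F t D) =
      2 * (eOver A v : ℤ) - ((normalizedFactors D).count v.asIdeal : ℤ) := by
  have h1 : sqIdeal (B := B) F t ≠ 0 := sqIdeal_ne_zero t ht
  have h2 : ((D : FractionalIdeal B⁰ F))⁻¹ ≠ 0 := by
    refine inv_ne_zero ?_
    rwa [Ne, FractionalIdeal.coeIdeal_eq_zero]
  have e : deltaInfIdeal F t D = sqIdeal (B := B) F t * (D : FractionalIdeal B⁰ F)⁻¹ := rfl
  rw [e, FractionalIdeal.count_mul F v h1 h2, count_sqIdeal t ht hloc v,
    count_inv_coeIdeal v D hD0]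
  ring

/-- `t² B ≤ B`. -/
theorem sqIdeal_le_one (t : A) (ht : t ≠ 0)
    (hloc : ∀ p : Ideal A, p.IsMaximal → p = Ideal.span {t}) :
    sqIdeal (B := B) F t ≤ 1 := by
  rw [fractionalIdeal_le_iff_count_le (sqIdeal (B := B) F t) 1 (sqIdeal_ne_zero t ht) one_ne_zero]
  intro v
  rw [count_sqIdeal t ht hloc, FractionalIdeal.count_one]
  positivity

/-- `t² B ≤ t² D⁻¹`. -/
theorem sqIdeal_le_deltaInfIdeal (t : A) (ht : t ≠ 0)
    (hloc : ∀ p : Ideal A, p.IsMaximal → p = Ideal.span {t})
    (D : Ideal B) (hD0 : D ≠ ⊥) :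
    sqIdeal (B := B) F t ≤ deltaInfIdeal F t D := by
  classical
  rw [fractionalIdeal_le_iff_count_le (sqIdeal (B := B) F t) (deltaInfIdeal F t D)
    (sqIdeal_ne_zero t ht) (deltaInfIdeal_ne_zero t ht D hD0)]
  intro v
  rw [count_sqIdeal t ht hloc, count_deltaInfIdeal_general t ht hloc D hD0]
  have : (0 : ℤ) ≤ ((normalizedFactors D).count v.asIdeal : ℤ) := Int.natCast_nonneg _
  omega

/-- **Valuation description of `t² D⁻¹`**, general `D`. -/
theorem mem_deltaInfIdeal_iff_general (t : A) (ht : t ≠ 0)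
    (hloc : ∀ p : Ideal A, p.IsMaximal → p = Ideal.span {t})
    (D : Ideal B) (hD0 : D ≠ ⊥) (x : F) :
    x ∈ deltaInfIdeal F t D ↔ ∀ v : HeightOneSpectrum B,
      v.valuation F x ≤
        WithZero.exp (-(2 * (eOver A v : ℤ) - ((normalizedFactors D).count v.asIdeal : ℤ))) := by
  rw [mem_fractionalIdeal_iff_valuation_le _ (deltaInfIdeal_ne_zero t ht D hD0)]
  simp_rw [count_deltaInfIdeal_general t ht hloc D hD0]

/-- `dim_K (B / t² B) = ∑ᶠ v, 2 e_v`. -/
theorem finrank_one_quot_sqIdeal (t : A) (ht : t ≠ 0)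
    (hloc : ∀ p : Ideal A, p.IsMaximal → p = Ideal.span {t})
    (h1 : ∀ P : Ideal B, P.IsMaximal → finrank K (B ⧸ P) = 1) :
    (finrank K (↥((1 : FractionalIdeal B⁰ F) : Submodule B F) ⧸
        ((sqIdeal (B := B) F t : FractionalIdeal B⁰ F) : Submodule B F).comap
          ((1 : FractionalIdeal B⁰ F) : Submodule B F).subtype) : ℤ) =
      ∑ᶠ v : HeightOneSpectrum B, 2 * (eOver A v : ℤ) := by
  rw [finrank_fracQuot_eq_finsum K 1 (sqIdeal (B := B) F t) one_ne_zero
    (sqIdeal_ne_zero t ht) (sqIdeal_le_one t ht hloc) h1]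
  refine finsum_congr fun v => ?_
  rw [count_sqIdeal t ht hloc, FractionalIdeal.count_one, sub_zero]

theorem finite_one_quot_sqIdeal (t : A) (ht : t ≠ 0)
    (hloc : ∀ p : Ideal A, p.IsMaximal → p = Ideal.span {t})
    (h1 : ∀ P : Ideal B, P.IsMaximal → finrank K (B ⧸ P) = 1) :
    Module.Finite K (↥((1 : FractionalIdeal B⁰ F) : Submodule B F) ⧸
        ((sqIdeal (B := B) F t : FractionalIdeal B⁰ F) : Submodule B F).comap
          ((1 : FractionalIdeal B⁰ F) : Submodule B F).subtype) :=
  finite_fracQuot_of_le K 1 (sqIdeal (B := B) F t) one_ne_zero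
    (sqIdeal_ne_zero t ht) (sqIdeal_le_one t ht hloc) h1

/-- `dim_K (t² D⁻¹ / t² B) = ∑ᶠ v, v(D)`. -/
theorem finrank_deltaInfIdeal_quot_sqIdeal (t : A) (ht : t ≠ 0)
    (hloc : ∀ p : Ideal A, p.IsMaximal → p = Ideal.span {t})
    (D : Ideal B) (hD0 : D ≠ ⊥)
    (h1 : ∀ P : Ideal B, P.IsMaximal → finrank K (B ⧸ P) = 1) :
    (finrank K (↥((deltaInfIdeal F t D : FractionalIdeal B⁰ F) : Submodule B F) ⧸
        ((sqIdeal (B := B) F t : FractionalIdeal B⁰ F) : Submodule B F).comap
          ((deltaInfIdeal F t D : FractionalIdeal B⁰ F) : Submodule B F).subtype) : ℤ) =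
      ∑ᶠ v : HeightOneSpectrum B, ((normalizedFactors D).count v.asIdeal : ℤ) := by
  rw [finrank_fracQuot_eq_finsum K (deltaInfIdeal F t D) (sqIdeal (B := B) F t)
    (deltaInfIdeal_ne_zero t ht D hD0) (sqIdeal_ne_zero t ht)
    (sqIdeal_le_deltaInfIdeal t ht hloc D hD0) h1]
  refine finsum_congr fun v => ?_
  rw [count_sqIdeal t ht hloc, count_deltaInfIdeal_general t ht hloc D hD0]
  ring

theorem finite_deltaInfIdeal_quot_sqIdeal (t : A) (ht : t ≠ 0)
    (hloc : ∀ p : Ideal A, p.IsMaximal → p = Ideal.span {t})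
    (D : Ideal B) (hD0 : D ≠ ⊥)
    (h1 : ∀ P : Ideal B, P.IsMaximal → finrank K (B ⧸ P) = 1) :
    Module.Finite K (↥((deltaInfIdeal F t D : FractionalIdeal B⁰ F) : Submodule B F) ⧸
        ((sqIdeal (B := B) F t : FractionalIdeal B⁰ F) : Submodule B F).comap
          ((deltaInfIdeal F t D : FractionalIdeal B⁰ F) : Submodule B F).subtype) :=
  finite_fracQuot_of_le K (deltaInfIdeal F t D) (sqIdeal (B := B) F t)
    (deltaInfIdeal_ne_zero t ht D hD0) (sqIdeal_ne_zero t ht)
    (sqIdeal_le_deltaInfIdeal t ht hloc D hD0) h1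

end LocalBase

end Fermat.Agent.FF.RRDiff
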