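import Mathlib
import Fermat.Agent.X0.RR.EulerCompare

/-!
# L-FF (FF-5, part 0): comparing Euler characteristics of two dual pairs, general position

Pure linear algebra, generalising `X0/RR/EulerCompare.lean`: there the second lattice of the dual
pair was assumed to be *contained* in the second lattice of the original pair (`Li' ≤ Li`), which
is what happens for the canonical pair of a function field in characteristic zero (tame
ramification at infinity). In arbitrary characteristic `Li'` and `Li` need not be comparable, and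
we compare both with an auxiliary common sublattice `Lm ≤ Li ⊓ Li'`:

`2 h¹(Lf, Li) - 2 h⁰(Lf, Li) = dim Lf'/Lf + dim Li'/Lm - dim Li/Lm`

as soon as `h⁰(Lf', Li') = h¹(Lf, Li)` and `h¹(Lf', Li') = h⁰(Lf, Li)` (Serre duality).
-/

set_option autoImplicit false

namespace Fermat.Agent.FF.RRDiff

universe u v

variable {K : Type v} [Field K] {V : Type u} [AddCommGroup V] [Module K V]

open Module Fermat.Agent.X0.RR

/-- **Comparison of Euler characteristics through a common sublattice.** -/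
theorem euler_char_compare_via {Lf Lf' Li Li' Lm : Submodule K V} (hf : Lf ≤ Lf')
    (hm : Lm ≤ Li) (hm' : Lm ≤ Li')
    [Module.Finite K ↥(Lf ⊓ Li)] [Module.Finite K (V ⧸ (Lf ⊔ Li))]
    [Module.Finite K ↥(Lf' ⊓ Li')] [Module.Finite K (V ⧸ (Lf' ⊔ Li'))]
    [Module.Finite K (↥Lf' ⧸ Submodule.comap Lf'.subtype Lf)]
    [Module.Finite K (↥Li ⧸ Submodule.comap Li.subtype Lm)]
    [Module.Finite K (↥Li' ⧸ Submodule.comap Li'.subtype Lm)]
    (h0 : finrank K ↥(Lf' ⊓ Li') = finrank K (V ⧸ (Lf ⊔ Li)))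
    (h1 : finrank K (V ⧸ (Lf' ⊔ Li')) = finrank K ↥(Lf ⊓ Li)) :
    2 * (finrank K (V ⧸ (Lf ⊔ Li)) : ℤ) - 2 * (finrank K ↥(Lf ⊓ Li) : ℤ) =
      (finrank K (↥Lf' ⧸ Submodule.comap Lf'.subtype Lf) : ℤ) +
        (finrank K (↥Li' ⧸ Submodule.comap Li'.subtype Lm) : ℤ) -
          (finrank K (↥Li ⧸ Submodule.comap Li.subtype Lm) : ℤ) := by
  -- the two instances of additivity
  have ea := rank_inf_add_rank_quotient_sup (le_refl Lf) hm
  have eb := rank_inf_add_rank_quotient_sup hf hm'
  rw [relRank_self, add_zero] at ea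
  -- finiteness of the auxiliary pair
  have : Module.Finite K ↥(Lf ⊓ Lm) :=
    Submodule.finiteDimensional_of_le (inf_le_inf_left Lf hm)
  have hc1 : Module.Finite K (V ⧸ (Lf ⊔ Lm)) := by
    rw [← Module.rank_lt_aleph0_iff]
    have hlt : Module.rank K ↥(Lf ⊓ Li) + Module.rank K (V ⧸ (Lf ⊔ Lm)) < Cardinal.aleph0 := by
      rw [ea, relRank_eq_finrank_quotient, ← finrank_eq_rank, ← finrank_eq_rank]
      exact_mod_cast Cardinal.natCast_lt_aleph0
    exact lt_of_le_of_lt (self_le_add_left _ _) hlt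
  rw [relRank_eq_finrank_quotient, ← finrank_eq_rank, ← finrank_eq_rank, ← finrank_eq_rank,
    ← finrank_eq_rank] at ea
  rw [relRank_eq_finrank_quotient, relRank_eq_finrank_quotient, ← finrank_eq_rank,
    ← finrank_eq_rank, ← finrank_eq_rank, ← finrank_eq_rank] at eb
  have ea' : finrank K ↥(Lf ⊓ Li) + finrank K (V ⧸ (Lf ⊔ Lm)) =
      finrank K ↥(Lf ⊓ Lm) + finrank K (V ⧸ (Lf ⊔ Li)) +
        finrank K (↥Li ⧸ Submodule.comap Li.subtype Lm) := by
    exact_mod_cast ea
  have eb' : finrank K ↥(Lf' ⊓ Li') + finrank K (V ⧸ (Lf ⊔ Lm)) =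
      finrank K ↥(Lf ⊓ Lm) + finrank K (V ⧸ (Lf' ⊔ Li')) +
        finrank K (↥Lf' ⧸ Submodule.comap Lf'.subtype Lf) +
          finrank K (↥Li' ⧸ Submodule.comap Li'.subtype Lm) := by
    exact_mod_cast eb
  omega

end Fermat.Agent.FF.RRDiff
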