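import Mathlib
import Fermat.Agent.FF.RRCoreDiffEuler
import Fermat.Agent.FF.RRCoreDiffDedekind
import Fermat.Agent.X0.RR.CoreTrace
import Fermat.Agent.X0.RR.TraceDualLattice
import Fermat.Agent.X0.RR.SetupEOver

/-!
# L-FF (FF-5): Riemann–Roch for the pair `(Bf, Binf)` with different exponents, any characteristic

Coordinate context: `K` algebraically closed of ANY characteristic, `F` a finite SEPARABLE
extension of `RatFunc K`, `n = [F : RatFunc K]`, `Bf K F`, `Binf K F` the integral closures of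
`K[X]` and of `Rinf K` in `F`, `d_v = diffExp K[X] v`, `d_w = diffExp (Rinf K) w` the different
exponents (`FF/DiffExp.lean`). With `h¹ = dim_K F ⧸ (Bf + Binf)` (`= genusFF K F` by
`FF/AdeleCoord.lean`):

* `two_mul_finrank_quotient_sub_two` **(RH-x)** :
  `2 h¹ - 2 = ∑ᶠ v, d_v + ∑ᶠ w, d_w - 2 n`;
* `finrank_HOL_eq_finrank_quotient` (Serre duality): `dim_K HOL = h¹`, where
  `HOL = Bf^* ∩ X⁻² Binf^*` (the functions `h` with `h dx` holomorphic);
* `mem_HOL_iff_diffExp` : `h ∈ HOL ↔ (∀ v, v(h) ≥ -d_v) ∧ (∀ w, w(h) ≥ 2 e_w - d_w)`;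
* `finrank_dualF_quot_diffExp` : `dim_K (Bf^* / Bf) = ∑ᶠ v, d_v`;
* `finrank_dualInf_quot_sqInfK`, `finrank_BinfK_quot_sqInfK` :
  `dim_K (X⁻² Binf^* / X⁻² Binf) = ∑ᶠ w, d_w`, `dim_K (Binf / X⁻² Binf) = 2 n`.

This is the characteristic free version of `X0/RR/Core.lean` (where `d = e - 1`); in the wild case
`X⁻² Binf^*` need not be contained in `Binf`, so the two are compared through `X⁻² Binf`
(`FF/RRCoreDiffEuler.lean`).
-/

set_option autoImplicit false
set_option linter.unusedSectionVars false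

open Polynomial Module IsDedekindDomain
open scoped nonZeroDivisors

namespace Fermat.Agent.FF.RRDiff

open Fermat.Agent.X0.RR Fermat.Agent.FF

variable (K F : Type*) [Field K] [Field F] [Algebra K[X] F] [Algebra (RatFunc K) F]
  [IsScalarTower K[X] (RatFunc K) F] [Algebra K F] [IsScalarTower K (RatFunc K) F]
  [IsAlgClosed K] [FiniteDimensional (RatFunc K) F] [Algebra.IsSeparable (RatFunc K) F]

/-! ### Coordinates and Serre duality -/

/-- Bases adapted to `Bf` and `Binf`. -/
theorem exists_bases_BfK_BinfK_sep :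
    ∃ β γ : Basis (Fin (finrank (RatFunc K) F)) (RatFunc K) F,
      latF β = BfK K F ∧ latInf γ 0 = BinfK K F := by
  obtain ⟨β, hβ⟩ := Bf.exists_basis K F
  obtain ⟨γ, hγ⟩ := Binf.exists_basis K F
  refine ⟨β, γ, ?_, ?_⟩
  · ext h
    rw [mem_latF_iff_mem_span, hβ]
    rfl
  · ext h
    rw [mem_latInf_zero_iff_mem_span, hγ]
    rfl

variable {K F}

theorem latF_dualBasis_eq_dualF_sep {ι : Type*} [Fintype ι] [DecidableEq ι]
    (β : Basis ι (RatFunc K) F) (hβ : latF β = BfK K F) :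
    latF ((Algebra.traceForm (RatFunc K) F).dualBasis (traceForm_nondegenerate (RatFunc K) F) β) =
      dualF K F := by
  ext h
  rw [mem_latF_dualBasis_iff, hβ]
  rfl

theorem latInf_dualBasis_eq_dualInf_sep {ι : Type*} [Fintype ι] [DecidableEq ι]
    (γ : Basis ι (RatFunc K) F) (hγ : latInf γ 0 = BinfK K F) :
    latInf ((Algebra.traceForm (RatFunc K) F).dualBasis (traceForm_nondegenerate (RatFunc K) F) γ)
      (fun _ => -2) = dualInf K F := by
  ext h
  have := mem_latInf_dualBasis_shift_iff (Algebra.traceForm (RatFunc K) F)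
    (traceForm_nondegenerate (RatFunc K) F) γ 0 (-2) h
  rw [hγ] at this
  have e : (fun i : ι => -(0 : ι → ℤ) i + -2) = fun _ => -2 := by
    funext i; simp
  rw [e] at this
  rw [this]
  rfl

/-- `Bf ⊆ Bf^*`. -/
theorem BfK_le_dualF_sep : BfK K F ≤ dualF K F := by
  intro h hh u hu
  have hint : IsIntegral K[X] (h * u) := (Bf K F).mul_mem hh hu
  have := Algebra.isIntegral_trace (L := RatFunc K) (F := F) hint
  obtain ⟨p, hp⟩ := IsIntegrallyClosed.isIntegral_iff.mp this
  exact ⟨p, hp⟩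

/-- (CONST): `Bf ∩ Binf = K`. -/
theorem finrank_BfK_inf_BinfK_sep : finrank K ↥(BfK K F ⊓ BinfK K F) = 1 := by
  have : BfK K F ⊓ BinfK K F = Submodule.span K {(1 : F)} := by
    ext h
    rw [Submodule.mem_inf, mem_BfK, mem_BinfK, Submodule.mem_span_singleton]
    constructor
    · rintro ⟨h1, h2⟩
      obtain ⟨c, rfl⟩ := exists_eq_algebraMap_of_mem_Bf_of_mem_Binf h1 h2
      exact ⟨c, by rw [Algebra.smul_def, mul_one]⟩
    · rintro ⟨c, rfl⟩
      rw [Algebra.smul_def, mul_one]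
      refine ⟨?_, ?_⟩
      · rw [IsScalarTower.algebraMap_apply K K[X] F]
        exact (Bf K F).algebraMap_mem _
      · rw [IsScalarTower.algebraMap_apply K (Rinf K) F]
        exact (Binf K F).algebraMap_mem _
  rw [this]
  exact finrank_span_singleton one_ne_zero

/-- Serre duality and finiteness for a lattice pair and its dual pair, the four lattices being
given as arbitrary submodules. -/
theorem serre_duality_of_eq {ι : Type*} [Fintype ι] [DecidableEq ι]
    {V : Type*} [AddCommGroup V] [Module (RatFunc K) V] [Module K V]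
    [IsScalarTower K (RatFunc K) V]
    (B : LinearMap.BilinForm (RatFunc K) V) (hB : B.Nondegenerate)
    (β γ : Module.Basis ι (RatFunc K) V) {Lf Lf' Li Li' : Submodule K V}
    (hLf : latF β = Lf) (hLf' : latF (B.dualBasis hB β) = Lf')
    (hLi : latInf γ 0 = Li) (hLi' : latInf (B.dualBasis hB γ) (fun _ => -2) = Li') :
    Module.Finite K ↥(Lf ⊓ Li) ∧ Module.Finite K (V ⧸ (Lf ⊔ Li)) ∧
    Module.Finite K ↥(Lf' ⊓ Li') ∧ Module.Finite K (V ⧸ (Lf' ⊔ Li')) ∧
    finrank K ↥(Lf' ⊓ Li') = finrank K (V ⧸ (Lf ⊔ Li)) ∧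
    finrank K (V ⧸ (Lf' ⊔ Li')) = finrank K ↥(Lf ⊓ Li) := by
  subst hLf hLf' hLi hLi'
  exact ⟨finite_latF_inf_latInf_zero β γ, finite_quotient_latF_sup_latInf_zero β γ,
    finite_dual_inf B hB β γ, finite_dual_quotient B hB β γ,
    finrank_dual_inf B hB β γ, finrank_dual_quotient B hB β γ⟩

variable (K F)

/-- Serre duality and finiteness for `(Bf, Binf)` and `(Bf^*, X⁻² Binf^*)`. -/
theorem serre_duality_Bf_Binf :
    Module.Finite K ↥(BfK K F ⊓ BinfK K F) ∧ Module.Finite K (F ⧸ (BfK K F ⊔ BinfK K F)) ∧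
    Module.Finite K ↥(dualF K F ⊓ dualInf K F) ∧
    Module.Finite K (F ⧸ (dualF K F ⊔ dualInf K F)) ∧
    finrank K ↥(dualF K F ⊓ dualInf K F) = finrank K (F ⧸ (BfK K F ⊔ BinfK K F)) ∧
    finrank K (F ⧸ (dualF K F ⊔ dualInf K F)) = finrank K ↥(BfK K F ⊓ BinfK K F) := by
  obtain ⟨β, γ, hβ, hγ⟩ := exists_bases_BfK_BinfK_sep K F
  exact serre_duality_of_eq (Algebra.traceForm (RatFunc K) F)
    (traceForm_nondegenerate (RatFunc K) F) β γ hβ (latF_dualBasis_eq_dualF_sep β hβ) hγ
    (latInf_dualBasis_eq_dualInf_sep γ hγ)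

/-- `F ⧸ (Bf + Binf)` is finite dimensional over `K`. -/
theorem finite_quotient_BfK_sup_BinfK : Module.Finite K (F ⧸ (BfK K F ⊔ BinfK K F)) :=
  (serre_duality_Bf_Binf K F).2.1

/-- `HOL K F` is finite dimensional over `K`. -/
theorem finite_HOL_sep : Module.Finite K ↥(HOL K F) :=
  (serre_duality_Bf_Binf K F).2.2.1

/-- **Serre duality**: `dim_K HOL = dim_K F ⧸ (Bf + Binf)`. -/
theorem finrank_HOL_eq_finrank_quotient :
    finrank K ↥(HOL K F) = finrank K (F ⧸ (BfK K F ⊔ BinfK K F)) :=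
  (serre_duality_Bf_Binf K F).2.2.2.2.1

/-! ### The finite half -/

/-- `dualF K F` is the trace dual of `Bf K F`, with scalars restricted to `K`. -/
theorem dualF_eq_restrictScalars_traceDual_sep :
    dualF K F =
      (Submodule.traceDual K[X] (RatFunc K) (1 : Submodule (Bf K F) F)).restrictScalars K := by
  ext h
  rw [Submodule.restrictScalars_mem, Submodule.mem_traceDual, mem_dualF]
  constructor
  · intro hh a ha
    obtain ⟨b, rfl⟩ := Submodule.mem_one.mp ha
    rw [Algebra.traceForm_apply]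
    obtain ⟨p, hp⟩ := mem_polySub.mp (hh (b : F) b.2)
    exact ⟨p, hp⟩
  · intro hh u hu
    have := hh u (Submodule.mem_one.mpr ⟨⟨u, hu⟩, rfl⟩)
    rw [Algebra.traceForm_apply] at this
    obtain ⟨p, hp⟩ := this
    exact mem_polySub.mpr ⟨p, hp⟩

/-- `BfK K F` is the unit submodule of `F` over `Bf K F`, with scalars restricted to `K`. -/
theorem BfK_eq_restrictScalars_one_sep :
    BfK K F = (1 : Submodule (Bf K F) F).restrictScalars K := by
  ext h
  rw [Submodule.restrictScalars_mem, mem_BfK, Submodule.mem_one]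
  constructor
  · intro hh
    exact ⟨⟨h, hh⟩, rfl⟩
  · rintro ⟨b, rfl⟩
    exact b.2

/-- Valuation description of the trace dual of `Bf`: `h ∈ Bf^* ↔ ∀ v, v(h) ≥ - d_v`. -/
theorem mem_dualF_iff_diffExp (h : F) :
    h ∈ dualF K F ↔ ∀ v : HeightOneSpectrum (Bf K F),
      v.valuation F h ≤ WithZero.exp (diffExp K[X] v : ℤ) := by
  rw [dualF_eq_restrictScalars_traceDual_sep, Submodule.restrictScalars_mem]
  exact mem_traceDual_one_iff_diffExp K[X] (RatFunc K) F h

/-- Transport of quotients along equalities of submodules. -/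
theorem finrank_quot_congr_sep {V : Type*} [AddCommGroup V] [Module K V]
    {W W' U U' : Submodule K V} (hW : W = W') (hU : U = U') :
    finrank K (↥W ⧸ Submodule.comap W.subtype U) =
      finrank K (↥W' ⧸ Submodule.comap W'.subtype U') := by
  subst hW hU
  rfl

/-- Transport of finiteness of quotients along equalities of submodules. -/
theorem finite_quot_congr_sep {V : Type*} [AddCommGroup V] [Module K V]
    {W W' U U' : Submodule K V} (hW : W = W') (hU : U = U')
    (h : Module.Finite K (↥W' ⧸ Submodule.comap W'.subtype U')) :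
    Module.Finite K (↥W ⧸ Submodule.comap W.subtype U) := by
  subst hW hU
  exact h

/-- `Bf^* / Bf` is finite dimensional over `K`. -/
theorem finite_dualF_quot_sep :
    Module.Finite K (↥(dualF K F) ⧸ Submodule.comap (dualF K F).subtype (BfK K F)) := by
  refine finite_quot_congr_sep K (dualF_eq_restrictScalars_traceDual_sep K F)
    (BfK_eq_restrictScalars_one_sep K F) ?_
  have h1 : ∀ P : Ideal (Bf K F), P.IsMaximal → finrank K (Bf K F ⧸ P) = 1 :=
    fun P hP => Bf.finrank_quotient P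
  have := finite_traceDual_quot K K[X] (RatFunc K) F (B := Bf K F) h1
  exact Module.Finite.equiv
    (restrictScalarsQuotEquiv K (Submodule.traceDual K[X] (RatFunc K) (1 : Submodule (Bf K F) F))
      (1 : Submodule (Bf K F) F)).symm

/-- **Finite half**: `dim_K (Bf^* / Bf) = ∑ᶠ v, d_v`. -/
theorem finrank_dualF_quot_diffExp :
    (finrank K (↥(dualF K F) ⧸ Submodule.comap (dualF K F).subtype (BfK K F)) : ℤ) =
      ∑ᶠ v : HeightOneSpectrum (Bf K F), (diffExp K[X] v : ℤ) := by
  rw [finrank_quot_congr_sep K (dualF_eq_restrictScalars_traceDual_sep K F)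
    (BfK_eq_restrictScalars_one_sep K F)]
  have h1 : ∀ P : Ideal (Bf K F), P.IsMaximal → finrank K (Bf K F ⧸ P) = 1 :=
    fun P hP => Bf.finrank_quotient P
  rw [(restrictScalarsQuotEquiv K
    (Submodule.traceDual K[X] (RatFunc K) (1 : Submodule (Bf K F) F))
      (1 : Submodule (Bf K F) F)).finrank_eq]
  exact finrank_traceDual_quot_one_diffExp K K[X] (RatFunc K) F (B := Bf K F) h1

/-! ### The infinite half -/

/-- The different of `Binf` over `Rinf`. -/
noncomputable abbrev diffInfS : Ideal (Binf K F) := differentIdeal ↥(Rinf K) (Binf K F)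

theorem hloc_Rinf_sep :
    ∀ p : Ideal ↥(Rinf K), p.IsMaximal → p = Ideal.span {(Xinv : ↥(Rinf K))} := by
  intro p hp
  rw [IsLocalRing.eq_maximalIdeal hp, maximalIdeal_Rinf_eq_span]

theorem diffInfS_ne_bot : diffInfS K F ≠ ⊥ :=
  differentIdeal_ne_bot_of_isFractionRing ↥(Rinf K) (RatFunc K) (L := F) (B := Binf K F)

/-- The multiplicity of `w` in the different at infinity is `d_w`. -/
theorem count_diffInfS (w : HeightOneSpectrum (Binf K F)) :
    ((UniqueFactorizationMonoid.normalizedFactors (diffInfS K F)).count w.asIdeal : ℤ) =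
      (diffExp ↥(Rinf K) w : ℤ) := by
  rw [diffExp_eq_count]

/-- The image of `Xinv` in `F` is `X⁻¹`. -/
theorem algebraMap_Xinv_sep :
    algebraMap (Binf K F) F (algebraMap ↥(Rinf K) (Binf K F) Xinv) =
      algebraMap (RatFunc K) F (RatFunc.X)⁻¹ := by
  rw [← IsScalarTower.algebraMap_apply ↥(Rinf K) (Binf K F) F,
    IsScalarTower.algebraMap_apply ↥(Rinf K) (RatFunc K) F]
  rfl

/-- `dualInf K F` is the fractional ideal `(X⁻¹)² 𝔇_∞⁻¹`. -/
theorem dualInf_eq_restrictScalars_deltaInfIdeal_sep :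
    dualInf K F =
      ((deltaInfIdeal F (Xinv : ↥(Rinf K)) (diffInfS K F) : FractionalIdeal (Binf K F)⁰ F) :
        Submodule (Binf K F) F).restrictScalars K := by
  have hX : algebraMap (RatFunc K) F (RatFunc.X : RatFunc K) ≠ 0 := by
    rw [Ne, map_eq_zero]; exact RatFunc.X_ne_zero
  ext h
  rw [Submodule.restrictScalars_mem, FractionalIdeal.mem_coe, deltaInfIdeal,
    FractionalIdeal.spanSingleton_pow, FractionalIdeal.mem_singleton_mul, mem_dualInf]
  -- membership in `𝔇⁻¹` is membership in the trace dual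
  have hmem : ∀ y : F, y ∈ ((diffInfS K F : FractionalIdeal (Binf K F)⁰ F))⁻¹ ↔
      ∀ u ∈ Binf K F, Algebra.trace (RatFunc K) F (y * u) ∈ Rinf K := by
    intro y
    rw [← FractionalIdeal.mem_coe,
      coe_inv_differentIdeal_eq_traceDual ↥(Rinf K) (RatFunc K) F,
      TraceDualLattice.mem_traceDual_Binf_iff]
    rfl
  rw [algebraMap_Xinv_sep]
  constructor
  · intro hh
    refine ⟨algebraMap (RatFunc K) F (RatFunc.X) ^ 2 * h, (hmem _).mpr fun u hu => ?_, ?_⟩
    · have := hh u hu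
      rw [intDegLE_iff_mul_X_zpow_mem_Rinf] at this
      have e : algebraMap (RatFunc K) F RatFunc.X ^ 2 * h * u =
          ((RatFunc.X : RatFunc K) ^ 2) • (h * u) := by
        rw [Algebra.smul_def, map_pow, mul_assoc]
      rw [e, map_smul, smul_eq_mul, mul_comm]
      simpa using this
    · rw [map_inv₀, inv_pow, ← mul_assoc, inv_mul_cancel₀ (pow_ne_zero 2 hX), one_mul]
  · rintro ⟨y, hy, rfl⟩ u hu
    have := (hmem y).mp hy u hu
    rw [intDegLE_iff_mul_X_zpow_mem_Rinf]
    have e : algebraMap (RatFunc K) F (RatFunc.X)⁻¹ ^ 2 * y * u =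
        (((RatFunc.X : RatFunc K))⁻¹ ^ 2) • (y * u) := by
      rw [Algebra.smul_def, map_pow, mul_assoc]
    rw [e, map_smul, smul_eq_mul]
    have hXq : (RatFunc.X : RatFunc K) ≠ 0 := RatFunc.X_ne_zero
    have e2 : (RatFunc.X : RatFunc K)⁻¹ ^ 2 * Algebra.trace (RatFunc K) F (y * u) *
        RatFunc.X ^ (-(-2 : ℤ)) = Algebra.trace (RatFunc K) F (y * u) := by
      rw [neg_neg, zpow_ofNat]
      field_simp
    rw [e2]
    exact this

/-- `BinfK K F` is the unit submodule of `F` over `Binf K F`, with scalars restricted to `K`. -/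
theorem BinfK_eq_restrictScalars_one_sep :
    BinfK K F =
      (((1 : FractionalIdeal (Binf K F)⁰ F) : Submodule (Binf K F) F)).restrictScalars K := by
  ext h
  rw [Submodule.restrictScalars_mem, mem_BinfK, FractionalIdeal.coe_one, Submodule.mem_one]
  constructor
  · intro hh
    exact ⟨⟨h, hh⟩, rfl⟩
  · rintro ⟨b, rfl⟩
    exact b.2

/-- The lattice `X⁻² Binf`, as a `K`-subspace of `F`. -/
noncomputable def sqInfK : Submodule K F :=
  ((sqIdeal (B := Binf K F) F (Xinv : ↥(Rinf K)) : FractionalIdeal (Binf K F)⁰ F) :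
    Submodule (Binf K F) F).restrictScalars K

theorem sqInfK_le_BinfK : sqInfK K F ≤ BinfK K F := by
  rw [BinfK_eq_restrictScalars_one_sep]
  intro h hh
  rw [sqInfK, Submodule.restrictScalars_mem] at hh
  rw [Submodule.restrictScalars_mem]
  exact sqIdeal_le_one (Xinv : ↥(Rinf K)) Xinv_ne_zero (hloc_Rinf_sep K) hh

theorem sqInfK_le_dualInf : sqInfK K F ≤ dualInf K F := by
  rw [dualInf_eq_restrictScalars_deltaInfIdeal_sep]
  intro h hh
  rw [sqInfK, Submodule.restrictScalars_mem] at hh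
  rw [Submodule.restrictScalars_mem]
  exact sqIdeal_le_deltaInfIdeal (Xinv : ↥(Rinf K)) Xinv_ne_zero (hloc_Rinf_sep K)
    (diffInfS K F) (diffInfS_ne_bot K F) hh

/-- Valuation description of `X⁻² Binf^*`: `h ∈ X⁻² Binf^* ↔ ∀ w, w(h) ≥ 2 e_w - d_w`. -/
theorem mem_dualInf_iff_diffExp (h : F) :
    h ∈ dualInf K F ↔ ∀ w : HeightOneSpectrum (Binf K F),
      w.valuation F h ≤
        WithZero.exp (-(2 * (eOver ↥(Rinf K) w : ℤ) - (diffExp ↥(Rinf K) w : ℤ))) := by
  rw [dualInf_eq_restrictScalars_deltaInfIdeal_sep, Submodule.restrictScalars_mem,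
    FractionalIdeal.mem_coe,
    mem_deltaInfIdeal_iff_general (Xinv : ↥(Rinf K)) Xinv_ne_zero (hloc_Rinf_sep K)
      (diffInfS K F) (diffInfS_ne_bot K F) h]
  simp_rw [count_diffInfS]

theorem finite_BinfK_quot_sqInfK :
    Module.Finite K (↥(BinfK K F) ⧸ Submodule.comap (BinfK K F).subtype (sqInfK K F)) := by
  refine finite_quot_congr_sep K (BinfK_eq_restrictScalars_one_sep K F) rfl ?_
  have h1 : ∀ P : Ideal (Binf K F), P.IsMaximal → finrank K (Binf K F ⧸ P) = 1 :=
    fun P hP => Binf.finrank_quotient P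
  have := finite_one_quot_sqIdeal K (F := F) (Xinv : ↥(Rinf K)) Xinv_ne_zero (hloc_Rinf_sep K) h1
  exact Module.Finite.equiv (restrictScalarsQuotEquiv K _ _).symm

/-- `dim_K (Binf / X⁻² Binf) = 2 n`. -/
theorem finrank_BinfK_quot_sqInfK :
    (finrank K (↥(BinfK K F) ⧸ Submodule.comap (BinfK K F).subtype (sqInfK K F)) : ℤ) =
      2 * (finrank (RatFunc K) F : ℤ) := by
  rw [finrank_quot_congr_sep K (BinfK_eq_restrictScalars_one_sep K F) (rfl : sqInfK K F = _)]
  have h1 : ∀ P : Ideal (Binf K F), P.IsMaximal → finrank K (Binf K F ⧸ P) = 1 :=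
    fun P hP => Binf.finrank_quotient P
  rw [sqInfK, (restrictScalarsQuotEquiv K _ _).finrank_eq,
    finrank_one_quot_sqIdeal K (Xinv : ↥(Rinf K)) Xinv_ne_zero (hloc_Rinf_sep K) h1,
    ← Binf.finsum_eOver (K := K) (F := F)]
  let _ := Fintype.ofFinite (HeightOneSpectrum (Binf K F))
  rw [finsum_eq_sum_of_fintype, finsum_eq_sum_of_fintype, Finset.mul_sum]

theorem finite_dualInf_quot_sqInfK :
    Module.Finite K (↥(dualInf K F) ⧸ Submodule.comap (dualInf K F).subtype (sqInfK K F)) := by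
  refine finite_quot_congr_sep K (dualInf_eq_restrictScalars_deltaInfIdeal_sep K F) rfl ?_
  have h1 : ∀ P : Ideal (Binf K F), P.IsMaximal → finrank K (Binf K F ⧸ P) = 1 :=
    fun P hP => Binf.finrank_quotient P
  have := finite_deltaInfIdeal_quot_sqIdeal K (F := F) (Xinv : ↥(Rinf K)) Xinv_ne_zero
    (hloc_Rinf_sep K) (diffInfS K F) (diffInfS_ne_bot K F) h1
  exact Module.Finite.equiv (restrictScalarsQuotEquiv K _ _).symm

/-- **Infinite half**: `dim_K (X⁻² Binf^* / X⁻² Binf) = ∑ᶠ w, d_w`. -/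
theorem finrank_dualInf_quot_sqInfK :
    (finrank K (↥(dualInf K F) ⧸ Submodule.comap (dualInf K F).subtype (sqInfK K F)) : ℤ) =
      ∑ᶠ w : HeightOneSpectrum (Binf K F), (diffExp ↥(Rinf K) w : ℤ) := by
  rw [finrank_quot_congr_sep K (dualInf_eq_restrictScalars_deltaInfIdeal_sep K F)
    (rfl : sqInfK K F = _)]
  have h1 : ∀ P : Ideal (Binf K F), P.IsMaximal → finrank K (Binf K F ⧸ P) = 1 :=
    fun P hP => Binf.finrank_quotient P
  rw [sqInfK, (restrictScalarsQuotEquiv K _ _).finrank_eq,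
    finrank_deltaInfIdeal_quot_sqIdeal K (Xinv : ↥(Rinf K)) Xinv_ne_zero (hloc_Rinf_sep K)
      (diffInfS K F) (diffInfS_ne_bot K F) h1]
  exact finsum_congr fun w => count_diffInfS K F w

/-! ### Assembly -/

/-- Valuation description of `HOL`. -/
theorem mem_HOL_iff_diffExp (h : F) :
    h ∈ HOL K F ↔
      (∀ v : HeightOneSpectrum (Bf K F),
        v.valuation F h ≤ WithZero.exp (diffExp K[X] v : ℤ)) ∧
      (∀ w : HeightOneSpectrum (Binf K F),
        w.valuation F h ≤
          WithZero.exp (-(2 * (eOver ↥(Rinf K) w : ℤ) - (diffExp ↥(Rinf K) w : ℤ)))) := by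
  unfold HOL
  rw [Submodule.mem_inf, mem_dualF_iff_diffExp, mem_dualInf_iff_diffExp]

/-- **(RH-x)** Riemann–Roch for the pair `(Bf, Binf)` with different exponents:
`2 dim_K F ⧸ (Bf + Binf) - 2 = ∑ᶠ v, d_v + ∑ᶠ w, d_w - 2 n`. -/
theorem two_mul_finrank_quotient_sub_two :
    2 * (finrank K (F ⧸ (BfK K F ⊔ BinfK K F)) : ℤ) - 2 =
      ∑ᶠ v : HeightOneSpectrum (Bf K F), (diffExp K[X] v : ℤ) +
        ∑ᶠ w : HeightOneSpectrum (Binf K F), (diffExp ↥(Rinf K) w : ℤ) -
          2 * (finrank (RatFunc K) F : ℤ) := by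
  obtain ⟨i1, i2, i3, i4, h0, h1⟩ := serre_duality_Bf_Binf K F
  have := finite_dualF_quot_sep K F
  have := finite_BinfK_quot_sqInfK K F
  have := finite_dualInf_quot_sqInfK K F
  have key := euler_char_compare_via (K := K) (V := F) (BfK_le_dualF_sep (K := K) (F := F))
    (sqInfK_le_BinfK K F) (sqInfK_le_dualInf K F) h0 h1
  rw [finrank_BfK_inf_BinfK_sep, finrank_dualF_quot_diffExp, finrank_dualInf_quot_sqInfK,
    finrank_BinfK_quot_sqInfK, Nat.cast_one, mul_one] at key
  exact key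

/-- **(RH-x)**, in terms of `HOL`: `2 dim_K HOL - 2 = ∑ᶠ v, d_v + ∑ᶠ w, d_w - 2 n`. -/
theorem two_mul_finrank_HOL_sub_two_diffExp :
    2 * (finrank K ↥(HOL K F) : ℤ) - 2 =
      ∑ᶠ v : HeightOneSpectrum (Bf K F), (diffExp K[X] v : ℤ) +
        ∑ᶠ w : HeightOneSpectrum (Binf K F), (diffExp ↥(Rinf K) w : ℤ) -
          2 * (finrank (RatFunc K) F : ℤ) := by
  rw [finrank_HOL_eq_finrank_quotient]
  exact two_mul_finrank_quotient_sub_two K F

end Fermat.Agent.FF.RRDiff
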