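import Mathlib
import Fermat.Agent.FF.RRCoreDiff
import Fermat.Agent.FF.AdeleCoord

/-!
# L-FF (FF-5, corollary): (RH-x) for the Prelude genus

Coordinate context of `FF/AdeleCoord.lean` (`F` finite separable over `RatFunc K`, `K`
algebraically closed of any characteristic), `n = [F : RatFunc K]`, `d_v = diffExp K[X] v`,
`d_w = diffExp (Rinf K) w`:

* `two_mul_genusFF_sub_two_coord` **(RH-x)** :
  `2 genusFF K F - 2 = ∑ᶠ v, d_v + ∑ᶠ w, d_w - 2 n`;
* `genusFF_eq_finrank_HOL` : `genusFF K F = dim_K HOL` (`HOL = Bf^* ∩ X⁻² Binf^*`, the functions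
  `h` with `h dx` holomorphic; valuation description: `RRDiff.mem_HOL_iff_diffExp`).
-/

set_option autoImplicit false
set_option linter.unusedSectionVars false

open AlgebraicCurve Polynomial Module IsDedekindDomain FunctionField

namespace Fermat.Agent.FF.RRDiff

open Fermat.Agent.X0.RR Fermat.Agent.FF

variable (K F : Type*) [Field K] [Field F] [Algebra K F]
  [Algebra K[X] F] [Algebra (RatFunc K) F] [IsScalarTower K[X] (RatFunc K) F]
  [IsScalarTower K K[X] F] [IsScalarTower K (RatFunc K) F]
  [FunctionField K F] [Algebra.IsSeparable (RatFunc K) F] [IsAlgClosed K]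

/-- **(RH-x)** for the Prelude genus:
`2 genusFF K F - 2 = ∑ᶠ v, d_v + ∑ᶠ w, d_w - 2 n`. -/
theorem two_mul_genusFF_sub_two_coord :
    2 * (genusFF K F : ℤ) - 2 =
      ∑ᶠ v : HeightOneSpectrum (Bf K F), (diffExp K[X] v : ℤ) +
        ∑ᶠ w : HeightOneSpectrum (Binf K F), (diffExp ↥(Rinf K) w : ℤ) -
          2 * (finrank (RatFunc K) F : ℤ) := by
  rw [Adele.genusFF_eq_finrank_quotient K F]
  exact two_mul_finrank_quotient_sub_two K F

/-- The Prelude genus is the dimension of the space of holomorphic differentials `HOL`. -/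
theorem genusFF_eq_finrank_HOL : genusFF K F = finrank K ↥(HOL K F) := by
  rw [Adele.genusFF_eq_finrank_quotient K F, finrank_HOL_eq_finrank_quotient]

end Fermat.Agent.FF.RRDiff
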