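/-
L-FF / FF-ABH (Abhyankar's lemma, characteristic free), part 1: **the group-theoretic core.**

`I` a finite group (an inertia group), `P ⊴ I` with `I ⧸ P` cyclic (the wild inertia subgroup and
the tame quotient), `A B ≤ I` (the subgroups cutting out two subextensions) such that `[I : A]` is
prime to `|P|` (tameness of the first subextension). Then
`[I : A ∩ B] = lcm ([I : A], [I : B])` (`index_inf_eq_lcm_of_coprime`), i.e. the ramification
index in the compositum is the lcm of the ramification indices.

Auxiliary: in a finite cyclic group a subgroup of order `h` is the kernel of `x ↦ x ^ h`, a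
subgroup of index `d` is the set of `d`-th powers; `[AP : A] = [P : A ∩ P]` for `P` normal; a normal
subgroup of order prime to `[I : A]` lies in `A`.
-/
import Mathlib

set_option autoImplicit false
set_option linter.style.haveILetI false
set_option linter.unusedSectionVars false

namespace Fermat.Agent.FF

open Subgroup

section Cyclic

variable {C : Type*} [CommGroup C] [IsCyclic C] [Finite C]

/-- In a finite cyclic group, a subgroup is the kernel of the power map by its order. -/
theorem eq_ker_powMonoidHom_card (H : Subgroup C) :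
    H = (powMonoidHom (Nat.card H) : C →* C).ker := by
  have hle : H ≤ (powMonoidHom (Nat.card H) : C →* C).ker := by
    intro x hx
    rw [MonoidHom.mem_ker, powMonoidHom_apply]
    have := pow_card_eq_one' (G := H) (x := ⟨x, hx⟩)
    exact congrArg Subtype.val this
  refine Subgroup.eq_of_le_of_card_ge hle ?_
  rw [IsCyclic.card_powMonoidHom_ker]
  exact Nat.le_of_dvd Nat.card_pos (Nat.gcd_dvd_right _ _)

/-- In a finite cyclic group, a subgroup of index `d` consists of the `d`-th powers. -/
theorem eq_range_powMonoidHom_index (H : Subgroup C) :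
    H = (powMonoidHom H.index : C →* C).range := by
  symm
  have hle : (powMonoidHom H.index : C →* C).range ≤ H := by
    rintro _ ⟨x, rfl⟩
    refine (SetLike.ext_iff.1 (eq_ker_powMonoidHom_card H) _).2 ?_
    rw [MonoidHom.mem_ker, powMonoidHom_apply, powMonoidHom_apply, ← pow_mul, mul_comm,
      H.card_mul_index]
    exact pow_card_eq_one'
  refine Subgroup.eq_of_le_of_card_ge hle ?_
  rw [IsCyclic.card_powMonoidHom_range, Nat.gcd_eq_right (H.index_dvd_card)]
  have h := H.card_mul_index
  have hpos : 0 < H.index := Nat.pos_of_ne_zero (Subgroup.index_ne_zero_of_finite)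
  rw [← h, Nat.mul_div_cancel _ hpos]

end Cyclic

section Main

variable {I : Type*} [Group I] [Finite I] (P : Subgroup I) [P.Normal]

/-- `[AP : A] = [P : A ∩ P]` for a normal subgroup `P` (finite group). -/
theorem relIndex_sup_eq_relIndex (A : Subgroup I) : A.relIndex (A ⊔ P) = A.relIndex P := by
  have hM : (A ⊔ P).index ≠ 0 := Subgroup.index_ne_zero_of_finite
  have hPA : P.relIndex A ≠ 0 := by
    intro h
    exact Subgroup.index_ne_zero_of_finite (Subgroup.index_eq_zero_of_relIndex_eq_zero h)
  have e1 : A.relIndex (A ⊔ P) * (A ⊔ P).index = A.index :=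
    Subgroup.relIndex_mul_index le_sup_left
  have e2 : P.relIndex A * (A ⊔ P).index = P.index := by
    rw [← Subgroup.relIndex_sup_right A P]
    exact Subgroup.relIndex_mul_index le_sup_right
  have e3 : P.relIndex A * A.index = (A ⊓ P).index := by
    rw [← Subgroup.inf_relIndex_left A P]
    exact Subgroup.relIndex_mul_index inf_le_left
  have e4 : A.relIndex P * P.index = (A ⊓ P).index := by
    rw [← Subgroup.inf_relIndex_right A P]
    exact Subgroup.relIndex_mul_index inf_le_right
  have key : P.relIndex A * (A.relIndex (A ⊔ P) * (A ⊔ P).index) =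
      P.relIndex A * (A.relIndex P * (A ⊔ P).index) := by
    rw [e1, e3, ← e4, ← e2]
    ring
  exact Nat.eq_of_mul_eq_mul_right (Nat.pos_of_ne_zero hM)
    (Nat.eq_of_mul_eq_mul_left (Nat.pos_of_ne_zero hPA) key)

/-- A normal subgroup whose order is prime to the index of `A` is contained in `A`. -/
theorem le_of_coprime_index_card (A : Subgroup I) (hA : Nat.Coprime A.index (Nat.card P)) :
    P ≤ A := by
  rw [← Subgroup.relIndex_eq_one]
  have h1 : A.relIndex P ∣ Nat.card P := Subgroup.relIndex_dvd_card A P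
  have h2 : A.relIndex P ∣ A.index := by
    rw [← relIndex_sup_eq_relIndex P A]
    exact Subgroup.relIndex_dvd_index_of_le le_sup_left
  exact Nat.eq_one_of_dvd_coprimes hA h2 h1

variable [IsCyclic (I ⧸ P)]

/-- A subgroup containing a normal subgroup with cyclic quotient is normal. -/
theorem normal_of_le_of_isCyclic_quotient (A : Subgroup I) (hPA : P ≤ A) : A.Normal := by
  letI : CommGroup (I ⧸ P) := IsCyclic.commGroup
  refine ⟨fun a ha g => ?_⟩
  have h1 : (QuotientGroup.mk (g * a * g⁻¹) : I ⧸ P) = QuotientGroup.mk a := by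
    rw [QuotientGroup.mk_mul, QuotientGroup.mk_mul, QuotientGroup.mk_inv, mul_comm, ← mul_assoc,
      inv_mul_cancel, one_mul]
  have h2 : a⁻¹ * (g * a * g⁻¹) ∈ P := (QuotientGroup.eq.1 h1.symm)
  have h3 : a * (a⁻¹ * (g * a * g⁻¹)) ∈ A := A.mul_mem ha (hPA h2)
  rwa [mul_inv_cancel_left] at h3

/-- **Group-theoretic core of Abhyankar's lemma.** `I` a finite group with a normal subgroup `P`
such that `I ⧸ P` is cyclic (inertia group, wild inertia, tame quotient); `A`, `B` subgroups with
`[I : A]` prime to `|P|` (tameness). Then `[I : A ∩ B] = lcm ([I : A], [I : B])`. -/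
theorem index_inf_eq_lcm_of_coprime (A B : Subgroup I)
    (hA : Nat.Coprime A.index (Nat.card P)) : (A ⊓ B).index = Nat.lcm A.index B.index := by
  have hPA : P ≤ A := le_of_coprime_index_card P A hA
  haveI : A.Normal := normal_of_le_of_isCyclic_quotient P A hPA
  letI : CommGroup (I ⧸ P) := IsCyclic.commGroup
  haveI : IsCyclic (I ⧸ A) := by
    refine isCyclic_of_surjective (QuotientGroup.map P A (MonoidHom.id I) hPA) ?_
    intro x
    obtain ⟨g, rfl⟩ := QuotientGroup.mk_surjective x
    exact ⟨QuotientGroup.mk g, rfl⟩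
  letI : CommGroup (I ⧸ A) := IsCyclic.commGroup
  set e₁ := A.index with he₁
  set e₂ := B.index with he₂
  set g := Nat.gcd e₁ e₂ with hg
  have he₁0 : e₁ ≠ 0 := Subgroup.index_ne_zero_of_finite
  have he₂0 : e₂ ≠ 0 := Subgroup.index_ne_zero_of_finite
  have hg0 : 0 < g := Nat.gcd_pos_of_pos_left _ (Nat.pos_of_ne_zero he₁0)
  -- the index of `B P`
  set e₂' := (B ⊔ P).index with he₂'
  have hg_dvd : g ∣ e₂' := by
    have h1 : B.relIndex (B ⊔ P) * e₂' = e₂ := Subgroup.relIndex_mul_index le_sup_left
    have h2 : B.relIndex (B ⊔ P) ∣ Nat.card P := by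
      rw [relIndex_sup_eq_relIndex P B]
      exact Subgroup.relIndex_dvd_card B P
    have h3 : Nat.Coprime g (B.relIndex (B ⊔ P)) :=
      Nat.Coprime.coprime_dvd_left (Nat.gcd_dvd_left e₁ e₂)
        (Nat.Coprime.coprime_dvd_right h2 hA)
    have h4 : g ∣ B.relIndex (B ⊔ P) * e₂' := by
      rw [h1]
      exact Nat.gcd_dvd_right e₁ e₂
    exact h3.dvd_of_dvd_mul_left h4
  obtain ⟨m, hm⟩ := hg_dvd
  -- the image of `B` in `I ⧸ A` consists of `g`-th powers
  have hle : B.map (QuotientGroup.mk' A) ≤ (powMonoidHom g : (I ⧸ A) →* (I ⧸ A)).range := by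
    rintro _ ⟨b, hb, rfl⟩
    have h1 : (QuotientGroup.mk' P) b ∈ (B.map (QuotientGroup.mk' P)) := ⟨b, hb, rfl⟩
    have h2 : (B.map (QuotientGroup.mk' P)).index = e₂' := by
      rw [Subgroup.index_map, QuotientGroup.ker_mk',
        MonoidHom.range_eq_top.2 (QuotientGroup.mk'_surjective P), Subgroup.index_top, mul_one]
    rw [eq_range_powMonoidHom_index (B.map (QuotientGroup.mk' P)), h2] at h1
    obtain ⟨y, hy⟩ := h1
    obtain ⟨x, rfl⟩ := QuotientGroup.mk_surjective y
    rw [powMonoidHom_apply] at hy
    have h3 : (x ^ e₂')⁻¹ * b ∈ P := by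
      apply QuotientGroup.eq.1
      rw [QuotientGroup.mk_pow]
      exact hy
    refine ⟨(QuotientGroup.mk x : I ⧸ A) ^ m, ?_⟩
    rw [powMonoidHom_apply, ← pow_mul, mul_comm, ← hm]
    show (QuotientGroup.mk x : I ⧸ A) ^ e₂' = QuotientGroup.mk b
    rw [← QuotientGroup.mk_pow]
    exact QuotientGroup.eq.2 (hPA h3)
  have hcardC : Nat.card (I ⧸ A) = e₁ := (Subgroup.index_eq_card A).symm
  have hidx : (powMonoidHom g : (I ⧸ A) →* (I ⧸ A)).range.index = g := by
    rw [IsCyclic.index_powMonoidHom_range, hcardC]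
    exact Nat.gcd_eq_right (Nat.gcd_dvd_left e₁ e₂)
  have hdvd : g ∣ (B.map (QuotientGroup.mk' A)).index := by
    rw [← hidx]
    exact Subgroup.index_dvd_of_le hle
  have hcardB : Nat.card (B.map (QuotientGroup.mk' A)) = A.relIndex B := by
    rw [← Subgroup.relIndex_ker, QuotientGroup.ker_mk']
  obtain ⟨k, hk⟩ := hdvd
  have hprod : A.relIndex B * (g * k) = e₁ := by
    rw [← hk, ← hcardB, Subgroup.card_mul_index, hcardC]
  -- conclusion
  have h1 : (A ⊓ B).index = A.relIndex B * e₂ := by
    rw [← Subgroup.inf_relIndex_right A B]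
    exact (Subgroup.relIndex_mul_index inf_le_right).symm
  have h2 : (A ⊓ B).index ∣ Nat.lcm e₁ e₂ := by
    have h3 : g * Nat.lcm e₁ e₂ = e₁ * e₂ := Nat.gcd_mul_lcm e₁ e₂
    have h4 : g * (A.relIndex B * e₂ * k) = g * Nat.lcm e₁ e₂ := by
      rw [h3, ← hprod]
      ring
    have h5 : A.relIndex B * e₂ * k = Nat.lcm e₁ e₂ := Nat.eq_of_mul_eq_mul_left hg0 h4
    rw [h1, ← h5]
    exact Dvd.intro _ rfl
  have h3 : Nat.lcm e₁ e₂ ∣ (A ⊓ B).index :=
    Nat.lcm_dvd (Subgroup.index_dvd_of_le inf_le_left) (Subgroup.index_dvd_of_le inf_le_right)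
  exact Nat.dvd_antisymm h2 h3

/-- The relative version: `[B : A ∩ B] = [I : A] / gcd ([I : A], [I : B])`. -/
theorem relIndex_eq_div_gcd_of_coprime (A B : Subgroup I)
    (hA : Nat.Coprime A.index (Nat.card P)) :
    A.relIndex B = A.index / Nat.gcd A.index B.index := by
  have h1 : (A ⊓ B).index = A.relIndex B * B.index := by
    rw [← Subgroup.inf_relIndex_right A B]
    exact (Subgroup.relIndex_mul_index inf_le_right).symm
  have h2 := index_inf_eq_lcm_of_coprime P A B hA
  have hB0 : 0 < B.index := Nat.pos_of_ne_zero Subgroup.index_ne_zero_of_finite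
  have hg0 : 0 < Nat.gcd A.index B.index := Nat.gcd_pos_of_pos_right _ hB0
  have h3 : Nat.gcd A.index B.index * Nat.lcm A.index B.index = A.index * B.index :=
    Nat.gcd_mul_lcm _ _
  rw [h1] at h2
  rw [← h2] at h3
  have h4 : Nat.gcd A.index B.index * A.relIndex B = A.index := by
    have : Nat.gcd A.index B.index * A.relIndex B * B.index = A.index * B.index := by
      rw [← h3]
      ring
    exact Nat.eq_of_mul_eq_mul_right hB0 this
  exact (Nat.div_eq_of_eq_mul_right hg0 h4.symm).symm

end Main

end Fermat.Agent.FF
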