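/-
L-FF / FF-6 (Abhyankar's lemma, characteristic free), part 2: **structure of the inertia group.**

`S` a Dedekind domain, `G` a group acting on `S` by ring automorphisms, `Q` a nonzero prime of `S`.
* `wildInertia G Q` : the subgroup of `G` acting trivially on the graded ring `⨁ Q ^ i / Q ^ (i+1)`;
  it is contained in `Q.inertia G` (`wildInertia_le_inertia`);
* `pow_smul_ne_of_mem_wildInertia` (key lemma): a wild element `σ` with `σ x ≠ x` satisfies
  `σ ^ m x ≠ x` for every `m` which is nonzero in the residue field;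
* `coprime_card_wildInertia` : `|wildInertia G Q|` is prime to every `m` nonzero in the residue
  field (so it is a `p`-group in residue characteristic `p` and trivial in residue characteristic 0);
* `tameChar` : the tame character `σ ↦ σ π / π mod Q` of the inertia group, with kernel the wild
  inertia group (`ker_tameChar`); hence `Q.inertia G ⧸ wild` is cyclic
  (`isCyclic_inertia_quotient_wildInertia`);
* `relIndex_inf_inertia_eq_lcm` : Abhyankar's lemma for the inertia group: if `[I : I ∩ H₁]` is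
  nonzero in the residue field then `[I : I ∩ H₁ ∩ H₂] = lcm ([I : I ∩ H₁], [I : I ∩ H₂])`.
-/
import Mathlib
import Fermat.Agent.FF.AbhyankarGroup

set_option autoImplicit false
set_option linter.style.haveILetI false
set_option linter.unusedSectionVars false

namespace Fermat.Agent.FF

open scoped Pointwise

section Wild

variable {S : Type*} [CommRing S] (G : Type*) [Group G] [MulSemiringAction G S] (Q : Ideal S)

variable {G Q} in
/-- Elements of the stabilizer of `Q` preserve the powers of `Q`. -/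
theorem smul_mem_pow_of_smul_eq {σ : G} (hσ : σ • Q = Q) {i : ℕ} {x : S} (hx : x ∈ Q ^ i) :
    σ • x ∈ Q ^ i := by
  have h1 : σ • x ∈ σ • (Q ^ i) := Ideal.smul_mem_pointwise_smul σ x _ hx
  rwa [smul_pow', hσ] at h1

variable {G Q} in
theorem smul_eq_of_forall_sub_mem {σ : G} (h : ∀ x : S, σ • x - x ∈ Q) : σ • Q = Q :=
  MulAction.mem_stabilizer_iff.1 (Ideal.inertia_le_stabilizer Q (M := G) h)

/-- The wild inertia subgroup: the elements acting trivially on the graded ring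
`⨁ Q ^ i / Q ^ (i + 1)`. -/
def wildInertia : Subgroup G where
  carrier := {σ | ∀ i : ℕ, ∀ x ∈ Q ^ i, σ • x - x ∈ Q ^ (i + 1)}
  one_mem' := by
    intro i x _
    simp
  mul_mem' := by
    intro σ τ hσ hτ i x hx
    have hτQ : τ • Q = Q := smul_eq_of_forall_sub_mem fun x => by
      simpa using hτ 0 x (by simp)
    have h1 : σ • (τ • x) - τ • x ∈ Q ^ (i + 1) := hσ i _ (smul_mem_pow_of_smul_eq hτQ hx)
    have h2 := hτ i x hx
    have : (σ * τ) • x - x = (σ • (τ • x) - τ • x) + (τ • x - x) := by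
      rw [mul_smul]; ring
    rw [this]
    exact Ideal.add_mem _ h1 h2
  inv_mem' := by
    intro σ hσ i x hx
    have hσQ : σ • Q = Q := smul_eq_of_forall_sub_mem fun x => by
      simpa using hσ 0 x (by simp)
    have hσQ' : σ⁻¹ • Q = Q := by
      rw [inv_smul_eq_iff, hσQ]
    have h1 : σ • (σ⁻¹ • x) - σ⁻¹ • x ∈ Q ^ (i + 1) := hσ i _ (smul_mem_pow_of_smul_eq hσQ' hx)
    rw [smul_inv_smul] at h1
    have : σ⁻¹ • x - x = -(x - σ⁻¹ • x) := by ring
    rw [this]
    exact Ideal.neg_mem_iff _ |>.2 h1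

variable {G Q} in
theorem mem_wildInertia_iff {σ : G} :
    σ ∈ wildInertia G Q ↔ ∀ i : ℕ, ∀ x ∈ Q ^ i, σ • x - x ∈ Q ^ (i + 1) := Iff.rfl

theorem wildInertia_le_inertia : wildInertia G Q ≤ Q.inertia G := by
  intro σ hσ x
  simpa using hσ 0 x (by simp)

variable {G Q} in
/-- Criterion: an element of the inertia group which moves the elements of `Q` only by elements of
`Q ^ 2` is wild. -/
theorem mem_wildInertia_of_forall_sub_mem_sq {σ : G} (h0 : ∀ x : S, σ • x - x ∈ Q)
    (h1 : ∀ x ∈ Q, σ • x - x ∈ Q ^ 2) : σ ∈ wildInertia G Q := by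
  have hσQ : σ • Q = Q := smul_eq_of_forall_sub_mem h0
  intro i
  induction i with
  | zero => intro x _; simpa using h0 x
  | succ i ih =>
    intro x hx
    rw [pow_succ] at hx
    refine Submodule.smul_induction_on hx ?_ ?_
    · intro a ha b hb
      have e : σ • (a • b) - a • b = (σ • a - a) * σ • b + a * (σ • b - b) := by
        rw [smul_eq_mul, smul_mul']; ring
      rw [e]
      refine Ideal.add_mem _ ?_ ?_
      · have := Ideal.mul_mem_mul (ih a ha) (smul_mem_pow_of_smul_eq (i := 1) hσQ (by simpa using hb))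
        rwa [pow_one, ← pow_succ] at this
      · have := Ideal.mul_mem_mul ha (h1 b hb)
        rwa [← pow_add] at this
    · intro x y hx hy
      have e : σ • (x + y) - (x + y) = (σ • x - x) + (σ • y - y) := by
        rw [smul_add]; ring
      rw [e]
      exact Ideal.add_mem _ hx hy

end Wild

section Dedekind

variable {S : Type*} [CommRing S] [IsDedekindDomain S] {G : Type*} [Group G]
  [MulSemiringAction G S] {Q : Ideal S} [hQp : Q.IsPrime]

/-- Every nonzero element lies in `Q ^ i \ Q ^ (i + 1)` for some `i`. -/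
theorem exists_mem_pow_notMem_succ_of_ne_zero {y : S} (hy : y ≠ 0) :
    ∃ i : ℕ, y ∈ Q ^ i ∧ y ∉ Q ^ (i + 1) := by
  classical
  have hbot : (⨅ i : ℕ, Q ^ i) = ⊥ := Ideal.iInf_pow_eq_bot_of_isDomain Q hQp.ne_top
  have hex : ∃ n : ℕ, y ∉ Q ^ n := by
    by_contra hcon
    push Not at hcon
    have : y ∈ (⨅ i : ℕ, Q ^ i) := by
      rw [Ideal.mem_iInf]
      exact hcon
    rw [hbot] at this
    exact hy (by simpa using this)
  have hn0 : Nat.find hex ≠ 0 := by
    intro h0
    have := Nat.find_spec hex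
    rw [h0] at this
    exact this (by simp)
  obtain ⟨i, hi⟩ := Nat.exists_eq_succ_of_ne_zero hn0
  refine ⟨i, ?_, ?_⟩
  · by_contra hcon
    exact Nat.find_min hex (by omega) hcon
  · have := Nat.find_spec hex
    rwa [hi] at this

/-- **Key lemma.** A wild inertia element `σ` with `σ • x ≠ x`, and `m` a natural number which is
nonzero in the residue field: then `σ ^ m • x ≠ x`. -/
theorem pow_smul_ne_of_mem_wildInertia (hQ : Q ≠ ⊥) {σ : G} (hσ : σ ∈ wildInertia G Q) {x : S}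
    (hx : σ • x ≠ x) {m : ℕ} (hm : (m : S) ∉ Q) : σ ^ m • x ≠ x := by
  intro hcon
  have hy : σ • x - x ≠ 0 := sub_ne_zero.2 hx
  obtain ⟨i, hi1, hi2⟩ := exists_mem_pow_notMem_succ_of_ne_zero (Q := Q) hy
  set y := σ • x - x with hydef
  have hsum : σ ^ m • x - x = ∑ j ∈ Finset.range m, σ ^ j • y := by
    have : ∀ j : ℕ, σ ^ j • y = σ ^ (j + 1) • x - σ ^ j • x := by
      intro j
      rw [hydef, smul_sub, ← mul_smul, ← pow_succ]
    simp_rw [this]
    rw [Finset.sum_range_sub (fun j => σ ^ j • x), pow_zero, one_smul]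
  have hsum2 : (∑ j ∈ Finset.range m, σ ^ j • y) - (m : S) * y ∈ Q ^ (i + 1) := by
    have : (∑ j ∈ Finset.range m, σ ^ j • y) - (m : S) * y =
        ∑ j ∈ Finset.range m, (σ ^ j • y - y) := by
      rw [Finset.sum_sub_distrib, Finset.sum_const, Finset.card_range, nsmul_eq_mul]
    rw [this]
    refine Ideal.sum_mem _ fun j _ => ?_
    exact (Subgroup.pow_mem _ hσ j) i y hi1
  rw [← hsum, hcon, sub_self, zero_sub, neg_mem_iff, mul_comm] at hsum2
  exact hm (Ideal.mem_prime_of_mul_mem_pow hQ hi2 hsum2)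

/-- The order of the wild inertia group is prime to every natural number which is nonzero in the
residue field. -/
theorem coprime_card_wildInertia [Finite G] [FaithfulSMul G S] (hQ : Q ≠ ⊥) {m : ℕ}
    (hm : (m : S) ∉ Q) : Nat.Coprime m (Nat.card (wildInertia G Q)) := by
  refine Nat.coprime_of_dvd fun ℓ hℓ hℓm hℓc => ?_
  haveI : Fact ℓ.Prime := ⟨hℓ⟩
  obtain ⟨g, hg⟩ := exists_prime_orderOf_dvd_card' ℓ hℓc
  have hg1 : (g : G) ≠ 1 := by
    intro h
    have : g = 1 := Subtype.ext h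
    rw [this, orderOf_one] at hg
    exact hℓ.ne_one hg.symm
  have hex : ∃ x : S, (g : G) • x ≠ x := by
    by_contra hcon
    push Not at hcon
    exact hg1 (eq_of_smul_eq_smul (α := S) fun x => by rw [hcon x, one_smul])
  obtain ⟨x, hx⟩ := hex
  have hℓQ : (ℓ : S) ∈ Q := by
    by_contra hℓQ
    refine pow_smul_ne_of_mem_wildInertia hQ g.2 hx hℓQ ?_
    have : (g : G) ^ ℓ = 1 := by
      rw [← hg, ← Subgroup.coe_pow, pow_orderOf_eq_one, Subgroup.coe_one]
    rw [this, one_smul]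
  obtain ⟨k, rfl⟩ := hℓm
  apply hm
  rw [Nat.cast_mul]
  exact Ideal.mul_mem_right _ _ hℓQ

end Dedekind

section Tame

variable {S : Type*} [CommRing S] [IsDedekindDomain S] {G : Type*} [Group G]
  [MulSemiringAction G S] {Q : Ideal S} [hQp : Q.IsPrime]

theorem exists_mem_notMem_sq (hQ : Q ≠ ⊥) : ∃ π : S, π ∈ Q ∧ π ∉ Q ^ 2 := by
  have h := Ideal.pow_succ_lt_pow hQ 1
  rw [pow_one] at h
  obtain ⟨π, h1, h2⟩ := SetLike.exists_of_lt h
  exact ⟨π, h1, h2⟩

/-- For `π` a uniformizer at `Q` and `c ∈ Q` there is `a` with `c ≡ π a` modulo `Q ^ 2`. -/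
theorem exists_sub_mul_mem_sq (hQ : Q ≠ ⊥) {π : S} (hπ : π ∈ Q) (hπ2 : π ∉ Q ^ 2) {c : S}
    (hc : c ∈ Q) : ∃ a : S, c - π * a ∈ Q ^ 2 := by
  obtain ⟨d, e, he, hde⟩ := Ideal.exists_mul_add_mem_pow_succ hQ (i := 1) π c (by simpa using hπ)
    hπ2 (by simpa using hc)
  refine ⟨d, ?_⟩
  rw [← hde, add_sub_cancel_left]
  exact he

theorem sub_mem_of_mul_sub_mul_mem_sq (hQ : Q ≠ ⊥) {π : S} (hπ2 : π ∉ Q ^ 2) {a b : S}
    (h : π * a - π * b ∈ Q ^ 2) : a - b ∈ Q := by
  rw [← mul_sub] at h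
  exact Ideal.mem_prime_of_mul_mem_pow hQ (i := 1) hπ2 h

theorem smul_mem_of_mem_inertia {π : S} (hπ : π ∈ Q) (σ : Q.inertia G) : (σ : G) • π ∈ Q := by
  have h := smul_mem_pow_of_smul_eq (i := 1) (smul_eq_of_forall_sub_mem σ.2) (x := π)
    (by simpa using hπ)
  simpa using h

/-- A representative of `σ π / π mod Q`. -/
noncomputable def tameCoeff (hQ : Q ≠ ⊥) {π : S} (hπ : π ∈ Q) (hπ2 : π ∉ Q ^ 2)
    (σ : Q.inertia G) : S :=
  Classical.choose (exists_sub_mul_mem_sq hQ hπ hπ2 (smul_mem_of_mem_inertia hπ σ))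

theorem tameCoeff_spec (hQ : Q ≠ ⊥) {π : S} (hπ : π ∈ Q) (hπ2 : π ∉ Q ^ 2) (σ : Q.inertia G) :
    (σ : G) • π - π * tameCoeff hQ hπ hπ2 σ ∈ Q ^ 2 :=
  Classical.choose_spec (exists_sub_mul_mem_sq hQ hπ hπ2 (smul_mem_of_mem_inertia hπ σ))

theorem tameCoeff_sub_mem (hQ : Q ≠ ⊥) {π : S} (hπ : π ∈ Q) (hπ2 : π ∉ Q ^ 2) (σ : Q.inertia G)
    {a : S} (ha : (σ : G) • π - π * a ∈ Q ^ 2) : tameCoeff hQ hπ hπ2 σ - a ∈ Q := by
  refine sub_mem_of_mul_sub_mul_mem_sq hQ hπ2 ?_
  have e : π * tameCoeff hQ hπ hπ2 σ - π * a =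
      ((σ : G) • π - π * a) - ((σ : G) • π - π * tameCoeff hQ hπ hπ2 σ) := by ring
  rw [e]
  exact Ideal.sub_mem _ ha (tameCoeff_spec hQ hπ hπ2 σ)

/-- The tame character `σ ↦ σ π / π mod Q` of the inertia group, attached to a uniformizer `π`. -/
noncomputable def tameChar (hQ : Q ≠ ⊥) {π : S} (hπ : π ∈ Q) (hπ2 : π ∉ Q ^ 2) :
    Q.inertia G →* S ⧸ Q where
  toFun σ := Ideal.Quotient.mk Q (tameCoeff hQ hπ hπ2 σ)
  map_one' := by
    rw [← map_one (Ideal.Quotient.mk Q), Ideal.Quotient.mk_eq_mk_iff_sub_mem]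
    refine tameCoeff_sub_mem hQ hπ hπ2 1 ?_
    simp
  map_mul' := by
    intro σ τ
    rw [← map_mul (Ideal.Quotient.mk Q), Ideal.Quotient.mk_eq_mk_iff_sub_mem]
    refine tameCoeff_sub_mem hQ hπ hπ2 (σ * τ) ?_
    have hσ := tameCoeff_spec hQ hπ hπ2 σ
    have hτ := tameCoeff_spec hQ hπ hπ2 τ
    set b := tameCoeff hQ hπ hπ2 σ
    set c := tameCoeff hQ hπ hπ2 τ
    have hσQ : (σ : G) • Q = Q := smul_eq_of_forall_sub_mem σ.2
    have h1 : (σ : G) • ((τ : G) • π - π * c) ∈ Q ^ 2 := smul_mem_pow_of_smul_eq hσQ hτ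
    have h2 : ((σ : G) • π) * ((σ : G) • c - c) ∈ Q ^ 2 := by
      rw [pow_two]
      exact Ideal.mul_mem_mul (smul_mem_of_mem_inertia hπ σ) (σ.2 c)
    have h3 : ((σ : G) • π - π * b) * c ∈ Q ^ 2 := Ideal.mul_mem_right _ _ hσ
    have e : ((σ * τ : Q.inertia G) : G) • π - π * (b * c) =
        (σ : G) • ((τ : G) • π - π * c) + ((σ : G) • π) * ((σ : G) • c - c)
        + ((σ : G) • π - π * b) * c := by
      rw [Subgroup.coe_mul, mul_smul, smul_sub, smul_mul']
      ring
    rw [e]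
    exact Ideal.add_mem _ (Ideal.add_mem _ h1 h2) h3

theorem tameChar_eq_mk (hQ : Q ≠ ⊥) {π : S} (hπ : π ∈ Q) (hπ2 : π ∉ Q ^ 2) (σ : Q.inertia G)
    {a : S} (ha : (σ : G) • π - π * a ∈ Q ^ 2) :
    tameChar hQ hπ hπ2 σ = Ideal.Quotient.mk Q a := by
  show Ideal.Quotient.mk Q (tameCoeff hQ hπ hπ2 σ) = _
  rw [Ideal.Quotient.mk_eq_mk_iff_sub_mem]
  exact tameCoeff_sub_mem hQ hπ hπ2 σ ha

/-- The kernel of the tame character is the wild inertia group. -/
theorem ker_tameChar (hQ : Q ≠ ⊥) {π : S} (hπ : π ∈ Q) (hπ2 : π ∉ Q ^ 2) :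
    (tameChar (G := G) hQ hπ hπ2).ker = (wildInertia G Q).subgroupOf (Q.inertia G) := by
  ext σ
  rw [MonoidHom.mem_ker, Subgroup.mem_subgroupOf]
  constructor
  · intro h
    have h1 : tameCoeff hQ hπ hπ2 σ - 1 ∈ Q := by
      rw [← Ideal.Quotient.mk_eq_mk_iff_sub_mem, map_one]
      exact h
    have h2 : (σ : G) • π - π ∈ Q ^ 2 := by
      have e : (σ : G) • π - π = ((σ : G) • π - π * tameCoeff hQ hπ hπ2 σ)
          + π * (tameCoeff hQ hπ hπ2 σ - 1) := by ring
      rw [e, pow_two]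
      refine Ideal.add_mem _ ?_ (Ideal.mul_mem_mul hπ h1)
      rw [← pow_two]
      exact tameCoeff_spec hQ hπ hπ2 σ
    refine mem_wildInertia_of_forall_sub_mem_sq σ.2 fun x hx => ?_
    obtain ⟨a, ha⟩ := exists_sub_mul_mem_sq hQ hπ hπ2 hx
    have hσQ : (σ : G) • Q = Q := smul_eq_of_forall_sub_mem σ.2
    have e : (σ : G) • x - x = (σ : G) • (x - π * a) - (x - π * a)
        + ((σ : G) • π - π) * (σ : G) • a + π * ((σ : G) • a - a) := by
      rw [smul_sub, smul_mul']; ring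
    rw [e]
    refine Ideal.add_mem _ (Ideal.add_mem _ (Ideal.sub_mem _
      (smul_mem_pow_of_smul_eq hσQ ha) ha) (Ideal.mul_mem_right _ _ h2)) ?_
    rw [pow_two]
    exact Ideal.mul_mem_mul hπ (σ.2 a)
  · intro h
    rw [tameChar_eq_mk hQ hπ hπ2 σ (a := 1), map_one]
    rw [mul_one]
    have := h 1 π (by simpa using hπ)
    exact this

end Tame

section Cyclic

variable {S : Type*} [CommRing S] [IsDedekindDomain S] {G : Type*} [Group G]
  [MulSemiringAction G S] {Q : Ideal S} [hQp : Q.IsPrime]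

/-- The wild inertia group is normal in the inertia group. -/
theorem normal_wildInertia_subgroupOf_inertia (hQ : Q ≠ ⊥) :
    ((wildInertia G Q).subgroupOf (Q.inertia G)).Normal := by
  obtain ⟨π, hπ, hπ2⟩ := exists_mem_notMem_sq hQ
  rw [← ker_tameChar (G := G) hQ hπ hπ2]
  exact MonoidHom.normal_ker _

theorem ker_toHomUnits_tameChar (hQ : Q ≠ ⊥) {π : S} (hπ : π ∈ Q) (hπ2 : π ∉ Q ^ 2) :
    (tameChar (G := G) hQ hπ hπ2).toHomUnits.ker =
      (wildInertia G Q).subgroupOf (Q.inertia G) := by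
  rw [← ker_tameChar (G := G) hQ hπ hπ2]
  ext σ
  rw [MonoidHom.mem_ker, MonoidHom.mem_ker, Units.ext_iff, MonoidHom.coe_toHomUnits,
    Units.val_one]

theorem isCyclic_inertia_quotient_ker_tameChar [Finite G] (hQ : Q ≠ ⊥) {π : S} (hπ : π ∈ Q)
    (hπ2 : π ∉ Q ^ 2) :
    IsCyclic (Q.inertia G ⧸ (tameChar (G := G) hQ hπ hπ2).toHomUnits.ker) := by
  have hinj := QuotientGroup.kerLift_injective (tameChar (G := G) hQ hπ hπ2).toHomUnits
  refine isCyclic_of_injective_ringHom ((Units.coeHom (S ⧸ Q)).comp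
    (QuotientGroup.kerLift (tameChar (G := G) hQ hπ hπ2).toHomUnits)) ?_
  intro a b hab
  apply hinj
  exact Units.ext hab

/-- The tame quotient of the inertia group is cyclic. -/
theorem isCyclic_inertia_quotient_wildInertia [Finite G] (hQ : Q ≠ ⊥)
    [hn : ((wildInertia G Q).subgroupOf (Q.inertia G)).Normal] :
    IsCyclic (Q.inertia G ⧸ (wildInertia G Q).subgroupOf (Q.inertia G)) := by
  obtain ⟨π, hπ, hπ2⟩ := exists_mem_notMem_sq hQ
  have hker := ker_toHomUnits_tameChar (G := G) hQ hπ hπ2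
  have key : ∀ (N : Subgroup (Q.inertia G)) [N.Normal],
      (tameChar (G := G) hQ hπ hπ2).toHomUnits.ker = N → IsCyclic (Q.inertia G ⧸ N) := by
    intro N _ hN
    subst hN
    exact isCyclic_inertia_quotient_ker_tameChar hQ hπ hπ2
  exact key _ hker

theorem card_wildInertia_subgroupOf_inertia :
    Nat.card ((wildInertia G Q).subgroupOf (Q.inertia G)) = Nat.card (wildInertia G Q) :=
  Nat.card_congr (Subgroup.subgroupOfEquivOfLe (wildInertia_le_inertia G Q)).toEquiv

/-- **Abhyankar's lemma for the inertia group.** `I` the inertia group of `Q`, `H₁`, `H₂` subgroups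
of `G`; if `[I : I ∩ H₁]` is nonzero in the residue field of `Q` (tameness), then
`[I : I ∩ H₁ ∩ H₂] = lcm ([I : I ∩ H₁], [I : I ∩ H₂])`. -/
theorem relIndex_inf_inertia_eq_lcm [Finite G] [FaithfulSMul G S] (hQ : Q ≠ ⊥)
    (H₁ H₂ : Subgroup G) (htame : ((H₁.relIndex (Q.inertia G) : ℕ) : S) ∉ Q) :
    (H₁ ⊓ H₂).relIndex (Q.inertia G) =
      Nat.lcm (H₁.relIndex (Q.inertia G)) (H₂.relIndex (Q.inertia G)) := by
  haveI := normal_wildInertia_subgroupOf_inertia (G := G) hQ
  haveI := isCyclic_inertia_quotient_wildInertia (G := G) hQ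
  have hcop : Nat.Coprime (H₁.subgroupOf (Q.inertia G)).index
      (Nat.card ((wildInertia G Q).subgroupOf (Q.inertia G))) := by
    rw [card_wildInertia_subgroupOf_inertia]
    exact coprime_card_wildInertia hQ htame
  have h := index_inf_eq_lcm_of_coprime ((wildInertia G Q).subgroupOf (Q.inertia G))
    (H₁.subgroupOf (Q.inertia G)) (H₂.subgroupOf (Q.inertia G)) hcop
  exact h

end Cyclic

end Fermat.Agent.FF
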