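/-
L-FF / FF-6 (Abhyankar's lemma, characteristic free), part 3: **ramification indices.**

`S ⊇ R` domains, `G` finite with `[IsGaloisGroup G R S]` (e.g. `S` the integral closure of a Dedekind
domain `R` in a finite Galois extension with group `G`), `H ≤ G` with `[IsGaloisGroup H T S]` (`T` the
ring of `H`-invariants, e.g. the integral closure of `R` in the fixed field of `H`), `P` a prime of
`S`, perfect residue fields below:
* `ramificationIdx_under_eq_relIndex` : `e(P ∩ T | P ∩ R) = [I : I ∩ H]`, `I = P.inertia G`;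
* `ramificationIdx_under_inf_eq_lcm` : **Abhyankar's lemma**: for `T₁`, `T₂`, `T` the invariants of
  `H₁`, `H₂`, `H₁ ⊓ H₂` (so `Frac T = Frac T₁ · Frac T₂`), `S` Dedekind, `P ≠ ⊥`, and
  `e(P ∩ T₁ | R)` nonzero in the residue field: `e(P ∩ T | R) = lcm (e(P ∩ T₁ | R), e(P ∩ T₂ | R))`;
* `ramificationIdx_under_inf_eq_of_dvd`, `ramificationIdx_under_inf_eq_one` : if moreover
  `e(P ∩ T₁ | R) ∣ e(P ∩ T₂ | R)` then `e(P ∩ T | R) = e(P ∩ T₂ | R)` and `e(P ∩ T | T₂) = 1`.
To instantiate for fields use Mathlib's `IsGaloisGroup.of_isFractionRing` and the instance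
`IsGaloisGroup (fixingSubgroup G F) F L`.
-/
import Mathlib
import Fermat.Agent.FF.InertiaTame

set_option autoImplicit false
set_option linter.style.haveILetI false
set_option linter.unusedSectionVars false

namespace Fermat.Agent.FF

open scoped Pointwise

section Group

variable {G : Type*} [Group G] [Finite G]

/-- `|H ∩ I| * [I : I ∩ H] = |I|`. -/
theorem card_inf_mul_relIndex (H I : Subgroup G) :
    Nat.card (H ⊓ I : Subgroup G) * H.relIndex I = Nat.card I := by
  have h := Subgroup.relIndex_mul_relIndex (⊥ : Subgroup G) (H ⊓ I) I bot_le inf_le_right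
  rwa [Subgroup.relIndex_bot_left, Subgroup.relIndex_bot_left, Subgroup.inf_relIndex_right] at h

end Group

section Ram

variable {R T S : Type*} [CommRing R] [CommRing T] [CommRing S] [IsDomain R] [IsDomain T]
  [IsDomain S] [Algebra R T] [Algebra T S] [Algebra R S] [IsScalarTower R T S]
  [Module.Finite R S] [Module.Flat R S] [Module.Finite T S] [Module.Flat T S]
  {G : Type*} [Group G] [Finite G] [MulSemiringAction G S] [IsGaloisGroup G R S]
  (H : Subgroup G) [IsGaloisGroup H T S]
  (P : Ideal S) [P.IsPrime]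
  [PerfectField (P.under R).ResidueField] [PerfectField (P.under T).ResidueField]

/-- `|I_H(P)| = |I_G(P) ∩ H|`. -/
theorem card_inertia_subgroup :
    Nat.card (P.inertia H) = Nat.card (H ⊓ P.inertia G : Subgroup G) := by
  have h := AddSubgroup.inertia_map_subtype P.toAddSubgroup H
  rw [inf_comm, ← h]
  exact (Nat.card_congr (Subgroup.equivMapOfInjective _ _ H.subtype_injective).toEquiv)

include R T in
/-- `e(P ∩ T | P ∩ R) * |I_H(P)| = |I_G(P)|`. -/
theorem ramificationIdx_under_mul_card_inertia :
    (P.under T).ramificationIdx R * Nat.card (P.inertia H) = Nat.card (P.inertia G) := by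
  have h1 : Nat.card (P.inertia G) = P.ramificationIdx R := by
    rw [Ideal.card_inertia_eq_ramificationIdxIn (G := G) (P.under R) P,
      Ideal.ramificationIdxIn_eq_ramificationIdx (P.under R) P G]
  have h2 : Nat.card (P.inertia H) = P.ramificationIdx T := by
    rw [Ideal.card_inertia_eq_ramificationIdxIn (G := H) (P.under T) P,
      Ideal.ramificationIdxIn_eq_ramificationIdx (P.under T) P H]
  rw [h1, h2]
  exact (Ideal.ramificationIdx_tower (R := R) (P.under T) P).symm

include R T in
/-- The ramification index of the intermediate prime `P ∩ T` over `R` is `[I : I ∩ H]`. -/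
theorem ramificationIdx_under_eq_relIndex :
    (P.under T).ramificationIdx R = H.relIndex (P.inertia G) := by
  have h1 := ramificationIdx_under_mul_card_inertia (R := R) (T := T) H P
  have h2 := card_inf_mul_relIndex H (P.inertia G)
  rw [card_inertia_subgroup (G := G) H P] at h1
  rw [← h1, mul_comm] at h2
  have hpos : 0 < Nat.card (H ⊓ P.inertia G : Subgroup G) := Nat.card_pos
  exact (Nat.eq_of_mul_eq_mul_right hpos h2).symm

end Ram

section Abhyankar

variable {R T₁ T₂ T S : Type*} [CommRing R] [CommRing T₁] [CommRing T₂] [CommRing T] [CommRing S]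
  [IsDomain R] [IsDomain T₁] [IsDomain T₂] [IsDomain T] [IsDedekindDomain S]
  [Algebra R T₁] [Algebra T₁ S] [Algebra R T₂] [Algebra T₂ S] [Algebra R T] [Algebra T S]
  [Algebra R S] [IsScalarTower R T₁ S] [IsScalarTower R T₂ S] [IsScalarTower R T S]
  [Module.Finite R S] [Module.Flat R S] [Module.Finite T₁ S] [Module.Flat T₁ S]
  [Module.Finite T₂ S] [Module.Flat T₂ S] [Module.Finite T S] [Module.Flat T S]
  {G : Type*} [Group G] [Finite G] [MulSemiringAction G S] [IsGaloisGroup G R S]
  (H₁ H₂ : Subgroup G) [IsGaloisGroup H₁ T₁ S] [IsGaloisGroup H₂ T₂ S]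
  [IsGaloisGroup (H₁ ⊓ H₂ : Subgroup G) T S]
  (P : Ideal S) [P.IsPrime]
  [PerfectField (P.under R).ResidueField] [PerfectField (P.under T₁).ResidueField]
  [PerfectField (P.under T₂).ResidueField] [PerfectField (P.under T).ResidueField]

include H₁ H₂ in
/-- **Abhyankar's lemma** (Galois form, any characteristic). `S ⊇ R` Dedekind with Galois group `G`,
`T₁`, `T₂`, `T` the rings of invariants of `H₁`, `H₂`, `H₁ ∩ H₂` (so `Frac T` is the compositum of
`Frac T₁` and `Frac T₂`), `P` a nonzero prime of `S` with perfect residue fields below. If the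
ramification index of `P ∩ T₁` over `R` is nonzero in the residue field (tameness), then the
ramification index of `P ∩ T` over `R` is the lcm of those of `P ∩ T₁` and `P ∩ T₂`. -/
theorem ramificationIdx_under_inf_eq_lcm (hP : P ≠ ⊥)
    (htame : (((P.under T₁).ramificationIdx R : ℕ) : S) ∉ P) :
    (P.under T).ramificationIdx R =
      Nat.lcm ((P.under T₁).ramificationIdx R) ((P.under T₂).ramificationIdx R) := by
  haveI : FaithfulSMul G S := IsGaloisGroup.faithful R
  rw [ramificationIdx_under_eq_relIndex (R := R) (T := T₁) H₁ P] at htame ⊢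
  rw [ramificationIdx_under_eq_relIndex (R := R) (T := T₂) H₂ P,
    ramificationIdx_under_eq_relIndex (R := R) (T := T) (H₁ ⊓ H₂) P]
  exact relIndex_inf_inertia_eq_lcm hP H₁ H₂ htame

include H₁ H₂ in
/-- Abhyankar's lemma, absorption form: if moreover `e(P ∩ T₁ | R)` divides `e(P ∩ T₂ | R)`, then
`P ∩ T` has the same ramification index over `R` as `P ∩ T₂`. -/
theorem ramificationIdx_under_inf_eq_of_dvd (hP : P ≠ ⊥)
    (htame : (((P.under T₁).ramificationIdx R : ℕ) : S) ∉ P)
    (hdvd : (P.under T₁).ramificationIdx R ∣ (P.under T₂).ramificationIdx R) :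
    (P.under T).ramificationIdx R = (P.under T₂).ramificationIdx R := by
  rw [ramificationIdx_under_inf_eq_lcm (R := R) (T₁ := T₁) (T₂ := T₂) (T := T) H₁ H₂ P hP htame]
  exact Nat.lcm_eq_right hdvd

include H₁ H₂ in
/-- Abhyankar's lemma, unramified form: if `e(P ∩ T₁ | R)` is tame and divides `e(P ∩ T₂ | R)`,
then `P ∩ T` is unramified over `T₂`. -/
theorem ramificationIdx_under_inf_eq_one (hP : P ≠ ⊥) [Algebra T₂ T] [IsScalarTower T₂ T S]
    [IsScalarTower R T₂ T] [Module.Flat T₂ T] [Module.Finite R T₂]
    (htame : (((P.under T₁).ramificationIdx R : ℕ) : S) ∉ P)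
    (hdvd : (P.under T₁).ramificationIdx R ∣ (P.under T₂).ramificationIdx R) :
    (P.under T).ramificationIdx T₂ = 1 := by
  have h1 := ramificationIdx_under_inf_eq_of_dvd (R := R) (T₁ := T₁) (T₂ := T₂) (T := T) H₁ H₂ P hP
    htame hdvd
  haveI : (P.under T).LiesOver (P.under T₂) := ⟨by
    rw [Ideal.under_under]⟩
  have h2 := Ideal.ramificationIdx_tower (R := R) (P.under T₂) (P.under T)
  rw [h1] at h2
  have hpos : 0 < (P.under T₂).ramificationIdx R := Ideal.ramificationIdx_pos _ R
  have h3 : (P.under T₂).ramificationIdx R * 1 =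
      (P.under T₂).ramificationIdx R * (P.under T).ramificationIdx T₂ := by
    rw [mul_one]; exact h2
  exact (Nat.eq_of_mul_eq_mul_left hpos h3).symm

end Abhyankar

end Fermat.Agent.FF
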