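import Mathlib
import Fermat.Prelude.Def_AlgebraicCurve_Repartitions

/-!
# Track L-FF, node FF-ADELE (abstract part): `H¹(D)` as a quotient of the function field

`K` a field, `F` a field over `K`, `Place K F`, `Divisor K F`, `repartitions K F`, `H1 D` the Prelude
objects.  Let `P : Place K F → Prop` be a set of places ("finite places") such that the
approximation property holds on `P` and on its complement:

* `ApproxOn P` : for every repartition `α` and every divisor `D` there is `f : F` with
  `v(α_v - f) ≤ exp (D v)` for all `v` in `P`.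

(For `P` = the places coming from a Dedekind model `R` this is the Chinese remainder theorem, see
`FF/AdeleDedekind.lean`.)  Then, with `lamOn P D = {f | ∀ v ∈ P, v(f) ≤ exp (D v)}`,

* `riemannRochSpace_eq_inf` : `L(D) = lamOn P D ⊓ lamOn Pᶜ D`;
* `h1Equiv` : `H¹(D) ≃ₗ[K] F ⧸ (lamOn P D ⊔ lamOn Pᶜ D)`.
-/

set_option autoImplicit false

open AlgebraicCurve WithZero

namespace Fermat.Agent.FF.Adele

variable {K F : Type*} [Field K] [Field F] [Algebra K F]

/-- The `K`-subspace of the functions satisfying the local condition of `D` at the places in `P`. -/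
def lamOn (P : Place K F → Prop) (D : Divisor K F) : Submodule K F where
  carrier := {f | ∀ v : Place K F, P v → v.adicValuation f ≤ exp (D v)}
  zero_mem' := by
    intro v _
    simp
  add_mem' := by
    intro f g hf hg v hv
    exact (Valuation.map_add _ _ _).trans (max_le (hf v hv) (hg v hv))
  smul_mem' := by
    intro c f hf v hv
    show v.adicValuation (c • f) ≤ exp (D v)
    rw [Algebra.smul_def, map_mul]
    exact (mul_le_of_le_one_left' (v.adicValuation_algebraMap_le_one c)).trans (hf v hv)

theorem mem_lamOn {P : Place K F → Prop} {D : Divisor K F} {f : F} :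
    f ∈ lamOn P D ↔ ∀ v : Place K F, P v → v.adicValuation f ≤ exp (D v) := Iff.rfl

theorem lamOn_mono (P : Place K F → Prop) {D D' : Divisor K F} (h : D ≤ D') :
    lamOn P D ≤ lamOn P D' := fun _ hf v hv =>
  (hf v hv).trans (exp_le_exp.mpr (Finsupp.le_def.mp h v))

/-- `L(D)` is the intersection of the two "half" lattices. -/
theorem riemannRochSpace_eq_inf (P : Place K F → Prop) (D : Divisor K F) :
    riemannRochSpace D = lamOn P D ⊓ lamOn (fun v => ¬ P v) D := by
  ext f
  rw [Submodule.mem_inf]
  constructor
  · intro hf
    exact ⟨fun v _ => hf v, fun v _ => hf v⟩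
  · rintro ⟨h1, h2⟩ v
    by_cases hv : P v
    · exact h1 v hv
    · exact h2 v hv

/-- The approximation property on a set of places. -/
def ApproxOn (P : Place K F → Prop) : Prop :=
  ∀ (α : ↥(repartitions K F)) (D : Divisor K F), ∃ f : F,
    ∀ v : Place K F, P v → v.adicValuation ((α : Place K F → F) v - f) ≤ exp (D v)

section Cut

variable (hpole : ∀ f : F, {v : Place K F | ¬ v.adicValuation f ≤ 1}.Finite)

open Classical in
/-- The repartition which is `f` outside `P` and `0` on `P`. -/
noncomputable def cutFun (P : Place K F → Prop) (f : F) : Place K F → F :=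
  fun v => if P v then 0 else f

include hpole in
theorem cutFun_mem (P : Place K F → Prop) (f : F) : cutFun P f ∈ repartitions K F := by
  refine mem_repartitions_of_finite ((hpole f).subset fun v hv => ?_)
  simp only [Set.mem_ofPred_eq, cutFun] at hv ⊢
  by_cases hP : P v
  · rw [if_pos hP] at hv
    simp at hv
  · rwa [if_neg hP] at hv

/-- `f ↦ cut P f`, as a `K`-linear map into the repartitions. -/
noncomputable def cutLin (P : Place K F → Prop) : F →ₗ[K] ↥(repartitions K F) where
  toFun f := ⟨cutFun P f, cutFun_mem hpole P f⟩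
  map_add' f g := by
    apply Subtype.ext
    funext v
    show cutFun P (f + g) v = cutFun P f v + cutFun P g v
    simp only [cutFun]
    split_ifs <;> simp
  map_smul' c f := by
    apply Subtype.ext
    funext v
    show cutFun P (c • f) v = c • cutFun P f v
    simp only [cutFun]
    split_ifs <;> simp

@[simp] theorem cutLin_apply_of (P : Place K F → Prop) (f : F) {v : Place K F} (hv : P v) :
    ((cutLin hpole P f : ↥(repartitions K F)) : Place K F → F) v = 0 := by
  show cutFun P f v = 0
  simp [cutFun, hv]

@[simp] theorem cutLin_apply_of_not (P : Place K F → Prop) (f : F) {v : Place K F} (hv : ¬ P v) :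
    ((cutLin hpole P f : ↥(repartitions K F)) : Place K F → F) v = f := by
  show cutFun P f v = f
  simp [cutFun, hv]

/-- The map `F → H¹(D)`, `f ↦ [cut P f]`. -/
noncomputable def toH1 (P : Place K F → Prop) (D : Divisor K F) : F →ₗ[K] H1 D :=
  (Submodule.mkQ _).comp (cutLin hpole P)

theorem coe_algebraMap_repartitions (f : F) (v : Place K F) :
    ((algebraMap F ↥(repartitions K F) f : ↥(repartitions K F)) : Place K F → F) v = f := rfl

include hpole in
theorem toH1_surjective (P : Place K F → Prop) (hP : ApproxOn P)
    (hP' : ApproxOn (fun v : Place K F => ¬ P v)) (D : Divisor K F) :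
    Function.Surjective (toH1 hpole P D) := by
  intro x
  obtain ⟨α, rfl⟩ := Submodule.mkQ_surjective _ x
  obtain ⟨f₁, hf₁⟩ := hP α D
  obtain ⟨f₂, hf₂⟩ := hP' (α - algebraMap F _ f₁) D
  refine ⟨f₂, ?_⟩
  show Submodule.mkQ _ (cutLin hpole P f₂) = Submodule.mkQ _ α
  rw [Submodule.mkQ_apply, Submodule.mkQ_apply, Submodule.Quotient.eq]
  -- `cut f₂ - α = -(α - f₁ - cut f₂) - f₁`
  have hmem : (α - algebraMap F _ f₁ - cutLin hpole P f₂ : ↥(repartitions K F)) ∈
      repartitionsOf D := by
    intro v
    by_cases hv : P v
    · have := hf₁ v hv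
      show v.adicValuation ((α : Place K F → F) v - f₁ - cutFun P f₂ v) ≤ exp (D v)
      simpa [cutFun, hv] using this
    · have := hf₂ v hv
      show v.adicValuation ((α : Place K F → F) v - f₁ - cutFun P f₂ v) ≤ exp (D v)
      simpa [cutFun, hv] using this
  have hprinc : (algebraMap F ↥(repartitions K F) f₁) ∈ principalRepartitions K F :=
    mem_principalRepartitions_iff.2 ⟨f₁, rfl⟩
  have : cutLin hpole P f₂ - α =
      -(α - algebraMap F _ f₁ - cutLin hpole P f₂) + -(algebraMap F ↥(repartitions K F) f₁) := by
    abel
  rw [this]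
  exact Submodule.add_mem _ (Submodule.mem_sup_left (Submodule.neg_mem _ hmem))
    (Submodule.mem_sup_right (Submodule.neg_mem _ hprinc))

theorem ker_toH1 (P : Place K F → Prop) (D : Divisor K F) :
    LinearMap.ker (toH1 hpole P D) = lamOn P D ⊔ lamOn (fun v => ¬ P v) D := by
  ext f
  rw [LinearMap.mem_ker]
  show Submodule.mkQ _ (cutLin hpole P f) = 0 ↔ _
  rw [Submodule.mkQ_apply, Submodule.Quotient.mk_eq_zero, Submodule.mem_sup, Submodule.mem_sup]
  constructor
  · rintro ⟨β, hβ, γ, hγ, hsum⟩
    obtain ⟨h, hh⟩ := mem_principalRepartitions_iff.1 hγ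
    have hval : ∀ v, (β : Place K F → F) v + h = cutFun P f v := by
      intro v
      have := congrArg (fun x : ↥(repartitions K F) => (x : Place K F → F) v) hsum
      have h2 : ((β + γ : ↥(repartitions K F)) : Place K F → F) v =
          (β : Place K F → F) v + (γ : Place K F → F) v := rfl
      rw [h2, hh] at this
      exact this
    refine ⟨h, ?_, f - h, ?_, by ring⟩
    · intro v hv
      have h1 := hβ v
      have h2 := hval v
      simp only [cutFun, if_pos hv] at h2
      have h3 : (β : Place K F → F) v = -h := by linear_combination h2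
      rw [h3, Valuation.map_neg] at h1
      exact h1
    · intro v hv
      have h1 := hβ v
      have h2 := hval v
      simp only [cutFun, if_neg hv] at h2
      have h3 : (β : Place K F → F) v = f - h := by linear_combination h2
      rwa [h3] at h1
  · rintro ⟨a, ha, b, hb, rfl⟩
    refine ⟨cutLin hpole P (a + b) - algebraMap F _ a, ?_, algebraMap F _ a,
      mem_principalRepartitions_iff.2 ⟨a, rfl⟩, by abel⟩
    intro v
    show v.adicValuation (cutFun P (a + b) v - a) ≤ exp (D v)
    by_cases hv : P v
    · simp only [cutFun, if_pos hv, zero_sub, Valuation.map_neg]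
      exact ha v hv
    · simp only [cutFun, if_neg hv, add_sub_cancel_left]
      exact hb v hv

/-- **`H¹(D)` as a quotient of the function field.** -/
noncomputable def h1Equiv (P : Place K F → Prop) (hP : ApproxOn P)
    (hP' : ApproxOn (fun v : Place K F => ¬ P v)) (D : Divisor K F) :
    (F ⧸ (lamOn P D ⊔ lamOn (fun v => ¬ P v) D)) ≃ₗ[K] H1 D :=
  (Submodule.quotEquivOfEq _ _ (ker_toH1 hpole P D).symm).trans
    ((toH1 hpole P D).quotKerEquivOfSurjective (toH1_surjective hpole P hP hP' D))

end Cut

end Fermat.Agent.FF.Adele
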