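import Mathlib

/-!
# Track L-FF: strong approximation in a Dedekind domain

`R` a Dedekind domain with fraction field `F`.  Given a finite set `s` of height one primes,
targets `a w : F` and exponents `n w : ℤ`, there is `f : F` with `w(f - a w) ≤ exp (n w)` for
`w ∈ s` and `f` integral at all the other primes (Chinese remainder theorem).
-/

set_option autoImplicit false

open IsDedekindDomain WithZero

namespace Fermat.Agent.FF.Adele

variable {R : Type*} [CommRing R] [IsDedekindDomain R] {F : Type*} [Field F] [Algebra R F]
  [IsFractionRing R F]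

/-- The primes dividing a nonzero element form a finite set. -/
theorem finite_setOf_intValuation_lt_one {d : R} (hd : d ≠ 0) :
    {w : HeightOneSpectrum R | w.intValuation d < 1}.Finite := by
  have h0 : Ideal.span {d} ≠ (0 : Ideal R) := by
    rw [Ne, Ideal.zero_eq_bot, Ideal.span_singleton_eq_bot]
    exact hd
  refine (Ideal.finite_factors h0).subset fun w hw => ?_
  exact (w.intValuation_lt_one_iff_dvd d).1 hw

/-- **Strong approximation** for a Dedekind domain. -/
theorem exists_valuation_sub_le (s : Finset (HeightOneSpectrum R))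
    (a : HeightOneSpectrum R → F) (n : HeightOneSpectrum R → ℤ) :
    ∃ f : F, (∀ w ∈ s, w.valuation F (f - a w) ≤ exp (n w)) ∧
      ∀ w, w ∉ s → w.valuation F f ≤ 1 := by
  classical
  -- a common denominator
  obtain ⟨b, hb⟩ := IsLocalization.exist_integer_multiples_of_finset (nonZeroDivisors R)
    (s.image a)
  have hd : (b : R) ≠ 0 := nonZeroDivisors.ne_zero b.2
  have hr : ∀ w ∈ s, ∃ r : R, algebraMap R F r = algebraMap R F (b : R) * a w := by
    intro w hw
    obtain ⟨r, hr⟩ := hb (a w) (Finset.mem_image_of_mem a hw)
    refine ⟨r, ?_⟩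
    rw [hr, Algebra.smul_def]
  choose! r hr' using hr
  set T : Finset (HeightOneSpectrum R) := (finite_setOf_intValuation_lt_one hd).toFinset with hT
  -- the exponent of `w` in `d`
  have hm : ∀ w : HeightOneSpectrum R, ∃ m : ℕ, w.intValuation (b : R) = exp (-(m : ℤ)) := by
    intro w
    exact ⟨_, w.intValuation_if_neg hd⟩
  choose m hm' using hm
  set e : HeightOneSpectrum R → ℕ := fun w => if w ∈ s then m w + (-(n w)).toNat else m w
    with he
  set x : HeightOneSpectrum R → R := fun w => if w ∈ s then r w else 0 with hx
  obtain ⟨y, hy⟩ := IsDedekindDomain.exists_forall_sub_mem_ideal (s := s ∪ T)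
    (fun w : HeightOneSpectrum R => w.asIdeal) e (fun w _ => w.prime)
    (fun w _ w' _ hne h => hne (HeightOneSpectrum.ext h)) (fun w => x w.1)
  have hdF : algebraMap R F (b : R) ≠ 0 := by
    rw [Ne, IsFractionRing.to_map_eq_zero_iff]
    exact hd
  have hvald : ∀ w : HeightOneSpectrum R,
      w.valuation F (algebraMap R F (b : R)) = exp (-(m w : ℤ)) := by
    intro w
    rw [HeightOneSpectrum.valuation_of_algebraMap, hm' w]
  refine ⟨algebraMap R F y / algebraMap R F (b : R), ?_, ?_⟩
  · intro w hw
    have h1 := hy w (Finset.mem_union_left _ hw)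
    simp only [hx, he, if_pos hw] at h1
    have h2 : w.intValuation (y - r w) ≤ exp (-((m w + (-(n w)).toNat : ℕ) : ℤ)) :=
      (w.intValuation_le_pow_iff_mem _ _).2 h1
    have h3 : algebraMap R F y / algebraMap R F (b : R) - a w =
        algebraMap R F (y - r w) / algebraMap R F (b : R) := by
      rw [map_sub, hr' w hw]
      field_simp
    rw [h3, map_div₀, HeightOneSpectrum.valuation_of_algebraMap, hvald w]
    rw [div_le_iff₀ (by exact exp_pos)]
    refine h2.trans ?_
    rw [← exp_add, exp_le_exp]
    have := Int.self_le_toNat (-(n w))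
    push_cast
    omega
  · intro w hw
    rw [map_div₀, hvald w, div_le_iff₀ (by exact exp_pos), one_mul,
      HeightOneSpectrum.valuation_of_algebraMap]
    by_cases hwT : w ∈ T
    · have h1 := hy w (Finset.mem_union_right _ hwT)
      simp only [hx, he, if_neg hw, sub_zero] at h1
      exact (w.intValuation_le_pow_iff_mem _ _).2 h1
    · have h1 : ¬ w.intValuation (b : R) < 1 := by
        intro h
        exact hwT ((finite_setOf_intValuation_lt_one hd).mem_toFinset.2 h)
      have h2 : w.intValuation (b : R) = 1 :=
        le_antisymm (w.intValuation_le_one _) (not_lt.1 h1)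
      rw [← hm' w, h2]
      exact w.intValuation_le_one y

end Fermat.Agent.FF.Adele
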