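import Fermat.Agent.FF.AdeleAbstract
import Fermat.Agent.FF.DedekindApprox
import Fermat.Agent.X0.Alg.EssFT

/-!
# Track L-FF, node FF-ADELE (Dedekind part): approximation on the places of a Dedekind model

`R` a Dedekind domain with fraction field `F`, a `K`-algebra.  `FromModel R v` says that the place
`v` of `F/K` comes from a height one prime of `R`.

* `mem_repartitions_iff_poleSet` : a function `Place K F → F` is a repartition iff it has finitely many
  poles (if every constant has finitely many poles);
* `finite_poles_fromModel` : every `f : F` has finitely many poles among the places of `R`;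
* `approxOn_fromModel` : the approximation property `ApproxOn (FromModel R)` (Chinese remainder
  theorem).
-/

set_option autoImplicit false

open AlgebraicCurve IsDedekindDomain WithZero

namespace Fermat.Agent.FF.Adele

open Fermat.Agent.X0

variable {K F : Type*} [Field K] [Field F] [Algebra K F]

section Repartitions

/-- The set of poles of a function on the places. -/
def poleSet (α : Place K F → F) : Set (Place K F) := {v | ¬ v.adicValuation (α v) ≤ 1}

theorem poleSet_add_subset (α β : Place K F → F) :
    poleSet (α + β) ⊆ poleSet α ∪ poleSet β := by
  intro v hv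
  by_contra h
  rw [Set.mem_union, not_or] at h
  simp only [poleSet, Set.mem_ofPred_eq, not_not] at h hv
  exact hv ((Valuation.map_add _ _ _).trans (max_le h.1 h.2))

theorem poleSet_mul_subset (α β : Place K F → F) :
    poleSet (α * β) ⊆ poleSet α ∪ poleSet β := by
  intro v hv
  by_contra h
  rw [Set.mem_union, not_or] at h
  simp only [poleSet, Set.mem_ofPred_eq, not_not] at h hv
  apply hv
  show v.adicValuation (α v * β v) ≤ 1
  rw [map_mul]
  exact mul_le_one' h.1 h.2

/-- A function on the places is a repartition iff it has finitely many poles. -/
theorem mem_repartitions_iff_poleSet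
    (hpole : ∀ f : F, {v : Place K F | ¬ v.adicValuation f ≤ 1}.Finite)
    (α : Place K F → F) : α ∈ repartitions K F ↔ (poleSet α).Finite := by
  constructor
  · intro hα
    induction hα using Algebra.adjoin_induction with
    | mem α hα => exact hα
    | algebraMap f => exact hpole f
    | add α β _ _ h1 h2 => exact (h1.union h2).subset (poleSet_add_subset α β)
    | mul α β _ _ h1 h2 => exact (h1.union h2).subset (poleSet_mul_subset α β)
  · intro h
    exact mem_repartitions_of_finite h

end Repartitions

section Model

variable (K) (R : Type*) [CommRing R] [IsDedekindDomain R] [Algebra R F] [IsFractionRing R F]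
  [Algebra K R] [IsScalarTower K R F]

/-- The place `v` comes from a height one prime of the Dedekind model `R`. -/
def FromModel (v : Place K F) : Prop :=
  ∃ w : HeightOneSpectrum R, Place.ofHeightOneSpectrum (K := K) (F := F) w = v

variable {K}

theorem fromModel_iff (v : Place K F) :
    FromModel K R v ↔ ∀ r : R, algebraMap R F r ∈ v.toValuationSubring := by
  constructor
  · rintro ⟨w, rfl⟩ r
    exact Place.algebraMap_mem_ofHeightOneSpectrum w r
  · intro h
    exact Place.exists_ofHeightOneSpectrum_eq v h

/-- Every function has finitely many poles among the places of the model. -/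
theorem finite_poles_fromModel (f : F) :
    {v : Place K F | FromModel K R v ∧ ¬ v.adicValuation f ≤ 1}.Finite := by
  have h := HeightOneSpectrum.Support.finite R f
  refine (h.image (Place.ofHeightOneSpectrum (K := K) (F := F))).subset ?_
  rintro v ⟨⟨w, rfl⟩, hv⟩
  refine ⟨w, ?_, rfl⟩
  rw [Place.adicValuation_ofHeightOneSpectrum] at hv
  exact not_le.1 hv

/-- **Approximation on the places of a Dedekind model.** -/
theorem approxOn_fromModel
    (hpole : ∀ f : F, {v : Place K F | ¬ v.adicValuation f ≤ 1}.Finite) :
    ApproxOn (FromModel K R : Place K F → Prop) := by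
  classical
  intro α D
  have hα : (poleSet (α : Place K F → F)).Finite := (mem_repartitions_iff_poleSet hpole _).1 α.2
  have hfin : (poleSet (α : Place K F → F) ∪ (D.support : Set (Place K F))).Finite :=
    hα.union D.support.finite_toSet
  have hpre := hfin.preimage
    (Place.ofHeightOneSpectrum_injective (K := K) (F := F) (R := R)).injOn
  obtain ⟨f, hf1, hf2⟩ := exists_valuation_sub_le (F := F) hpre.toFinset
    (fun w => (α : Place K F → F) (Place.ofHeightOneSpectrum (K := K) (F := F) w))
    (fun w => D (Place.ofHeightOneSpectrum (K := K) (F := F) w))
  refine ⟨f, ?_⟩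
  rintro v ⟨w, rfl⟩
  rw [Place.adicValuation_ofHeightOneSpectrum]
  by_cases hw : w ∈ hpre.toFinset
  · have := hf1 w hw
    rw [← Valuation.map_neg, neg_sub] at this
    exact this
  · have h1 := hf2 w hw
    rw [Set.Finite.mem_toFinset, Set.mem_preimage, Set.mem_union, not_or] at hw
    obtain ⟨hw1, hw2⟩ := hw
    simp only [poleSet, Set.mem_ofPred_eq, not_not] at hw1
    rw [Place.adicValuation_ofHeightOneSpectrum] at hw1
    have hD : D (Place.ofHeightOneSpectrum (K := K) (F := F) w) = 0 := by
      by_contra h
      exact hw2 (Finset.mem_coe.2 (Finsupp.mem_support_iff.2 h))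
    rw [hD, exp_zero]
    exact (Valuation.map_sub _ _ _).trans (max_le hw1 h1)

/-- Membership in the half lattice at the places of a Dedekind model, via the primes. -/
theorem mem_lamOn_fromModel (D : Divisor K F) (f : F) :
    f ∈ lamOn (FromModel K R) D ↔ ∀ w : HeightOneSpectrum R,
      w.valuation F f ≤ exp (D (Place.ofHeightOneSpectrum (K := K) (F := F) w)) := by
  rw [mem_lamOn]
  constructor
  · intro h w
    have := h _ ⟨w, rfl⟩
    rwa [Place.adicValuation_ofHeightOneSpectrum] at this
  · rintro h v ⟨w, rfl⟩
    rw [Place.adicValuation_ofHeightOneSpectrum]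
    exact h w

/-- The half lattice of the zero divisor at the places of a Dedekind model is the model. -/
theorem mem_lamOn_fromModel_zero (f : F) :
    f ∈ lamOn (FromModel K R) (0 : Divisor K F) ↔ f ∈ (algebraMap R F).range := by
  rw [mem_lamOn_fromModel]
  constructor
  · intro h
    refine HeightOneSpectrum.mem_integers_of_valuation_le_one F f fun w => ?_
    simpa using h w
  · rintro ⟨r, rfl⟩ w
    simpa using w.valuation_le_one r

end Model

end Fermat.Agent.FF.Adele
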