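import Mathlib
import Fermat.Agent.FF.DiffExp

/-!
# L-FF (FF-DIFF, part 2): totally ramified primes are monogenic; Hilbert's different formula

`A ⊆ B` Dedekind domains, `B` finite and torsion free over `A`, `v` a height one prime of `B`
over `p = v ∩ A` with trivial residue field extension (`A → B ⧸ v` surjective), and `v` the only
prime over `p`.  For a uniformiser `u ∈ v \ v²`:

* `exists_adjoin_sub_mem_pow` : `B = A[u] + v ^ m` for every `m`;
* `exists_notMem_smul_mem_adjoin` : some `s ∈ A \ p` has `s B ⊆ A[u]` (Nakayama);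
* `not_conductor_le_of_totallyRamified` : the conductor of `A[u]` is not contained in `v`;
* `diffExp_eq_count_aeval_derivative_of_totallyRamified` : `d_v = ord_v (f'(u))`,
  `f` the minimal polynomial of `u` over `A`.
-/

set_option autoImplicit false
set_option linter.deprecated false
set_option linter.unusedSectionVars false

namespace Fermat.Agent.FF

open Ideal Module UniqueFactorizationMonoid IsDedekindDomain Fermat.Agent.X0.RR
open scoped nonZeroDivisors

attribute [local instance] FractionRing.liftAlgebra FractionRing.isScalarTower_liftAlgebra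
  Ideal.Quotient.field

section Uniformiser

variable {B : Type*} [CommRing B] [IsDedekindDomain B]

/-- A uniformiser `u ∈ v \ v²` has `u ^ m ∈ v ^ m`. -/
theorem pow_mem_pow_of_mem (v : HeightOneSpectrum B) {u : B} (hu : u ∈ v.asIdeal) (m : ℕ) :
    u ^ m ∈ v.asIdeal ^ m := Ideal.pow_mem_pow hu m

/-- A uniformiser `u ∈ v \ v²` has `u ^ m ∉ v ^ (m + 1)`. -/
theorem pow_notMem_pow_succ (v : HeightOneSpectrum B) {u : B} (hu : u ∈ v.asIdeal)
    (hu2 : u ∉ v.asIdeal ^ 2) (m : ℕ) : u ^ m ∉ v.asIdeal ^ (m + 1) := by
  have h1 : emultiplicity v.asIdeal (Ideal.span {u}) = ((1 : ℕ) : ℕ∞) := by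
    rw [emultiplicity_eq_coe]
    refine ⟨?_, ?_⟩
    · rw [pow_one, Ideal.dvd_span_singleton]; exact hu
    · rw [Ideal.dvd_span_singleton]; exact hu2
  have h2 : emultiplicity v.asIdeal (Ideal.span {u ^ m}) = (m : ℕ∞) := by
    rw [← Ideal.span_singleton_pow, emultiplicity_pow v.prime, h1]
    simp
  intro hmem
  have h3 : v.asIdeal ^ (m + 1) ∣ Ideal.span {u ^ m} := Ideal.dvd_span_singleton.mpr hmem
  have h4 := le_emultiplicity_of_pow_dvd h3
  rw [h2] at h4
  exact absurd (Nat.cast_le.mp h4) (by omega)

/-- The count of `v` in a finite product of nonzero ideals. -/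
theorem count_finset_prod_ideal {ι : Type*} [DecidableEq (Ideal B)] (v : HeightOneSpectrum B)
    (s : Finset ι) (I : ι → Ideal B) (hI : ∀ i ∈ s, I i ≠ ⊥) :
    (normalizedFactors (∏ i ∈ s, I i)).count v.asIdeal =
      ∑ i ∈ s, (normalizedFactors (I i)).count v.asIdeal := by
  classical
  induction s using Finset.induction_on with
  | empty =>
    simp only [Finset.prod_empty, Finset.sum_empty, Ideal.one_eq_top]
    rw [← Ideal.one_eq_top, normalizedFactors_one]
    simp
  | insert a s ha ih =>
    rw [Finset.prod_insert ha, Finset.sum_insert ha]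
    have h1 : I a ≠ ⊥ := hI a (Finset.mem_insert_self _ _)
    have h2 : ∏ i ∈ s, I i ≠ ⊥ := by
      rw [Ne, ← Ideal.zero_eq_bot, Finset.prod_eq_zero_iff]
      rintro ⟨i, hi, h0⟩
      exact hI i (Finset.mem_insert_of_mem hi) h0
    rw [count_mul_ideal v h1 h2, ih (fun i hi => hI i (Finset.mem_insert_of_mem hi))]

end Uniformiser

section Charpoly

open Polynomial

variable {B : Type*} [CommRing B] (G : Type*) [Group G] [Fintype G] [MulSemiringAction G B]

/-- `f'(u) = ∏_{σ ≠ 1} (u - σ u)` for `f = ∏_σ (X - σ u)`. -/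
theorem eval_derivative_charpoly [DecidableEq G] (u : B) :
    eval u (derivative (MulSemiringAction.charpoly G u)) =
      ∏ σ ∈ Finset.univ.erase (1 : G), (u - σ • u) := by
  rw [MulSemiringAction.charpoly_eq, derivative_prod_finset, eval_finset_sum,
    Finset.sum_eq_single (1 : G)]
  · simp [eval_prod]
  · intro σ _ hσ
    rw [eval_mul, eval_prod, Finset.prod_eq_zero (i := (1 : G))]
    · simp
    · exact Finset.mem_erase.mpr ⟨fun h => hσ h.symm, Finset.mem_univ _⟩
    · simp
  · intro h; exact absurd (Finset.mem_univ _) h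

end Charpoly

section Monogenic

variable {A B : Type*} [CommRing A] [CommRing B] [Algebra A B]
  [IsDedekindDomain A] [IsDedekindDomain B] [IsTorsionFree A B] [Module.Finite A B]

/-- `B = A[u] + v ^ m` for a uniformiser `u` at a prime `v` with trivial residue extension. -/
theorem exists_adjoin_sub_mem_pow (v : HeightOneSpectrum B) {u : B} (hu : u ∈ v.asIdeal)
    (hu2 : u ∉ v.asIdeal ^ 2)
    (hres : Function.Surjective ((Ideal.Quotient.mk v.asIdeal).comp (algebraMap A B)))
    (m : ℕ) (b : B) : ∃ a ∈ Algebra.adjoin A {u}, b - a ∈ v.asIdeal ^ m := by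
  induction m with
  | zero => exact ⟨0, zero_mem _, by simp⟩
  | succ m ih =>
    obtain ⟨a, ha, hba⟩ := ih
    obtain ⟨d, e, he, hde⟩ := Ideal.exists_mul_add_mem_pow_succ v.ne_bot (u ^ m) (b - a)
      (pow_mem_pow_of_mem v hu m) (pow_notMem_pow_succ v hu hu2 m) hba
    obtain ⟨a', ha'⟩ := hres (Ideal.Quotient.mk v.asIdeal d)
    have hz : d - algebraMap A B a' ∈ v.asIdeal := by
      rw [← Ideal.Quotient.eq]
      exact ha'.symm
    refine ⟨a + u ^ m * algebraMap A B a', ?_, ?_⟩
    · refine add_mem ha (mul_mem (pow_mem (Algebra.self_mem_adjoin_singleton A u) m) ?_)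
      exact Subalgebra.algebraMap_mem _ a'
    · have : b - (a + u ^ m * algebraMap A B a') = u ^ m * (d - algebraMap A B a') + e := by
        rw [← sub_sub, ← hde]; ring
      rw [this]
      refine add_mem ?_ he
      rw [pow_succ]
      exact Ideal.mul_mem_mul (pow_mem_pow_of_mem v hu m) hz

/-- **Nakayama**: if `v` is the only prime over `p = v ∩ A`, with trivial residue extension,
and `u` is a uniformiser at `v`, then `s B ⊆ A[u]` for some `s ∈ A \ p`. -/
theorem exists_notMem_smul_mem_adjoin (v : HeightOneSpectrum B) {u : B} (hu : u ∈ v.asIdeal)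
    (hu2 : u ∉ v.asIdeal ^ 2)
    (hres : Function.Surjective ((Ideal.Quotient.mk v.asIdeal).comp (algebraMap A B)))
    {e : ℕ} (he : v.asIdeal ^ e ≤ Ideal.map (algebraMap A B) (v.asIdeal.under A)) :
    ∃ s : A, s ∉ v.asIdeal.under A ∧ ∀ b : B, algebraMap A B s * b ∈ Algebra.adjoin A {u} := by
  set p := v.asIdeal.under A with hp
  have hfg : (⊤ : Submodule A B).FG := Module.Finite.fg_top
  have hle : (⊤ : Submodule A B) ≤
      Subalgebra.toSubmodule (Algebra.adjoin A {u}) ⊔ p • (⊤ : Submodule A B) := by
    intro b _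
    obtain ⟨a, ha, hba⟩ := exists_adjoin_sub_mem_pow v hu hu2 hres e b
    rw [Ideal.smul_top_eq_map]
    refine Submodule.mem_sup.mpr ⟨a, ha, b - a, ?_, by ring⟩
    exact he hba
  obtain ⟨r, hr1, hr⟩ := Submodule.exists_sub_one_mem_and_smul_le_of_fg_of_le_sup
    (I := p) hfg le_rfl hle
  refine ⟨r, ?_, fun b => ?_⟩
  · intro hrp
    have : (1 : A) ∈ p := by
      have := p.sub_mem hrp hr1
      simpa using this
    have hpne : p ≠ ⊤ := (Ideal.IsPrime.under A v.asIdeal).ne_top
    exact hpne ((Ideal.eq_top_iff_one p).mpr this)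
  · have : r • b ∈ Subalgebra.toSubmodule (Algebra.adjoin A {u}) :=
      hr (Submodule.smul_mem_pointwise_smul b r ⊤ Submodule.mem_top)
    rwa [Algebra.smul_def] at this

/-- The conductor of `A[u]` is not contained in `v` (totally ramified prime, uniformiser `u`). -/
theorem not_conductor_le_of_totallyRamified (v : HeightOneSpectrum B) {u : B}
    (hu : u ∈ v.asIdeal) (hu2 : u ∉ v.asIdeal ^ 2)
    (hres : Function.Surjective ((Ideal.Quotient.mk v.asIdeal).comp (algebraMap A B)))
    {e : ℕ} (he : v.asIdeal ^ e ≤ Ideal.map (algebraMap A B) (v.asIdeal.under A)) :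
    ¬ conductor A u ≤ v.asIdeal := by
  obtain ⟨s, hs, hsb⟩ := exists_notMem_smul_mem_adjoin v hu hu2 hres he
  intro hle
  have hmem : algebraMap A B s ∈ conductor A u := by
    rw [mem_conductor_iff]
    exact hsb
  exact hs (Ideal.mem_comap.mpr (hle hmem))

/-- If `s B ⊆ A[u]` for some nonzero `s ∈ A`, then `u` is a primitive element of
`Frac B / Frac A`. -/
theorem adjoin_fractionRing_eq_top_of_smul_mem {u : B} {s : A} (hs : s ≠ 0)
    (hsb : ∀ b : B, algebraMap A B s * b ∈ Algebra.adjoin A {u}) :
    Algebra.adjoin (FractionRing A) {algebraMap B (FractionRing B) u} = ⊤ := by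
  set K := FractionRing A
  set L := FractionRing B
  have hint : IsIntegral K (algebraMap B L u) := by
    have h1 : IsIntegral A u := Algebra.IsIntegral.isIntegral u
    have h2 : IsIntegral A (algebraMap B L u) := h1.map (IsScalarTower.toAlgHom A B L)
    exact h2.tower_top
  have hfield := IntermediateField.adjoin_simple_toSubalgebra_of_isAlgebraic hint.isAlgebraic
  have hsK : algebraMap A K s ≠ 0 := by
    simpa using (IsFractionRing.injective A K).ne hs
  -- every element of `B` lies in `K[u]`
  have hB : ∀ b : B, algebraMap B L b ∈ Algebra.adjoin K {algebraMap B L u} := by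
    intro b
    have h1 : algebraMap B L (algebraMap A B s * b) ∈ Algebra.adjoin K {algebraMap B L u} := by
      have h2 := hsb b
      have h3 : algebraMap B L (algebraMap A B s * b) ∈
          (Algebra.adjoin A {u}).map (IsScalarTower.toAlgHom A B L) := ⟨_, h2, rfl⟩
      rw [AlgHom.map_adjoin_singleton] at h3
      have h4 : (Algebra.adjoin A {algebraMap B L u} : Set L) ⊆
          Algebra.adjoin K {algebraMap B L u} := by
        intro y hy
        refine Algebra.adjoin_induction (p := fun y _ => y ∈ Algebra.adjoin K {algebraMap B L u})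
          (fun x hx => Algebra.subset_adjoin hx) (fun a => ?_)
          (fun x y _ _ hx hy => add_mem hx hy) (fun x y _ _ hx hy => mul_mem hx hy) hy
        rw [IsScalarTower.algebraMap_apply A K L]
        exact Subalgebra.algebraMap_mem _ _
      exact h4 h3
    have h5 : algebraMap B L b = (algebraMap A K s)⁻¹ • algebraMap B L (algebraMap A B s * b) := by
      rw [map_mul, ← IsScalarTower.algebraMap_apply A B L, IsScalarTower.algebraMap_apply A K L,
        Algebra.smul_def, ← mul_assoc, ← map_mul, inv_mul_cancel₀ hsK, map_one, one_mul]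
    rw [h5]
    exact Subalgebra.smul_mem _ h1 _
  rw [eq_top_iff]
  intro y _
  obtain ⟨b₁, b₂, -, rfl⟩ := IsFractionRing.div_surjective (A := B) y
  rw [← hfield, IntermediateField.mem_toSubalgebra]
  have hb (b : B) : algebraMap B L b ∈ IntermediateField.adjoin K {algebraMap B L u} := by
    rw [← IntermediateField.mem_toSubalgebra, hfield]
    exact hB b
  exact div_mem (hb b₁) (hb b₂)

variable [Algebra.IsSeparable (FractionRing A) (FractionRing B)]

open Polynomial in
/-- **Totally ramified primes are monogenic**: if `v` is the only prime of `B` over `p = v ∩ A`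
(`v ^ e ≤ p B`), the residue field extension is trivial and `u ∈ v \ v²` is a uniformiser, then
`u` generates `Frac B` over `Frac A` and `d_v = ord_v (f'(u))`, `f` the minimal polynomial of `u`
over `A`. -/
theorem diffExp_eq_count_aeval_derivative_of_totallyRamified [DecidableEq (Ideal B)]
    (v : HeightOneSpectrum B) {u : B}
    (hu : u ∈ v.asIdeal) (hu2 : u ∉ v.asIdeal ^ 2)
    (hres : Function.Surjective ((Ideal.Quotient.mk v.asIdeal).comp (algebraMap A B)))
    {e : ℕ} (he : v.asIdeal ^ e ≤ Ideal.map (algebraMap A B) (v.asIdeal.under A)) :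
    Algebra.adjoin (FractionRing A) {algebraMap B (FractionRing B) u} = ⊤ ∧
    diffExp A v =
      (normalizedFactors (Ideal.span {aeval u (derivative (minpoly A u))})).count v.asIdeal := by
  obtain ⟨s, hs, hsb⟩ := exists_notMem_smul_mem_adjoin v hu hu2 hres he
  have hs0 : s ≠ 0 := fun h => hs (h ▸ Ideal.zero_mem _)
  have hx := adjoin_fractionRing_eq_top_of_smul_mem hs0 hsb
  have hc := not_conductor_le_of_totallyRamified v hu hu2 hres he
  have : IsLocalization (Algebra.algebraMapSubmonoid B A⁰) (FractionRing B) :=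
    IsIntegralClosure.isLocalization _ (FractionRing A) _ _
  have : FiniteDimensional (FractionRing A) (FractionRing B) := .of_isLocalization A B A⁰
  exact ⟨hx, diffExp_eq_count_of_not_conductor_le A (FractionRing A) (FractionRing B) v u hx hc⟩

end Monogenic

section Galois

open scoped Pointwise
open Polynomial

variable {A B : Type*} [CommRing A] [CommRing B] [Algebra A B]
  [IsDedekindDomain A] [IsDedekindDomain B] [IsTorsionFree A B] [Module.Finite A B]
  (G : Type*) [Group G] [Fintype G] [MulSemiringAction G B] [IsGaloisGroup G A B]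

/-- If all of `G` fixes `v`, then `v` is the only prime over `p = v ∩ A`, so `v ^ e ≤ p B`. -/
theorem exists_pow_le_map_of_forall_smul_eq (v : HeightOneSpectrum B)
    (hstab : ∀ σ : G, σ • v.asIdeal = v.asIdeal) :
    ∃ e : ℕ, v.asIdeal ^ e ≤ Ideal.map (algebraMap A B) (v.asIdeal.under A) := by
  classical
  have := v.isMaximal
  have hp : v.asIdeal.under A ≠ ⊥ := Ideal.under_ne_bot A v.ne_bot
  have : (v.asIdeal.under A).IsMaximal := Ideal.IsMaximal.under A v.asIdeal
  have hmap : Ideal.map (algebraMap A B) (v.asIdeal.under A) ≠ ⊥ :=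
    (Ideal.map_eq_bot_iff_of_injective (FaithfulSMul.algebraMap_injective A B)).not.mpr hp
  have hall : ∀ Q ∈ normalizedFactors (Ideal.map (algebraMap A B) (v.asIdeal.under A)),
      Q = v.asIdeal := by
    intro Q hQ
    rw [← Ideal.mem_primesOver_iff_mem_normalizedFactors B hp] at hQ
    obtain ⟨hQprime, hQover⟩ := hQ
    obtain ⟨g, hg⟩ := Algebra.IsInvariant.exists_smul_of_under_eq A B G v.asIdeal Q
      (by rw [← hQover.over])
    rw [hg, hstab]
  refine ⟨Multiset.card (normalizedFactors (Ideal.map (algebraMap A B) (v.asIdeal.under A))), ?_⟩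
  have h1 := Multiset.eq_replicate_card.mpr hall
  have hprod := Ideal.prod_normalizedFactors_eq_self hmap
  rw [h1, Multiset.prod_replicate] at hprod
  exact hprod.le

/-- The `G`-conjugates of a uniformiser at a totally ramified prime are pairwise distinct. -/
theorem smul_injective_of_smul_mem_adjoin {u : B} {s : A} (hs : s ≠ 0)
    (hsb : ∀ b : B, algebraMap A B s * b ∈ Algebra.adjoin A {u}) :
    Function.Injective (fun σ : G => σ • u) := by
  have hfaith : FaithfulSMul G B := IsGaloisGroup.faithful A
  intro σ τ hστ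
  have hρ : (τ⁻¹ * σ) • u = u := by
    rw [mul_smul]
    simp only at hστ
    rw [hστ, inv_smul_smul]
  -- `ρ = τ⁻¹ σ` fixes `A[u]` pointwise
  have hfix : ∀ y ∈ Algebra.adjoin A {u}, (τ⁻¹ * σ) • y = y := by
    intro y hy
    refine Algebra.adjoin_induction (p := fun y _ => (τ⁻¹ * σ) • y = y) ?_ ?_ ?_ ?_ hy
    · intro x hx
      rw [Set.mem_singleton_iff.mp hx]; exact hρ
    · intro a; exact smul_algebraMap _ a
    · intro x y _ _ hx hy; rw [smul_add, hx, hy]
    · intro x y _ _ hx hy; rw [smul_mul', hx, hy]
  have hsB : algebraMap A B s ≠ 0 := by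
    simpa using (FaithfulSMul.algebraMap_injective A B).ne hs
  have hall : ∀ b : B, (τ⁻¹ * σ) • b = (1 : G) • b := by
    intro b
    have h1 := hfix _ (hsb b)
    rw [smul_mul', smul_algebraMap] at h1
    rw [one_smul]
    exact mul_left_cancel₀ hsB h1
  have h1 : τ⁻¹ * σ = 1 := eq_of_smul_eq_smul hall
  have : σ = τ := by
    have := congrArg (fun x => τ * x) h1
    simpa using this
  exact this

/-- The minimal polynomial of `u` is `∏_σ (X - σ u)` when the conjugates are distinct. -/
theorem map_minpoly_eq_charpoly_of_injective {u : B}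
    (hinj : Function.Injective (fun σ : G => σ • u)) :
    (minpoly A u).map (algebraMap A B) = MulSemiringAction.charpoly G u := by
  classical
  have hAu : IsIntegral A u := Algebra.IsIntegral.isIntegral u
  obtain ⟨M, hM, hMdeg, hMmonic⟩ := Polynomial.lifts_and_natDegree_eq_and_monic
    (Algebra.IsInvariant.charpoly_mem_lifts A B G u) (MulSemiringAction.monic_charpoly G u)
  have hMroot : aeval u M = 0 := by
    rw [aeval_def, ← eval_map, hM, MulSemiringAction.eval_charpoly]
  have hdvd : minpoly A u ∣ M := minpoly.isIntegrallyClosed_dvd hAu hMroot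
  have hdegM : M.natDegree = Fintype.card G := by
    rw [hMdeg, MulSemiringAction.charpoly_eq, natDegree_prod_of_monic _ _ (fun σ _ => monic_X_sub_C _)]
    simp
  -- all conjugates are roots of the minimal polynomial
  have hroots : (Finset.univ.image (fun σ : G => σ • u)).val ⊆
      ((minpoly A u).map (algebraMap A B)).roots := by
    intro y hy
    rw [Finset.mem_val, Finset.mem_image] at hy
    obtain ⟨σ, -, rfl⟩ := hy
    rw [mem_roots (Polynomial.map_monic_ne_zero (minpoly.monic hAu)), IsRoot.def, eval_map,
      ← aeval_def]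
    have h1 : aeval (σ • u) (minpoly A u) = σ • aeval u (minpoly A u) := by
      have := Polynomial.aeval_algHom_apply (MulSemiringAction.toAlgHom A B σ) u (minpoly A u)
      simpa using this
    rw [h1, minpoly.aeval, smul_zero]
  have hcard := Polynomial.card_le_degree_of_subset_roots hroots
  rw [Finset.card_image_of_injective _ hinj, Finset.card_univ,
    (minpoly.monic hAu).natDegree_map] at hcard
  have heq : M = minpoly A u :=
    Polynomial.eq_of_monic_of_dvd_of_natDegree_le (minpoly.monic hAu) hMmonic hdvd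
      (by rw [hdegM]; exact hcard)
  rw [← heq, hM]

variable [Algebra.IsSeparable (FractionRing A) (FractionRing B)]

/-- **Hilbert's different formula, totally ramified case.**  `G` a finite group acting on `B`
with invariants `A`, `v` a prime of `B` fixed by all of `G`, with trivial residue field
extension, `u` a uniformiser at `v`.  Then `d_v = ∑_{σ ≠ 1} ord_v (u - σ u)`. -/
theorem diffExp_eq_sum_of_forall_smul_eq [DecidableEq G] [DecidableEq (Ideal B)]
    (v : HeightOneSpectrum B) (hstab : ∀ σ : G, σ • v.asIdeal = v.asIdeal) {u : B}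
    (hu : u ∈ v.asIdeal) (hu2 : u ∉ v.asIdeal ^ 2)
    (hres : Function.Surjective ((Ideal.Quotient.mk v.asIdeal).comp (algebraMap A B))) :
    diffExp A v = ∑ σ ∈ Finset.univ.erase (1 : G),
      (normalizedFactors (Ideal.span {u - σ • u})).count v.asIdeal := by
  obtain ⟨e, he⟩ := exists_pow_le_map_of_forall_smul_eq (A := A) G v hstab
  obtain ⟨s, hs, hsb⟩ := exists_notMem_smul_mem_adjoin v hu hu2 hres he
  have hs0 : s ≠ 0 := fun h => hs (h ▸ Ideal.zero_mem _)
  have hinj := smul_injective_of_smul_mem_adjoin G hs0 hsb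
  obtain ⟨-, hd⟩ := diffExp_eq_count_aeval_derivative_of_totallyRamified v hu hu2 hres he
  have h1 : aeval u (derivative (minpoly A u)) = ∏ σ ∈ Finset.univ.erase (1 : G), (u - σ • u) := by
    rw [aeval_def, ← eval_map, ← derivative_map, map_minpoly_eq_charpoly_of_injective G hinj,
      eval_derivative_charpoly]
  rw [hd, h1, ← Ideal.prod_span_singleton]
  refine count_finset_prod_ideal v _ _ (fun σ hσ => ?_)
  rw [Ne, Ideal.span_singleton_eq_bot, sub_eq_zero]
  intro h
  have h2 : (fun σ : G => σ • u) 1 = (fun σ : G => σ • u) σ := by simpa using h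
  exact (Finset.mem_erase.mp hσ).1 (hinj h2).symm

end Galois

end Fermat.Agent.FF
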