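import Mathlib
import Fermat.Agent.FF.DiffExpLocal

/-!
# L-FF (FF-DIFF, part 3): Hilbert's different formula, general Galois case

`A ⊆ B` Dedekind domains, `B` finite over `A`, `G` a finite group acting on `B` with invariants
`A`.  For a height one prime `v` of `B` with trivial residue field extension, decomposition group
`D = Stab_G(v)` and a uniformiser `u` at `v`:

`d_v = ∑_{σ ∈ D, σ ≠ 1} ord_v (u - σ u)`   (`diffExp_eq_sum_stabilizer`).

The proof passes through the decomposition ring `B^D`, which is a Dedekind domain
(`isDedekindDomain_fixedPoints`), over which `v` is totally ramified, and whose prime `v ∩ B^D`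
is unramified of degree one over `A` (`ramificationIdx_under_fixedPoints_eq_one`).
-/

set_option autoImplicit false
set_option linter.deprecated false
set_option linter.unusedSectionVars false

namespace Fermat.Agent.FF

open Ideal Module UniqueFactorizationMonoid IsDedekindDomain Fermat.Agent.X0.RR
open scoped nonZeroDivisors Pointwise

attribute [local instance] FractionRing.liftAlgebra FractionRing.isScalarTower_liftAlgebra
  Ideal.Quotient.field

section InvRing

variable {A B : Type*} [CommRing A] [CommRing B] [Algebra A B]
  [IsDedekindDomain A] [IsDedekindDomain B] [IsTorsionFree A B] [Module.Finite A B]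
  (G : Type*) [Group G] [MulSemiringAction G B] [SMulCommClass G A B] (H : Subgroup G)

theorem finite_fixedPoints : Module.Finite A (FixedPoints.subalgebra A B H) := by
  have : IsNoetherian A B := isNoetherian_of_isNoetherianRing_of_finite A B
  exact Module.Finite.of_injective (FixedPoints.subalgebra A B H).val.toLinearMap
    Subtype.val_injective

theorem finite_over_fixedPoints : Module.Finite (FixedPoints.subalgebra A B H) B :=
  Module.Finite.of_restrictScalars_finite A (FixedPoints.subalgebra A B H) B

theorem isNoetherianRing_fixedPoints : IsNoetherianRing (FixedPoints.subalgebra A B H) := by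
  have := finite_fixedPoints (A := A) (B := B) G H
  have h1 : IsNoetherian A (FixedPoints.subalgebra A B H) :=
    isNoetherian_of_isNoetherianRing_of_finite A _
  exact isNoetherian_of_tower A h1

theorem isIntegrallyClosed_fixedPoints : IsIntegrallyClosed (FixedPoints.subalgebra A B H) := by
  set B' := FixedPoints.subalgebra A B H
  set L' := FractionRing B'
  set L := FractionRing B
  rw [isIntegrallyClosed_iff L']
  intro x hx
  obtain ⟨b₁, b₂, hb₂, rfl⟩ := IsFractionRing.div_surjective (A := B') x
  have hb₂0 : (b₂ : B') ≠ 0 := nonZeroDivisors.ne_zero hb₂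
  have hb₂B : ((b₂ : B') : B) ≠ 0 := fun h => hb₂0 (Subtype.ext h)
  -- transport to `Frac B`
  have hx' : IsIntegral B' (algebraMap L' L (algebraMap B' L' b₁ / algebraMap B' L' b₂)) :=
    hx.map (IsScalarTower.toAlgHom B' L' L)
  have hx'' : IsIntegral B (algebraMap L' L (algebraMap B' L' b₁ / algebraMap B' L' b₂)) :=
    hx'.tower_top
  obtain ⟨b, hb⟩ := IsIntegrallyClosed.algebraMap_eq_of_integral hx''
  have hmap (y : B') : algebraMap L' L (algebraMap B' L' y) = algebraMap B L (y : B) := by
    rw [← IsScalarTower.algebraMap_apply B' L' L, IsScalarTower.algebraMap_apply B' B L]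
    rfl
  have hrel : b * (b₂ : B) = (b₁ : B) := by
    apply IsFractionRing.injective B L
    rw [map_mul, hb, map_div₀, hmap, hmap]
    have : algebraMap B L (b₂ : B) ≠ 0 := by
      simpa using (IsFractionRing.injective B L).ne hb₂B
    rw [div_mul_cancel₀ _ this]
  have hbfix : ∀ σ : H, σ • b = b := by
    intro σ
    have h1 : σ • (b * (b₂ : B)) = σ • (b₁ : B) := by rw [hrel]
    rw [smul_mul', b₂.2 σ, b₁.2 σ, ← hrel] at h1
    exact mul_right_cancel₀ hb₂B h1
  refine ⟨⟨b, hbfix⟩, ?_⟩
  rw [eq_div_iff (by simpa using (IsFractionRing.injective B' L').ne hb₂0), ← map_mul]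
  congr 1
  exact Subtype.ext hrel

theorem isDedekindDomain_fixedPoints : IsDedekindDomain (FixedPoints.subalgebra A B H) := by
  have := finite_fixedPoints (A := A) (B := B) G H
  have : Algebra.IsIntegral A (FixedPoints.subalgebra A B H) := Algebra.IsIntegral.of_finite _ _
  exact
    { isNoetherianRing_fixedPoints (A := A) (B := B) G H,
      Ring.DimensionLEOne.of_isIntegral A (FixedPoints.subalgebra A B H),
      isIntegrallyClosed_fixedPoints (A := A) (B := B) G H with :
      IsDedekindDomain (FixedPoints.subalgebra A B H) }

end InvRing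

section Counting

variable {A B : Type*} [CommRing A] [CommRing B] [Algebra A B]
  [IsDedekindDomain A] [IsDedekindDomain B] [IsTorsionFree A B] [Module.Finite A B]
  (G : Type*) [Group G] [Finite G] [MulSemiringAction G B] [IsGaloisGroup G A B]

/-- `e(P|p) f(P|p) = |Stab_G(P)|` for a nonzero prime `P` of `B`. -/
theorem ramificationIdx_mul_inertiaDeg_eq_card_stabilizer (P : Ideal B) [P.IsPrime] :
    P.ramificationIdx A * P.inertiaDeg A = Nat.card (MulAction.stabilizer G P) := by
  have hPp : P.LiesOver (P.under A) := ⟨rfl⟩
  have hpprime : (P.under A).IsPrime := Ideal.IsPrime.under A P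
  have h1 := Ideal.ncard_primesOver_mul_ramificationIdxIn_mul_inertiaDegIn (P.under A) B G
  rw [Ideal.ramificationIdxIn_eq_ramificationIdx (P.under A) P G,
    Ideal.inertiaDegIn_eq_inertiaDeg (P.under A) P G] at h1
  have h2 := Nat.card_congr (MulAction.orbitProdStabilizerEquivGroup G P)
  rw [Nat.card_prod, Algebra.IsInvariant.orbit_eq_primesOver A B G (P.under A) P,
    Nat.card_coe_set_eq] at h2
  have hg : ((P.under A).primesOver B).ncard ≠ 0 := by
    intro h0
    rw [h0, zero_mul] at h2
    exact (Nat.card_pos (α := G)).ne h2
  exact Nat.eq_of_mul_eq_mul_left (Nat.pos_of_ne_zero hg) (h1.trans h2.symm)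

omit [IsDedekindDomain B] in
/-- If every element of `H` fixes `P`, the stabiliser of `P` is all of `H`. -/
theorem card_stabilizer_eq_card_of_forall {B : Type*} [CommRing B] (H : Type*) [Group H]
    [MulSemiringAction H B] (P : Ideal B) (h : ∀ σ : H, σ • P = P) :
    Nat.card (MulAction.stabilizer H P) = Nat.card H := by
  have htop : MulAction.stabilizer H P = ⊤ := by
    rw [eq_top_iff]
    intro σ _
    rw [MulAction.mem_stabilizer_iff]
    exact h σ
  rw [htop, Nat.card_congr (Subgroup.topEquiv (G := H)).toEquiv]

/-- The prime of the decomposition ring `B^D` below `P` is unramified of degree one over `A`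
(`D = Stab_G(P)`). -/
theorem ramificationIdx_under_fixedPoints_eq_one (P : Ideal B) [P.IsPrime] :
    (P.under (FixedPoints.subalgebra A B (MulAction.stabilizer G P))).ramificationIdx A = 1 ∧
    (P.under (FixedPoints.subalgebra A B (MulAction.stabilizer G P))).inertiaDeg A = 1 := by
  set D := MulAction.stabilizer G P with hD
  set B' := FixedPoints.subalgebra A B D with hB'
  have : IsDedekindDomain B' := isDedekindDomain_fixedPoints (A := A) (B := B) G D
  have : Module.Finite B' B := finite_over_fixedPoints (A := A) (B := B) G D
  have hlies : P.LiesOver (P.under B') := ⟨rfl⟩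
  have h1 := ramificationIdx_mul_inertiaDeg_eq_card_stabilizer (A := A) G P
  have h2 := ramificationIdx_mul_inertiaDeg_eq_card_stabilizer (A := B') D P
  rw [card_stabilizer_eq_card_of_forall D P (fun σ => σ.2)] at h2
  have he := Ideal.ramificationIdx_tower (R := A) (P.under B') P
  have hf := Ideal.inertiaDeg_tower (R := A) (P.under B') P
  rw [he, hf, ← hD] at h1
  have hpos : 0 < P.ramificationIdx B' * P.inertiaDeg B' := by
    rw [h2]; exact Nat.card_pos
  have h3 : ((P.under B').ramificationIdx A * (P.under B').inertiaDeg A) *
      (P.ramificationIdx B' * P.inertiaDeg B') = 1 * (P.ramificationIdx B' * P.inertiaDeg B') := by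
    rw [one_mul]
    calc _ = (P.under B').ramificationIdx A * P.ramificationIdx B' *
          ((P.under B').inertiaDeg A * P.inertiaDeg B') := by ring
      _ = Nat.card D := h1
      _ = _ := h2.symm
  have h4 := Nat.eq_of_mul_eq_mul_right hpos h3
  exact mul_eq_one.mp h4

end Counting

section Hilbert

variable {A B : Type*} [CommRing A] [CommRing B] [Algebra A B]
  [IsDedekindDomain A] [IsDedekindDomain B] [IsTorsionFree A B] [Module.Finite A B]

/-- `eOver` is Mathlib's ramification index. -/
theorem eOver_eq_ramificationIdx (v : HeightOneSpectrum B) :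
    eOver A v = v.asIdeal.ramificationIdx A := by
  classical
  have hp : v.asIdeal.under A ≠ ⊥ := Ideal.under_ne_bot A v.ne_bot
  have hmap : Ideal.map (algebraMap A B) (v.asIdeal.under A) ≠ ⊥ :=
    (Ideal.map_eq_bot_iff_of_injective (FaithfulSMul.algebraMap_injective A B)).not.mpr hp
  have : v.asIdeal.LiesOver (v.asIdeal.under A) := ⟨rfl⟩
  rw [Ideal.IsDedekindDomain.ramificationIdx_eq_normalizedFactors_count (v.asIdeal.under A)
    v.asIdeal hmap]
  unfold eOver
  congr!

variable (G : Type*) [Group G] [Fintype G] [MulSemiringAction G B] [IsGaloisGroup G A B]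
  [Algebra.IsSeparable (FractionRing A) (FractionRing B)]

/-- **Hilbert's different formula.**  `G` a finite group acting on the Dedekind domain `B` with
invariants `A`, `v` a prime of `B` with trivial residue field extension over `A`, `u` a
uniformiser at `v`.  Then `d_v = ∑_{σ ∈ Stab(v), σ ≠ 1} ord_v (u - σ u)`. -/
theorem diffExp_eq_sum_stabilizer [DecidableEq G] [DecidableEq (Ideal B)]
    (v : HeightOneSpectrum B) {u : B} (hu : u ∈ v.asIdeal) (hu2 : u ∉ v.asIdeal ^ 2)
    (hres : Function.Surjective ((Ideal.Quotient.mk v.asIdeal).comp (algebraMap A B))) :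
    diffExp A v = ∑ σ ∈ (Finset.univ.filter (fun σ : G => σ • v.asIdeal = v.asIdeal)).erase 1,
      (normalizedFactors (Ideal.span {u - σ • u})).count v.asIdeal := by
  have := v.isPrime
  set D := MulAction.stabilizer G v.asIdeal with hD
  set B' := FixedPoints.subalgebra A B D with hB'
  have : IsDedekindDomain B' := isDedekindDomain_fixedPoints (A := A) (B := B) G D
  have : Module.Finite B' B := finite_over_fixedPoints (A := A) (B := B) G D
  have : Module.Finite A B' := finite_fixedPoints (A := A) (B := B) G D
  have hsepBC : Algebra.IsSeparable (FractionRing B') (FractionRing B) :=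
    Algebra.isSeparable_tower_top_of_isSeparable (FractionRing A) _ _
  have hsepAB : Algebra.IsSeparable (FractionRing A) (FractionRing B') :=
    Algebra.isSeparable_tower_bot_of_isSeparable _ _ (FractionRing B)
  -- the tower formula
  have htower := diffExp_tower A B' v
  -- the prime of `B'` below `v` is unramified of degree one
  obtain ⟨he1, hf1⟩ := ramificationIdx_under_fixedPoints_eq_one (A := A) G v.asIdeal
  have hzero : diffExp A (v.under B') = 0 := by
    refine diffExp_eq_zero_of_eOver_eq_one A (v.under B') ?_ ?_
    · rw [eOver_eq_ramificationIdx]; exact he1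
    · have hmax : (v.under B').asIdeal.IsMaximal := (v.under B').isMaximal
      have hmax' : ((v.under B').asIdeal.under A).IsMaximal :=
        Ideal.IsMaximal.under A (v.under B').asIdeal
      have hl : (v.under B').asIdeal.LiesOver ((v.under B').asIdeal.under A) := ⟨rfl⟩
      rw [← Ideal.inertiaDeg_eq_of_isMaximal ((v.under B').asIdeal.under A) (v.under B').asIdeal]
      have : (v.under B').asIdeal.inertiaDeg A = 1 := hf1
      rw [this, Nat.cast_one]
      exact one_ne_zero
  rw [htower, hzero, mul_zero, zero_add]
  -- Hilbert's formula over the decomposition ring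
  have hstab : ∀ σ : D, σ • v.asIdeal = v.asIdeal := fun σ => σ.2
  have hres' : Function.Surjective ((Ideal.Quotient.mk v.asIdeal).comp (algebraMap B' B)) := by
    intro y
    obtain ⟨a, ha⟩ := hres y
    exact ⟨algebraMap A B' a, ha⟩
  rw [diffExp_eq_sum_of_forall_smul_eq (A := B') D v hstab hu hu2 hres']
  -- reindex the sum
  refine Finset.sum_bij (fun (σ : D) _ => (σ : G)) ?_ ?_ ?_ ?_
  · intro σ hσ
    rw [Finset.mem_erase] at hσ ⊢
    refine ⟨fun h => hσ.1 (Subtype.ext h), ?_⟩
    rw [Finset.mem_filter]
    exact ⟨Finset.mem_univ _, σ.2⟩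
  · intro σ _ τ _ h
    exact Subtype.ext h
  · intro σ hσ
    rw [Finset.mem_erase, Finset.mem_filter] at hσ
    refine ⟨⟨σ, hσ.2.2⟩, ?_, rfl⟩
    rw [Finset.mem_erase]
    exact ⟨fun h => hσ.1 (congrArg Subtype.val h), Finset.mem_univ _⟩
  · intro σ _
    rfl

end Hilbert

end Fermat.Agent.FF
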