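import Mathlib
import Fermat.Agent.FF.DiffExp

/-!
# L-FF (FF-DIFF, part 4): the different at a wildly ramified prime

`A ⊆ B` Dedekind domains, `B` finite and torsion free over `A`, separable fraction fields, `v` a
height one prime of `B` over `p = v ∩ A` with trivial residue field extension.  If `e_v f_v = 0`
in the residue field `A ⧸ p` then `e_v ≤ d_v` (`eOver_le_diffExp_of_wild`); hence

`d_v = e_v - 1 ↔ e_v f_v ≠ 0 in A ⧸ p`   (`diffExp_eq_eOver_sub_one_iff`, Dedekind's different
theorem in its complete form).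
-/

set_option autoImplicit false
set_option linter.deprecated false
set_option linter.unusedSectionVars false

namespace Fermat.Agent.FF

open Ideal Module UniqueFactorizationMonoid IsDedekindDomain Fermat.Agent.X0.RR Algebra
open scoped nonZeroDivisors

attribute [local instance] FractionRing.liftAlgebra FractionRing.isScalarTower_liftAlgebra
  Ideal.Quotient.field

section TraceCriterion

variable (A K : Type*) (L : Type*) {B : Type*} [CommRing A] [Field K] [CommRing B] [Field L]
  [Algebra A K] [Algebra B L] [Algebra A B] [Algebra K L] [Algebra A L]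
  [IsScalarTower A K L] [IsScalarTower A B L]
  [IsFractionRing A K] [FiniteDimensional K L] [Algebra.IsSeparable K L] [IsIntegralClosure B A L]
  [IsFractionRing B L] [IsDedekindDomain A] [IsDedekindDomain B] [IsTorsionFree A B]
  [Module.Finite A B]

include K L in
/-- If `p B = I * a` and the trace of every element of `a` lies in `p`, then `I` divides the
different. -/
theorem dvd_differentIdeal_of_forall_intTrace_mem_aux
    {p : Ideal A} [p.IsMaximal] (I a : Ideal B) (hp : p ≠ ⊥)
    (ha : p.map (algebraMap A B) = I * a) (hI : I ≠ ⊥)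
    (h : ∀ x ∈ a, intTrace A B x ∈ p) : I ∣ differentIdeal A B := by
  have hp' := (Ideal.map_eq_bot_iff_of_injective
    (FaithfulSMul.algebraMap_injective A B)).not.mpr hp
  have hP : ((I :)⁻¹ : FractionalIdeal B⁰ L) = a / p.map (algebraMap A B) := by
    apply inv_involutive.injective
    simp only [inv_inv, ha, FractionalIdeal.coeIdeal_mul, inv_div, mul_div_assoc]
    have ha0 : (a : FractionalIdeal B⁰ L) ≠ 0 := by
      have : a ≠ ⊥ := fun h0 => hp' (by rw [ha, h0, Ideal.mul_bot])
      simpa using this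
    rw [div_self ha0, mul_one]
  rw [Ideal.dvd_iff_le, differentialIdeal_le_iff (K := K) (L := L) hI, hP,
    Submodule.map_le_iff_le_comap]
  intro x hx
  rw [Submodule.restrictScalars_mem, FractionalIdeal.mem_coe,
    FractionalIdeal.mem_div_iff_of_ne_zero (by simpa using hp')] at hx
  rw [Submodule.mem_comap, LinearMap.coe_restrictScalars, ← FractionalIdeal.coe_one,
    ← div_self (G₀ := FractionalIdeal A⁰ K) (a := p) (by simpa using hp),
    FractionalIdeal.mem_coe, FractionalIdeal.mem_div_iff_of_ne_zero (by simpa using hp)]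
  simp only [FractionalIdeal.mem_coeIdeal, forall_exists_index, and_imp,
    forall_apply_eq_imp_iff₂] at hx
  intro y hy'
  obtain ⟨y, hy, rfl : algebraMap A K _ = _⟩ := (FractionalIdeal.mem_coeIdeal _).mp hy'
  obtain ⟨z, hz, hz'⟩ := hx _ (Ideal.mem_map_of_mem _ hy)
  have : trace K L (algebraMap B L z) ∈ (p : FractionalIdeal A⁰ K) := by
    rw [← algebraMap_intTrace (A := A)]
    exact ⟨intTrace A B z, h z hz, rfl⟩
  rwa [mul_comm, ← smul_eq_mul, ← map_smul, Algebra.smul_def, mul_comm,
    ← IsScalarTower.algebraMap_apply, IsScalarTower.algebraMap_apply A B L, ← hz']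

end TraceCriterion

section Wild

variable (A : Type*) {B : Type*} [CommRing A] [CommRing B] [Algebra A B]
  [IsDedekindDomain A] [IsDedekindDomain B] [IsTorsionFree A B] [Module.Finite A B]
  [Algebra.IsSeparable (FractionRing A) (FractionRing B)]

/-- If `p B = I * a` and the trace of every element of `a` lies in `p`, then `I` divides the
different. -/
theorem dvd_differentIdeal_of_forall_intTrace_mem
    {p : Ideal A} [p.IsMaximal] (I a : Ideal B) (hp : p ≠ ⊥)
    (ha : p.map (algebraMap A B) = I * a) (hI : I ≠ ⊥)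
    (h : ∀ x ∈ a, intTrace A B x ∈ p) : I ∣ differentIdeal A B := by
  have : IsLocalization (algebraMapSubmonoid B A⁰) (FractionRing B) :=
    IsIntegralClosure.isLocalization _ (FractionRing A) _ _
  have : FiniteDimensional (FractionRing A) (FractionRing B) := .of_isLocalization A B A⁰
  exact dvd_differentIdeal_of_forall_intTrace_mem_aux A (FractionRing A) (FractionRing B) I a hp
    ha hI h

/-- The trace of an "idempotent at `P`" is `e f` modulo `p`. -/
theorem mk_intTrace_eq_of_sub_one_mem
    {p : Ideal A} [p.IsMaximal] (P Q : Ideal B) [P.IsMaximal] [P.LiesOver p] (e : ℕ) (he : e ≠ 0)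
    (hPQ : IsCoprime P Q) (hP : P ^ e * Q = Ideal.map (algebraMap A B) p) (hp : p ≠ ⊥)
    (y : B) (hy1 : y - 1 ∈ P ^ e) (hyQ : y ∈ Q) :
    Ideal.Quotient.mk p (intTrace A B y) = ((e * finrank (A ⧸ p) (B ⧸ P) : ℕ) : A ⧸ p) := by
  have hleQ : p ≤ Q.comap (algebraMap A B) := by
    rw [← Ideal.map_le_iff_le_comap, ← hP]
    exact Ideal.mul_le_right (I := P ^ e) (J := Q)
  have hleP : p ≤ (P ^ e).comap (algebraMap A B) := by
    rw [← Ideal.map_le_iff_le_comap, ← hP]
    exact Ideal.mul_le_left (I := P ^ e) (J := Q)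
  let _iQ : Algebra (A ⧸ p) (B ⧸ Q) := Ideal.Quotient.algebraQuotientOfLEComap hleQ
  let _iP : Algebra (A ⧸ p) (B ⧸ P ^ e) := Ideal.Quotient.algebraQuotientOfLEComap hleP
  have : IsScalarTower A (A ⧸ p) (B ⧸ Q) := .of_algebraMap_eq' rfl
  have : IsScalarTower A (A ⧸ p) (B ⧸ P ^ e) := .of_algebraMap_eq' rfl
  have : Module.Finite (A ⧸ p) (B ⧸ Q) :=
    Module.Finite.of_restrictScalars_finite A (A ⧸ p) (B ⧸ Q)
  have : Module.Finite (A ⧸ p) (B ⧸ P ^ e) :=
    Module.Finite.of_restrictScalars_finite A (A ⧸ p) (B ⧸ P ^ e)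
  have hcop : IsCoprime (P ^ e) Q := hPQ.pow_left
  let E : (B ⧸ p.map (algebraMap A B)) ≃ₐ[A ⧸ p] ((B ⧸ P ^ e) × B ⧸ Q) :=
    { __ := (Ideal.quotEquivOfEq hP.symm).trans (Ideal.quotientMulEquivQuotientProd (P ^ e) Q hcop),
      commutes' := Quotient.ind fun _ ↦ rfl }
  have hE : E (Ideal.Quotient.mk _ y) = (1, 0) := by
    have h1 : Ideal.Quotient.mk (P ^ e) y = 1 := by
      rw [← map_one (Ideal.Quotient.mk (P ^ e)), Ideal.Quotient.eq]; exact hy1
    have h2 : Ideal.Quotient.mk Q y = 0 := Ideal.Quotient.eq_zero_iff_mem.mpr hyQ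
    change (Ideal.Quotient.mk (P ^ e) y, Ideal.Quotient.mk Q y) = (1, 0)
    rw [h1, h2]
  rw [← Algebra.trace_quotient_eq_of_isDedekindDomain, ← Algebra.trace_eq_of_algEquiv E, hE,
    Algebra.trace_prod_apply]
  simp only [map_zero, add_zero]
  have h1 : Algebra.trace (A ⧸ p) (B ⧸ P ^ e) 1 =
      ((finrank (A ⧸ p) (B ⧸ P ^ e) : ℕ) : A ⧸ p) := by
    have := Algebra.trace_algebraMap (R := A ⧸ p) (S := B ⧸ P ^ e) 1
    rw [map_one] at this
    rw [this]
    simp
  rw [h1, finrank_quotient_pow_of_map_eq A P Q e he hPQ hP hp hleP]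

/-- **Wild lower bound, factored form.**  If `p B = P ^ e * Q`, `P` and `Q` coprime, the residue
field extension at `P` is trivial and `e f = 0` in `A ⧸ p`, then `P ^ e` divides the different. -/
theorem pow_dvd_differentIdeal_of_wild
    {p : Ideal A} [p.IsMaximal] (P Q : Ideal B) [P.IsMaximal] [P.LiesOver p] (e : ℕ) (he : e ≠ 0)
    (hPQ : IsCoprime P Q) (hP : P ^ e * Q = Ideal.map (algebraMap A B) p) (hp : p ≠ ⊥)
    (hres : Function.Surjective ((Ideal.Quotient.mk P).comp (algebraMap A B)))
    (hwild : ((e * finrank (A ⧸ p) (B ⧸ P) : ℕ) : A ⧸ p) = 0) :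
    P ^ e ∣ differentIdeal A B := by
  have hP0 : P ≠ ⊥ := Ideal.ne_bot_of_liesOver_of_ne_bot hp P
  have hcop : IsCoprime (P ^ e) Q := hPQ.pow_left
  refine dvd_differentIdeal_of_forall_intTrace_mem A (P ^ e) Q hp hP.symm (pow_ne_zero _ hP0) ?_
  intro x hx
  obtain ⟨a', ha', y, hyQ, hay⟩ := Ideal.isCoprime_iff_exists.mp hcop
  have hy1 : y - 1 ∈ P ^ e := by
    have : y - 1 = -a' := by rw [← hay]; ring
    rw [this]; exact neg_mem ha'
  obtain ⟨c, hc⟩ := hres (Ideal.Quotient.mk P x)
  have hxc : x - algebraMap A B c ∈ P := by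
    rw [← Ideal.Quotient.eq]; exact hc.symm
  set w := x - algebraMap A B c * y with hw
  have hwQ : w ∈ Q := sub_mem hx (Ideal.mul_mem_left _ _ hyQ)
  have hwP : w ∈ P := by
    have : w = (x - algebraMap A B c) - algebraMap A B c * (y - 1) := by rw [hw]; ring
    rw [this]
    exact sub_mem hxc (Ideal.mul_mem_left _ _ (Ideal.pow_le_self he hy1))
  have hwe : w ^ e ∈ Ideal.map (algebraMap A B) p := by
    rw [← hP, ← Ideal.inf_eq_mul_of_isCoprime hcop]
    exact ⟨Ideal.pow_mem_pow hwP e, Ideal.pow_mem_of_mem _ hwQ e (Nat.pos_of_ne_zero he)⟩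
  have hnil : Ideal.Quotient.mk p (intTrace A B w) = 0 := by
    rw [← trace_quotient_eq_of_isDedekindDomain, ← isNilpotent_iff_eq_zero]
    refine isNilpotent_trace_of_isNilpotent ⟨e, ?_⟩
    rw [← map_pow, Ideal.Quotient.eq_zero_iff_mem]
    exact hwe
  have hx' : x = w + c • y := by rw [hw, Algebra.smul_def]; ring
  rw [← Ideal.Quotient.eq_zero_iff_mem, hx', map_add, map_smul, map_add, hnil, zero_add,
    smul_eq_mul, map_mul, mk_intTrace_eq_of_sub_one_mem A P Q e he hPQ hP hp y hy1 hyQ, hwild,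
    mul_zero]

/-- **Wild lower bound**: if the residue field extension at `v` is trivial and `e_v f_v = 0` in
the residue field, then `e_v ≤ d_v`. -/
theorem eOver_le_diffExp_of_wild (v : HeightOneSpectrum B)
    (hres : Function.Surjective ((Ideal.Quotient.mk v.asIdeal).comp (algebraMap A B)))
    (hwild : ((eOver A v * finrank (A ⧸ v.asIdeal.under A) (B ⧸ v.asIdeal) : ℕ) :
      A ⧸ v.asIdeal.under A) = 0) :
    eOver A v ≤ diffExp A v := by
  classical
  have := v.isMaximal
  have hp : v.asIdeal.under A ≠ ⊥ := Ideal.under_ne_bot A v.ne_bot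
  have : (v.asIdeal.under A).IsMaximal := Ideal.IsMaximal.under A v.asIdeal
  have hmap : Ideal.map (algebraMap A B) (v.asIdeal.under A) ≠ ⊥ :=
    (Ideal.map_eq_bot_iff_of_injective (FaithfulSMul.algebraMap_injective A B)).not.mpr hp
  have hlies : v.asIdeal.LiesOver (v.asIdeal.under A) := ⟨rfl⟩
  obtain ⟨Q, hPQ, hQ⟩ := exists_isCoprime_pow_count_mul_eq
    (Ideal.map (algebraMap A B) (v.asIdeal.under A)) v.asIdeal hmap v.ne_bot
  rw [eOver_eq_count] at hwild ⊢
  have he : (normalizedFactors (Ideal.map (algebraMap A B) (v.asIdeal.under A))).count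
      v.asIdeal ≠ 0 := by
    rw [Ne, Multiset.count_eq_zero, ← Ideal.mem_primesOver_iff_mem_normalizedFactors B hp]
    exact fun h => h ⟨v.isPrime, hlies⟩
  rw [← pow_dvd_differentIdeal_iff]
  exact pow_dvd_differentIdeal_of_wild A v.asIdeal Q _ he hPQ hQ hp hres hwild

/-- **Dedekind's different theorem, complete form** (trivial residue field extension):
`d_v = e_v - 1` if and only if `e_v f_v ≠ 0` in the residue field. -/
theorem diffExp_eq_eOver_sub_one_iff (v : HeightOneSpectrum B)
    (hres : Function.Surjective ((Ideal.Quotient.mk v.asIdeal).comp (algebraMap A B))) :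
    diffExp A v = eOver A v - 1 ↔
      ((eOver A v * finrank (A ⧸ v.asIdeal.under A) (B ⧸ v.asIdeal) : ℕ) :
        A ⧸ v.asIdeal.under A) ≠ 0 := by
  constructor
  · intro h hwild
    have h1 := eOver_le_diffExp_of_wild A v hres hwild
    have he : eOver A v ≠ 0 := by
      classical
      have := v.isMaximal
      have hp : v.asIdeal.under A ≠ ⊥ := Ideal.under_ne_bot A v.ne_bot
      have : (v.asIdeal.under A).IsMaximal := Ideal.IsMaximal.under A v.asIdeal
      have hlies : v.asIdeal.LiesOver (v.asIdeal.under A) := ⟨rfl⟩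
      rw [eOver_eq_count, Ne, Multiset.count_eq_zero,
        ← Ideal.mem_primesOver_iff_mem_normalizedFactors B hp]
      exact fun h => h ⟨v.isPrime, hlies⟩
    omega
  · exact diffExp_eq_eOver_sub_one_of_tame A v

end Wild

end Fermat.Agent.FF
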