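import Mathlib
import Fermat.Agent.X0.RR.BG
import Fermat.Agent.X0.RR.StdPair

/-!
# FF: Riemann–Roch for lattice pairs, determinant form

`V` a finite-dimensional `RatFunc K`-vector space, `β γ` two bases. The pair
`(latF β, latInf γ 0)` (`K[X]`-lattice spanned by `β`, `Rinf`-lattice spanned by `γ`) has Euler
characteristic

  `h⁰ - h¹ = #ι + deg det (β.toMatrix γ)`          (`euler_char_eq`),

where `deg = RatFunc.intDegree`.  Ingredients: Birkhoff–Grothendieck (`RR.exists_std_basis`), the
standard pair (`RR.finrank_latF_inf_latInf`, `RR.finrank_quotient_latF_sup_latInf`) and the fact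
that a change of basis between two bases of the same `K[X]`-lattice (resp. `Rinf`-lattice) has a
determinant of degree `0`.
-/

set_option autoImplicit false

open Fermat.Agent.X0.RR Polynomial Module Matrix

namespace Fermat.Agent.FF

variable {K : Type*} [Field K] {ι : Type*} [Fintype ι] [DecidableEq ι]

/-- The determinant of a matrix with entries in a subring lies in the subring. -/
theorem det_mem_subring {R : Type*} [CommRing R] (S : Subring R) (M : Matrix ι ι R)
    (h : ∀ i j, M i j ∈ S) : M.det ∈ S := by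
  rw [Matrix.det_apply]
  refine Subring.sum_mem _ fun σ _ => ?_
  have hprod : (∏ i, M (σ i) i) ∈ S := Subring.prod_mem _ fun i _ => h _ _
  rcases Int.units_eq_one_or (Equiv.Perm.sign σ) with h1 | h1 <;> rw [h1]
  · simpa using hprod
  · simpa using S.neg_mem hprod

/-- Mutually inverse matrices with entries in `Rinf K` have determinants of degree `0`. -/
theorem intDegree_det_eq_zero_of_mem_Rinf (M N : Matrix ι ι (RatFunc K))
    (hM : ∀ i j, M i j ∈ Rinf K) (hN : ∀ i j, N i j ∈ Rinf K) (h : M * N = 1) :
    M.det.intDegree = 0 := by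
  have hdM : M.det ∈ Rinf K := det_mem_subring (Rinf K).toSubring M hM
  have hdN : N.det ∈ Rinf K := det_mem_subring (Rinf K).toSubring N hN
  have hprod : M.det * N.det = 1 := by rw [← Matrix.det_mul, h, Matrix.det_one]
  have hM0 : M.det ≠ 0 := left_ne_zero_of_mul_eq_one hprod
  have hN0 : N.det ≠ 0 := right_ne_zero_of_mul_eq_one hprod
  rw [mem_Rinf_iff] at hdM hdN
  have h1 := hdM.resolve_left hM0
  have h2 := hdN.resolve_left hN0
  have h3 := RatFunc.intDegree_mul hM0 hN0
  rw [hprod, RatFunc.intDegree_one] at h3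
  omega

/-- Mutually inverse matrices with polynomial entries have determinants of degree `0`. -/
theorem intDegree_det_eq_zero_of_mem_polySub (M N : Matrix ι ι (RatFunc K))
    (hM : ∀ i j, M i j ∈ polySub K) (hN : ∀ i j, N i j ∈ polySub K) (h : M * N = 1) :
    M.det.intDegree = 0 := by
  have hM' : ∀ i j, M i j ∈ (algebraMap K[X] (RatFunc K)).range := fun i j => by
    rw [RingHom.mem_range]
    exact mem_polySub.mp (hM i j)
  have hN' : ∀ i j, N i j ∈ (algebraMap K[X] (RatFunc K)).range := fun i j => by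
    rw [RingHom.mem_range]
    exact mem_polySub.mp (hN i j)
  obtain ⟨p, hp⟩ := RingHom.mem_range.mp (det_mem_subring _ M hM')
  obtain ⟨q, hq⟩ := RingHom.mem_range.mp (det_mem_subring _ N hN')
  have hprod : M.det * N.det = 1 := by rw [← Matrix.det_mul, h, Matrix.det_one]
  have hpq : p * q = 1 := by
    apply RatFunc.algebraMap_injective K
    rw [map_mul, hp, hq, hprod, map_one]
  have hp0 : p ≠ 0 := left_ne_zero_of_mul_eq_one hpq
  have hq0 : q ≠ 0 := right_ne_zero_of_mul_eq_one hpq
  have hdeg := Polynomial.natDegree_mul hp0 hq0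
  rw [hpq, Polynomial.natDegree_one] at hdeg
  rw [← hp, RatFunc.intDegree_polynomial]
  omega

theorem intDegree_prod_X_zpow (d : ι → ℤ) :
    (∏ i, (RatFunc.X : RatFunc K) ^ d i).intDegree = ∑ i, d i := by
  have hX : (RatFunc.X : RatFunc K) ≠ 0 := RatFunc.X_ne_zero
  have h : ∀ s : Finset ι, (∏ i ∈ s, (RatFunc.X : RatFunc K) ^ d i) = RatFunc.X ^ ∑ i ∈ s, d i := by
    intro s
    induction s using Finset.induction_on with
    | empty => simp
    | insert a s ha ih => rw [Finset.prod_insert ha, Finset.sum_insert ha, ih, zpow_add₀ hX]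
  rw [h, intDegree_X_zpow]

variable {V : Type*} [AddCommGroup V] [Module (RatFunc K) V] [Module K V]
  [IsScalarTower K (RatFunc K) V]

omit [DecidableEq ι] in
theorem basis_mem_latF (b : Basis ι (RatFunc K) V) (j : ι) : b j ∈ latF b := by
  classical
  rw [mem_latF]
  intro i
  rw [Basis.repr_self, Finsupp.single_apply]
  split_ifs
  · exact mem_polySub.mpr ⟨1, map_one _⟩
  · exact (polySub K).zero_mem

omit [DecidableEq ι] in
theorem basis_mem_latInf_zero (b : Basis ι (RatFunc K) V) (j : ι) : b j ∈ latInf b 0 := by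
  classical
  rw [mem_latInf]
  intro i
  rw [Basis.repr_self, Finsupp.single_apply]
  split_ifs
  · right
    rw [RatFunc.intDegree_one]
    rfl
  · exact IntDegLE.zero _

omit [DecidableEq ι] in
theorem X_zpow_smul_basis_mem_latInf (b : Basis ι (RatFunc K) V) (d : ι → ℤ) (j : ι) :
    (RatFunc.X : RatFunc K) ^ d j • b j ∈ latInf b d := by
  classical
  rw [mem_latInf]
  intro i
  rw [map_smul, Finsupp.smul_apply, Basis.repr_self, Finsupp.single_apply, smul_eq_mul]
  split_ifs with hij
  · rw [mul_one, ← hij]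
    exact intDegLE_X_zpow _
  · rw [mul_zero]
    exact IntDegLE.zero _

/-- The degree of the determinant of the change of basis, in terms of a standard basis. -/
theorem intDegree_det_toMatrix_eq_sum (β γ b : Basis ι (RatFunc K) V) (d : ι → ℤ)
    (hb : latF b = latF β) (hd : latInf b d = latInf γ 0) :
    (β.toMatrix γ).det.intDegree = ∑ i, d i := by
  have hX : (RatFunc.X : RatFunc K) ≠ 0 := RatFunc.X_ne_zero
  -- first factor
  have h1 : (β.toMatrix b).det.intDegree = 0 := by
    refine intDegree_det_eq_zero_of_mem_polySub (β.toMatrix b) (b.toMatrix β) ?_ ?_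
      (Basis.toMatrix_mul_toMatrix_flip β b)
    · intro i j
      rw [Basis.toMatrix_apply]
      have : b j ∈ latF β := hb ▸ basis_mem_latF b j
      exact mem_latF.mp this i
    · intro i j
      rw [Basis.toMatrix_apply]
      have : β j ∈ latF b := hb ▸ basis_mem_latF β j
      exact mem_latF.mp this i
  -- second factor
  set P := b.toMatrix γ with hP
  set Q := γ.toMatrix b with hQ
  have hPQ : P * Q = 1 := Basis.toMatrix_mul_toMatrix_flip b γ
  set D : Matrix ι ι (RatFunc K) := Matrix.diagonal fun i => (RatFunc.X : RatFunc K) ^ d i with hD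
  set Dinv : Matrix ι ι (RatFunc K) :=
    Matrix.diagonal fun i => (RatFunc.X : RatFunc K) ^ (-d i) with hDinv
  have hDDinv : D * Dinv = 1 := by
    rw [hD, hDinv, Matrix.diagonal_mul_diagonal]
    have : (fun i => (RatFunc.X : RatFunc K) ^ d i * RatFunc.X ^ (-d i)) = fun _ => 1 := by
      funext i
      rw [← zpow_add₀ hX, add_neg_cancel, zpow_zero]
    rw [this, Matrix.diagonal_one]
  have hDinvD : Dinv * D = 1 := by
    rw [hD, hDinv, Matrix.diagonal_mul_diagonal]
    have : (fun i => (RatFunc.X : RatFunc K) ^ (-d i) * RatFunc.X ^ d i) = fun _ => 1 := by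
      funext i
      rw [← zpow_add₀ hX, neg_add_cancel, zpow_zero]
    rw [this, Matrix.diagonal_one]
  have h2 : (Dinv * P).det.intDegree = 0 := by
    refine intDegree_det_eq_zero_of_mem_Rinf (Dinv * P) (Q * D) ?_ ?_ ?_
    · intro i j
      rw [hDinv, Matrix.diagonal_mul, hP, Basis.toMatrix_apply, mem_Rinf_iff, mul_comm]
      have hγ : γ j ∈ latInf b d := hd ▸ basis_mem_latInf_zero γ j
      have := mem_latInf.mp hγ i
      have h3 := (intDegLE_mul_X_zpow_iff (k := -d i)).mpr this
      rwa [add_neg_cancel] at h3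
    · intro i j
      rw [hD, Matrix.mul_diagonal, hQ, Basis.toMatrix_apply, mem_Rinf_iff]
      have hmem : (RatFunc.X : RatFunc K) ^ d j • b j ∈ latInf γ 0 :=
        hd ▸ X_zpow_smul_basis_mem_latInf b d j
      have := mem_latInf.mp hmem i
      rw [map_smul, Finsupp.smul_apply, smul_eq_mul, mul_comm] at this
      exact this
    · rw [Matrix.mul_assoc, ← Matrix.mul_assoc P, hPQ, Matrix.one_mul, hDinvD]
  have hPeq : P = D * (Dinv * P) := by
    rw [← Matrix.mul_assoc, hDDinv, Matrix.one_mul]
  have hdetD : D.det = ∏ i, (RatFunc.X : RatFunc K) ^ d i := by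
    rw [hD, Matrix.det_diagonal]
  have hdetD0 : D.det ≠ 0 := by
    rw [hdetD]
    exact Finset.prod_ne_zero_iff.mpr fun i _ => zpow_ne_zero _ hX
  have hdetP'0 : (Dinv * P).det ≠ 0 := by
    intro h0
    have : (Dinv * P * (Q * D)).det = 1 := by
      rw [Matrix.mul_assoc, ← Matrix.mul_assoc P, hPQ, Matrix.one_mul, hDinvD, Matrix.det_one]
    rw [Matrix.det_mul, h0, zero_mul] at this
    exact zero_ne_one this
  have h3 : P.det.intDegree = ∑ i, d i := by
    rw [hPeq, Matrix.det_mul, RatFunc.intDegree_mul hdetD0 hdetP'0, h2, add_zero, hdetD,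
      intDegree_prod_X_zpow]
  have hM0 : (β.toMatrix b).det ≠ 0 := by
    intro h0
    have := congrArg Matrix.det (Basis.toMatrix_mul_toMatrix_flip β b)
    rw [Matrix.det_mul, h0, zero_mul, Matrix.det_one] at this
    exact zero_ne_one this
  have hP0 : P.det ≠ 0 := by
    intro h0
    have := congrArg Matrix.det hPQ
    rw [Matrix.det_mul, h0, zero_mul, Matrix.det_one] at this
    exact zero_ne_one this
  rw [← Basis.toMatrix_mul_toMatrix β b γ, Matrix.det_mul, RatFunc.intDegree_mul hM0 hP0, h1, h3,
    zero_add]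

/-- **Riemann–Roch for a lattice pair, determinant form.** -/
theorem euler_char_eq (β γ : Basis ι (RatFunc K) V) :
    (finrank K ↥(latF β ⊓ latInf γ 0) : ℤ) - (finrank K (V ⧸ (latF β ⊔ latInf γ 0)) : ℤ) =
      (Fintype.card ι : ℤ) + (β.toMatrix γ).det.intDegree := by
  obtain ⟨b, d, hb, hd⟩ := exists_std_basis β γ
  rw [intDegree_det_toMatrix_eq_sum β γ b d hb hd, ← hb, ← hd, finrank_latF_inf_latInf,
    finrank_quotient_latF_sup_latInf]
  push_cast
  rw [← Finset.sum_sub_distrib]
  have hterm : ∀ i, ((d i + 1).toNat : ℤ) - ((-d i - 1).toNat : ℤ) = d i + 1 := by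
    intro i
    omega
  rw [Finset.sum_congr rfl fun i _ => hterm i, Finset.sum_add_distrib]
  simp
  ring

end Fermat.Agent.FF
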