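import Mathlib
import Fermat.Agent.FF.LatticeRR
import Fermat.Agent.FF.GenusStd

/-!
# FF: the genus formula in discriminant form, any characteristic  (interface [G-OUT])

Coordinate context, `K` algebraically closed, `n = [F : K(x)]`.  Let `bf`, `binf` be
`RatFunc K`-bases of `F` which are a `K[X]`-basis of `Bf K F` (`latF bf = BfK K F`) resp. an
`Rinf K`-basis of `Binf K F` (`latInf binf 0 = BinfK K F`).  Then

* `one_sub_genus_eq_det` : `1 - g = n + deg det (bf.toMatrix binf)`;
* `genus_discr` : `2 g - 2 = -2 n + deg disc(bf) - deg disc(binf)`,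

where `g = genusFF K F` and `deg = RatFunc.intDegree` (`deg disc(bf)` is the degree of the
discriminant polynomial of `Bf / K[X]`, `- deg disc(binf)` the discriminant exponent at infinity).
-/

set_option autoImplicit false

open AlgebraicCurve Fermat.Agent.X0 Fermat.Agent.X0.RR Fermat.Agent.X0.RR7 Polynomial FunctionField
  Module Matrix

namespace Fermat.Agent.FF

variable {K F : Type*} [Field K] [Field F] [Algebra K F]
  [Algebra K[X] F] [Algebra (RatFunc K) F] [IsScalarTower K[X] (RatFunc K) F]
  [IsScalarTower K K[X] F] [IsScalarTower K (RatFunc K) F]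
  [FunctionField K F] [Algebra.IsSeparable (RatFunc K) F]

attribute [local instance] addCommGroupRepartitions

variable {ι : Type*} [Fintype ι] [DecidableEq ι]

/-- `1 - g = n + deg det` of the change of basis from a `K[X]`-basis of `Bf` to an `Rinf`-basis of
`Binf`. -/
theorem one_sub_genus_eq_det [IsAlgClosed K] (bf binf : Basis ι (RatFunc K) F)
    (hf : latF bf = BfK K F) (hinf : latInf binf 0 = BinfK K F) :
    (1 : ℤ) - (genusFF K F : ℤ) =
      (finrank (RatFunc K) F : ℤ) + (bf.toMatrix binf).det.intDegree := by
  have h := euler_char_eq (K := K) bf binf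
  rw [hf, hinf, ← Adele.genusFF_eq_finrank_quotient K F, ← riemannRochSpace_zero_eq_inf K F] at h
  have hP := hasPrincipalDivisors_coord K F
  have hne : Nonempty (Place K F) := (infinite_place (isSepVarS_coordX K F)).nonempty
  rw [finrank_riemannRochSpace_zero (K := K) (F := F) finite_residueField_coord,
    ← finrank_eq_card_basis bf] at h
  exact_mod_cast h

/-- **The genus formula in discriminant form.** -/
theorem genus_discr [IsAlgClosed K] (bf binf : Basis ι (RatFunc K) F)
    (hf : latF bf = BfK K F) (hinf : latInf binf 0 = BinfK K F) :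
    2 * (genusFF K F : ℤ) - 2 =
      -2 * (finrank (RatFunc K) F : ℤ) + (Algebra.discr (RatFunc K) bf).intDegree -
        (Algebra.discr (RatFunc K) binf).intDegree := by
  have h1 := one_sub_genus_eq_det bf binf hf hinf
  set P := bf.toMatrix binf with hP
  have hvec : (binf : ι → F) = (bf : ι → F) ᵥ* P.map (algebraMap (RatFunc K) F) := by
    funext j
    rw [Matrix.vecMul, dotProduct]
    simp only [Matrix.map_apply]
    rw [← bf.sum_repr (binf j)]
    refine Finset.sum_congr rfl fun i _ => ?_
    rw [hP, Basis.toMatrix_apply, Algebra.smul_def, mul_comm]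
  have hdisc : Algebra.discr (RatFunc K) binf = P.det ^ 2 * Algebra.discr (RatFunc K) bf := by
    rw [hvec]
    exact Algebra.discr_of_matrix_vecMul _ _
  have hd0 : Algebra.discr (RatFunc K) bf ≠ 0 := Algebra.discr_not_zero_of_basis (RatFunc K) bf
  have hP0 : P.det ≠ 0 := by
    intro h0
    have := congrArg Matrix.det (Basis.toMatrix_mul_toMatrix_flip bf binf)
    rw [Matrix.det_mul, ← hP, h0, zero_mul, Matrix.det_one] at this
    exact zero_ne_one this
  have hdeg : (Algebra.discr (RatFunc K) binf).intDegree =
      2 * P.det.intDegree + (Algebra.discr (RatFunc K) bf).intDegree := by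
    rw [hdisc, RatFunc.intDegree_mul (pow_ne_zero 2 hP0) hd0, pow_two,
      RatFunc.intDegree_mul hP0 hP0]
    ring
  rw [hdeg]
  linarith

end Fermat.Agent.FF
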