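import Mathlib
import Fermat.Agent.FF.LatticeRR
import Fermat.Agent.X0.RR.Additivity
import Fermat.Agent.X0.RR.EulerCompare

/-!
# FF: the index of two lattices is the degree of the determinant of the change of basis

`V` a finite-dimensional `RatFunc K`-vector space.

* `finrank_quot_latInf` : if `latInf γ₁ 0 ≤ latInf γ₂ 0` then
  `dim_K (latInf γ₂ 0 / latInf γ₁ 0) = deg det (γ₁.toMatrix γ₂)`;
* `finrank_quot_latF` : if `latF β₁ ≤ latF β₂` then
  `dim_K (latF β₂ / latF β₁) = deg det (β₂.toMatrix β₁)`.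

Both follow from the additivity of the Euler characteristic (`RR.rank_inf_add_rank_quotient_sup`)
and the determinant form of Riemann–Roch for lattice pairs (`euler_char_eq`).
-/

set_option autoImplicit false

open Fermat.Agent.X0.RR Polynomial Module Matrix

namespace Fermat.Agent.FF

section Abstract

universe u v

variable {K : Type v} [Field K] {V : Type u} [AddCommGroup V] [Module K V]

/-- Enlarging the second member of a pair of subspaces: the index is the difference of the Euler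
characteristics. -/
theorem finrank_quot_of_pair_right {L₁ L₂ L₂' : Submodule K V} (h₂ : L₂ ≤ L₂')
    [Module.Finite K ↥(L₁ ⊓ L₂)] [Module.Finite K (V ⧸ (L₁ ⊔ L₂))]
    [Module.Finite K ↥(L₁ ⊓ L₂')] [Module.Finite K (V ⧸ (L₁ ⊔ L₂'))] :
    Module.Finite K (↥L₂' ⧸ Submodule.comap L₂'.subtype L₂) ∧
      (finrank K (↥L₂' ⧸ Submodule.comap L₂'.subtype L₂) : ℤ) =
        ((finrank K ↥(L₁ ⊓ L₂') : ℤ) - (finrank K (V ⧸ (L₁ ⊔ L₂')) : ℤ)) -
          ((finrank K ↥(L₁ ⊓ L₂) : ℤ) - (finrank K (V ⧸ (L₁ ⊔ L₂)) : ℤ)) := by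
  have ea := rank_inf_add_rank_quotient_sup (le_refl L₁) h₂
  rw [relRank_self, add_zero] at ea
  have hfin : Module.Finite K (↥L₂' ⧸ Submodule.comap L₂'.subtype L₂) := by
    rw [← Module.rank_lt_aleph0_iff, ← relRank_eq_rank_quotient]
    have hlt : Module.rank K ↥(L₁ ⊓ L₂') + Module.rank K (V ⧸ (L₁ ⊔ L₂)) < Cardinal.aleph0 := by
      rw [← finrank_eq_rank, ← finrank_eq_rank]
      exact_mod_cast Cardinal.natCast_lt_aleph0
    rw [ea] at hlt
    exact lt_of_le_of_lt (self_le_add_left _ _) hlt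
  refine ⟨hfin, ?_⟩
  rw [relRank_eq_finrank_quotient, ← finrank_eq_rank, ← finrank_eq_rank, ← finrank_eq_rank,
    ← finrank_eq_rank] at ea
  have ea' : finrank K ↥(L₁ ⊓ L₂') + finrank K (V ⧸ (L₁ ⊔ L₂)) =
      finrank K ↥(L₁ ⊓ L₂) + finrank K (V ⧸ (L₁ ⊔ L₂')) +
        finrank K (↥L₂' ⧸ Submodule.comap L₂'.subtype L₂) := by
    exact_mod_cast ea
  omega

/-- Enlarging the first member of a pair of subspaces. -/
theorem finrank_quot_of_pair_left {L₁ L₁' L₂ : Submodule K V} (h₁ : L₁ ≤ L₁')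
    [Module.Finite K ↥(L₁ ⊓ L₂)] [Module.Finite K (V ⧸ (L₁ ⊔ L₂))]
    [Module.Finite K ↥(L₁' ⊓ L₂)] [Module.Finite K (V ⧸ (L₁' ⊔ L₂))] :
    Module.Finite K (↥L₁' ⧸ Submodule.comap L₁'.subtype L₁) ∧
      (finrank K (↥L₁' ⧸ Submodule.comap L₁'.subtype L₁) : ℤ) =
        ((finrank K ↥(L₁' ⊓ L₂) : ℤ) - (finrank K (V ⧸ (L₁' ⊔ L₂)) : ℤ)) -
          ((finrank K ↥(L₁ ⊓ L₂) : ℤ) - (finrank K (V ⧸ (L₁ ⊔ L₂)) : ℤ)) := by
  have ea := rank_inf_add_rank_quotient_sup h₁ (le_refl L₂)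
  rw [relRank_self, add_zero] at ea
  have hfin : Module.Finite K (↥L₁' ⧸ Submodule.comap L₁'.subtype L₁) := by
    rw [← Module.rank_lt_aleph0_iff, ← relRank_eq_rank_quotient]
    have hlt : Module.rank K ↥(L₁' ⊓ L₂) + Module.rank K (V ⧸ (L₁ ⊔ L₂)) < Cardinal.aleph0 := by
      rw [← finrank_eq_rank, ← finrank_eq_rank]
      exact_mod_cast Cardinal.natCast_lt_aleph0
    rw [ea] at hlt
    exact lt_of_le_of_lt (self_le_add_left _ _) hlt
  refine ⟨hfin, ?_⟩
  rw [relRank_eq_finrank_quotient, ← finrank_eq_rank, ← finrank_eq_rank, ← finrank_eq_rank,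
    ← finrank_eq_rank] at ea
  have ea' : finrank K ↥(L₁' ⊓ L₂) + finrank K (V ⧸ (L₁ ⊔ L₂)) =
      finrank K ↥(L₁ ⊓ L₂) + finrank K (V ⧸ (L₁' ⊔ L₂)) +
        finrank K (↥L₁' ⧸ Submodule.comap L₁'.subtype L₁) := by
    exact_mod_cast ea
  omega

end Abstract

variable {K : Type*} [Field K] {ι : Type*} [Fintype ι] [DecidableEq ι]
  {V : Type*} [AddCommGroup V] [Module (RatFunc K) V] [Module K V]
  [IsScalarTower K (RatFunc K) V]

theorem finite_h0_pair_zero (β γ : Basis ι (RatFunc K) V) :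
    Module.Finite K ↥(latF β ⊓ latInf γ 0) := by
  obtain ⟨b, d, hb, hd⟩ := exists_std_basis β γ
  rw [← hb, ← hd]
  exact finite_latF_inf_latInf b d

theorem finite_h1_pair_zero (β γ : Basis ι (RatFunc K) V) :
    Module.Finite K (V ⧸ (latF β ⊔ latInf γ 0)) := by
  obtain ⟨b, d, hb, hd⟩ := exists_std_basis β γ
  rw [← hb, ← hd]
  exact finite_quotient_latF_sup_latInf b d

omit [Module K V] [IsScalarTower K (RatFunc K) V] in
theorem det_toMatrix_self_intDegree (β : Basis ι (RatFunc K) V) :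
    (β.toMatrix β).det.intDegree = 0 := by
  rw [Basis.toMatrix_self, Matrix.det_one, RatFunc.intDegree_one]

/-- **Index of `Rinf`-lattices.** -/
theorem finrank_quot_latInf (γ₁ γ₂ : Basis ι (RatFunc K) V) (h : latInf γ₁ 0 ≤ latInf γ₂ 0) :
    Module.Finite K (↥(latInf γ₂ 0) ⧸ Submodule.comap (latInf γ₂ 0).subtype (latInf γ₁ 0)) ∧
      (finrank K (↥(latInf γ₂ 0) ⧸ Submodule.comap (latInf γ₂ 0).subtype (latInf γ₁ 0)) : ℤ) =
        (γ₁.toMatrix γ₂).det.intDegree := by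
  have i1 := finite_h0_pair_zero (K := K) γ₁ γ₁
  have i2 := finite_h1_pair_zero (K := K) γ₁ γ₁
  have i3 := finite_h0_pair_zero (K := K) γ₁ γ₂
  have i4 := finite_h1_pair_zero (K := K) γ₁ γ₂
  obtain ⟨hfin, hrank⟩ := finrank_quot_of_pair_right (L₁ := latF γ₁) h
  refine ⟨hfin, ?_⟩
  rw [hrank, euler_char_eq γ₁ γ₂, euler_char_eq γ₁ γ₁, det_toMatrix_self_intDegree]
  ring

/-- **Index of `K[X]`-lattices.** -/
theorem finrank_quot_latF (β₁ β₂ : Basis ι (RatFunc K) V) (h : latF β₁ ≤ latF β₂) :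
    Module.Finite K (↥(latF β₂) ⧸ Submodule.comap (latF β₂).subtype (latF β₁)) ∧
      (finrank K (↥(latF β₂) ⧸ Submodule.comap (latF β₂).subtype (latF β₁)) : ℤ) =
        (β₂.toMatrix β₁).det.intDegree := by
  have i1 := finite_h0_pair_zero (K := K) β₁ β₁
  have i2 := finite_h1_pair_zero (K := K) β₁ β₁
  have i3 := finite_h0_pair_zero (K := K) β₂ β₁
  have i4 := finite_h1_pair_zero (K := K) β₂ β₁
  obtain ⟨hfin, hrank⟩ := finrank_quot_of_pair_left (L₂ := latInf β₁ 0) h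
  refine ⟨hfin, ?_⟩
  rw [hrank, euler_char_eq β₂ β₁, euler_char_eq β₁ β₁, det_toMatrix_self_intDegree]
  ring

end Fermat.Agent.FF
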